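/-
S55 sprint, block (II-a): basic layer for nonarchimedean local fields in the normed setting.

A "local field" here is a type `K` with
  `[NontriviallyNormedField K] [IsUltrametricDist K] [ProperSpace K]`.
A finite extension is `[NormedAlgebra K L] [FiniteDimensional K L]` between two such fields.
Everything is derived from Mathlib's `Valued.integer` API (`𝒪[K]`, `𝓂[K]`, `𝓀[K]`).
-/
import Mathlib

open scoped NormedField Valued NNReal Pointwise

namespace Fermat.Agent.S55lib.LocalUnr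

set_option linter.unusedSectionVars false
set_option linter.style.haveILetI false

section Base

variable (K : Type*) [NontriviallyNormedField K] [IsUltrametricDist K] [ProperSpace K]

/-- The unit ball of a proper ultrametric field is compact. -/
theorem compactSpace_integer : CompactSpace 𝒪[K] := by
  rw [← isCompact_univ_iff, Subtype.isCompact_iff, Set.image_univ, Subtype.range_coe_subtype]
  convert isCompact_closedBall (0:K) 1 using 1
  ext x
  simp [Valued.integer.mem_iff]

/-- The unit ball of a proper ultrametric field is a discrete valuation ring. -/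
theorem isDVR_integer : IsDiscreteValuationRing 𝒪[K] :=
  haveI := compactSpace_integer K
  haveI : (Valued.v : Valuation K ℝ≥0).RankOne :=
    inferInstanceAs (NormedField.valuation (K := K)).RankOne
  (Valued.integer.compactSpace_iff_completeSpace_and_isDiscreteValuationRing_and_finite_residueField.mp
    inferInstance).2.1

/-- The residue field of a proper ultrametric field is finite. -/
theorem finite_residue : Finite 𝓀[K] :=
  haveI := compactSpace_integer K
  haveI : (Valued.v : Valuation K ℝ≥0).RankOne :=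
    inferInstanceAs (NormedField.valuation (K := K)).RankOne
  (Valued.integer.compactSpace_iff_completeSpace_and_isDiscreteValuationRing_and_finite_residueField.mp
    inferInstance).2.2

/-- `π` is a uniformizer of `K`: it has norm `< 1`, and every element of norm `< 1` has norm at most
`‖π‖`. -/
def IsUniformizer (π : K) : Prop := ‖π‖ < 1 ∧ ∀ x : K, ‖x‖ < 1 → ‖x‖ ≤ ‖π‖

variable {K}

theorem IsUniformizer.norm_lt_one {π : K} (h : IsUniformizer K π) : ‖π‖ < 1 := h.1

theorem IsUniformizer.norm_pos {π : K} (h : IsUniformizer K π) : 0 < ‖π‖ := by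
  obtain ⟨x, hx0, hx1⟩ := NormedField.exists_norm_lt_one K
  exact lt_of_lt_of_le hx0 (h.2 x hx1)

theorem IsUniformizer.ne_zero {π : K} (h : IsUniformizer K π) : π ≠ 0 :=
  norm_pos_iff.mp h.norm_pos

variable (K)

theorem exists_isUniformizer : ∃ π : K, IsUniformizer K π := by
  haveI := isDVR_integer K
  obtain ⟨ϖ, hϖ⟩ := IsDiscreteValuationRing.exists_irreducible 𝒪[K]
  refine ⟨(ϖ : K), Valued.integer.norm_irreducible_lt_one hϖ, fun x hx => ?_⟩
  have hx1 : x ∈ 𝒪[K] := Valued.integer.mem_iff.mpr hx.le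
  have hmem : (⟨x, hx1⟩ : 𝒪[K]) ∈ (𝓂[K] : Set 𝒪[K]) := by
    rw [SetLike.mem_coe, Valued.maximalIdeal, IsLocalRing.mem_maximalIdeal, mem_nonunits_iff,
      Valued.integer.isUnit_iff_norm_eq_one]
    exact ne_of_lt hx
  rw [hϖ.maximalIdeal_eq_closedBall] at hmem
  simpa using hmem

variable {K}

/-- Every nonzero element has norm an integral power of the norm of a uniformizer. -/
theorem IsUniformizer.exists_norm_eq_zpow {π : K} (h : IsUniformizer K π) {x : K} (hx : x ≠ 0) :
    ∃ m : ℤ, ‖x‖ = ‖π‖ ^ m := by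
  have hπ0 := h.norm_pos
  have hπ1 := h.norm_lt_one
  -- first for `‖x‖ ≤ 1`
  have key : ∀ y : K, y ≠ 0 → ‖y‖ ≤ 1 → ∃ m : ℕ, ‖y‖ = ‖π‖ ^ m := by
    intro y hy hy1
    have hy0 : 0 < ‖y‖ := norm_pos_iff.mpr hy
    obtain ⟨N, hN⟩ := exists_pow_lt_of_lt_one hy0 hπ1
    -- find the largest `k` with `‖y‖ ≤ ‖π‖^k`
    classical
    have hex : ∃ k : ℕ, ‖y‖ ≤ ‖π‖ ^ k ∧ ¬ ‖y‖ ≤ ‖π‖ ^ (k + 1) := by
      by_contra hcon
      push Not at hcon
      have : ∀ k : ℕ, ‖y‖ ≤ ‖π‖ ^ k := by
        intro k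
        induction k with
        | zero => simpa using hy1
        | succ k ih => exact hcon k ih
      exact absurd (this N) (not_le.mpr hN)
    obtain ⟨k, hk1, hk2⟩ := hex
    refine ⟨k, le_antisymm hk1 ?_⟩
    by_contra hlt
    push Not at hlt
    apply hk2
    have hz : ‖y / π ^ k‖ < 1 := by
      rw [norm_div, norm_pow, div_lt_one (pow_pos hπ0 k)]
      exact hlt
    have := h.2 _ hz
    rw [norm_div, norm_pow, div_le_iff₀ (pow_pos hπ0 k)] at this
    rw [pow_succ']
    exact this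
  rcases le_or_gt ‖x‖ 1 with h1 | h1
  · obtain ⟨m, hm⟩ := key x hx h1
    exact ⟨m, by simpa using hm⟩
  · have hxi : ‖x⁻¹‖ ≤ 1 := by
      rw [norm_inv]
      exact inv_le_one_of_one_le₀ h1.le
    obtain ⟨m, hm⟩ := key x⁻¹ (inv_ne_zero hx) hxi
    refine ⟨-(m:ℤ), ?_⟩
    rw [norm_inv] at hm
    rw [zpow_neg, zpow_natCast, ← hm, inv_inv]

end Base

section Ext

variable (K L : Type*) [NontriviallyNormedField K] [IsUltrametricDist K]
  [NontriviallyNormedField L] [IsUltrametricDist L] [NormedAlgebra K L]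

/-- The inclusion of unit balls. -/
noncomputable def integerMap : 𝒪[K] →+* 𝒪[L] :=
  (algebraMap K L).restrict 𝒪[K] 𝒪[L] (fun x hx => by
    rw [Valued.integer.mem_iff] at hx ⊢; rwa [norm_algebraMap'])

noncomputable scoped instance algebraInteger : Algebra 𝒪[K] 𝒪[L] := (integerMap K L).toAlgebra

theorem coe_algebraMap_integer (x : 𝒪[K]) :
    ((algebraMap 𝒪[K] 𝒪[L] x : 𝒪[L]) : L) = algebraMap K L (x : K) := rfl

scoped instance isLocalHom_integer : IsLocalHom (algebraMap 𝒪[K] 𝒪[L]) := ⟨fun x hx => by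
  rw [Valued.integer.isUnit_iff_norm_eq_one] at hx ⊢
  have : ‖(algebraMap 𝒪[K] 𝒪[L] x : 𝒪[L])‖ = ‖x‖ := by
    change ‖algebraMap K L (x : K)‖ = ‖(x:K)‖
    exact norm_algebraMap' L (x : K)
  rw [← this]; exact hx⟩

omit [NontriviallyNormedField L] [IsUltrametricDist L] [NormedAlgebra K L] in
theorem mem_maximalIdeal_iff {x : 𝒪[K]} : x ∈ 𝓂[K] ↔ ‖x‖ < 1 := by
  rw [Valued.maximalIdeal, IsLocalRing.mem_maximalIdeal, mem_nonunits_iff,
    Valued.integer.isUnit_iff_norm_eq_one]
  exact ⟨fun h => lt_of_le_of_ne (Valued.integer.norm_le_one x) h, fun h => ne_of_lt h⟩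

variable [CompleteSpace K] [Algebra.IsAlgebraic K L]

theorem norm_algEquiv (σ : L ≃ₐ[K] L) (x : L) : ‖σ x‖ = ‖x‖ := by
  rw [NormedAlgebra.norm_eq_spectralNorm K, NormedAlgebra.norm_eq_spectralNorm K]
  exact (spectralNorm_eq_of_equiv σ x).symm

scoped instance isInvariantSubring_integer : IsInvariantSubring (L ≃ₐ[K] L) 𝒪[L] :=
  ⟨fun σ x hx => by
    rw [Valued.integer.mem_iff] at hx ⊢
    rw [AlgEquiv.smul_def, norm_algEquiv]; exact hx⟩

theorem coe_smul_integer (σ : L ≃ₐ[K] L) (x : 𝒪[L]) : ((σ • x : 𝒪[L]) : L) = σ (x : L) := rfl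

scoped instance smulCommClass_integer : SMulCommClass (L ≃ₐ[K] L) 𝒪[K] 𝒪[L] :=
  ⟨fun σ a x => by
    apply Subtype.ext
    simp only [Algebra.smul_def, coe_smul_integer, MulMemClass.coe_mul, map_mul,
      coe_algebraMap_integer, AlgEquiv.commutes]⟩

variable [FiniteDimensional K L] [IsGalois K L]

scoped instance isInvariant_integer : Algebra.IsInvariant 𝒪[K] 𝒪[L] (L ≃ₐ[K] L) :=
  ⟨fun b hb => by
    have hfix : ∀ σ : L ≃ₐ[K] L, σ (b : L) = (b : L) := fun σ => by
      have := congrArg (Subtype.val) (hb σ)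
      simpa [coe_smul_integer] using this
    obtain ⟨a, ha⟩ := (IsGalois.mem_range_algebraMap_iff_fixed (F := K) (E := L) (b : L)).mpr hfix
    have ha1 : a ∈ 𝒪[K] := by
      rw [Valued.integer.mem_iff, ← norm_algebraMap' L a, ha]
      exact Valued.integer.mem_iff.mp b.2
    exact ⟨⟨a, ha1⟩, Subtype.ext ha⟩⟩

/-- The action of the Galois group on the residue field, as algebra automorphisms. -/
noncomputable def resGal : (L ≃ₐ[K] L) →* (𝓀[L] ≃ₐ[𝓀[K]] 𝓀[L]) :=
  (Ideal.Quotient.stabilizerHom 𝓂[L] 𝓂[K] (L ≃ₐ[K] L)).comp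
    (MonoidHom.mk' (fun σ => (⟨σ, by
      rw [MulAction.mem_stabilizer_iff]
      ext x
      rw [Ideal.mem_pointwise_smul_iff_inv_smul_mem, mem_maximalIdeal_iff, mem_maximalIdeal_iff]
      change ‖σ⁻¹ (x : L)‖ < 1 ↔ ‖(x : L)‖ < 1
      rw [norm_algEquiv]⟩ : MulAction.stabilizer (L ≃ₐ[K] L) 𝓂[L])) (fun _ _ => rfl))

theorem resGal_apply (σ : L ≃ₐ[K] L) (x : 𝒪[L]) :
    resGal K L σ (IsLocalRing.residue 𝒪[L] x) = IsLocalRing.residue 𝒪[L] (σ • x) := rfl

theorem resGal_surjective : Function.Surjective (resGal K L) := by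
  intro τ
  obtain ⟨g, hg⟩ := Ideal.Quotient.stabilizerHom_surjective (L ≃ₐ[K] L) 𝓂[K] 𝓂[L] τ
  exact ⟨g.1, by rw [← hg]; rfl⟩


end Ext

end Fermat.Agent.S55lib.LocalUnr
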