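/-
S55 sprint, block (II-a): the normalised discrete valuation `ord : K → ℤ` of a local field
(normed setting), `‖x‖ = unifNorm K ^ ord K x`.
-/
import Fermat.Agent.S55lib.LocalUnr.Basic

open scoped NormedField Valued NNReal

namespace Fermat.Agent.S55lib.LocalUnr

set_option linter.unusedSectionVars false
set_option linter.style.haveILetI false

section Ord

variable (K : Type*) [NontriviallyNormedField K] [IsUltrametricDist K] [ProperSpace K]

/-- A chosen uniformizer. -/
noncomputable def unif : K := Classical.choose (exists_isUniformizer K)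

theorem unif_isUniformizer : IsUniformizer K (unif K) := Classical.choose_spec (exists_isUniformizer K)

/-- The norm of a uniformizer (independent of the choice). -/
noncomputable def unifNorm : ℝ := ‖unif K‖

theorem unifNorm_pos : 0 < unifNorm K := (unif_isUniformizer K).norm_pos

theorem unifNorm_lt_one : unifNorm K < 1 := (unif_isUniformizer K).norm_lt_one

variable {K}

theorem IsUniformizer.norm_eq_unifNorm {π : K} (h : IsUniformizer K π) : ‖π‖ = unifNorm K :=
  le_antisymm ((unif_isUniformizer K).2 π h.1) (h.2 _ (unif_isUniformizer K).1)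

theorem isUniformizer_iff_norm_eq {π : K} : IsUniformizer K π ↔ ‖π‖ = unifNorm K := by
  refine ⟨fun h => h.norm_eq_unifNorm, fun h => ⟨h ▸ unifNorm_lt_one K, fun x hx => ?_⟩⟩
  rw [h]
  exact (unif_isUniformizer K).2 x hx

theorem zpow_unifNorm_injective : Function.Injective (fun m : ℤ => unifNorm K ^ m) :=
  zpow_right_injective₀ (unifNorm_pos K) (ne_of_lt (unifNorm_lt_one K))

variable (K)

open Classical in
/-- The normalised valuation: `‖x‖ = unifNorm K ^ ord K x` for `x ≠ 0`, and `ord K 0 = 0`. -/
noncomputable def ord (x : K) : ℤ :=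
  if hx : x = 0 then 0 else Classical.choose ((unif_isUniformizer K).exists_norm_eq_zpow hx)

variable {K}

theorem norm_eq_zpow_ord {x : K} (hx : x ≠ 0) : ‖x‖ = unifNorm K ^ ord K x := by
  rw [ord, dif_neg hx]
  exact Classical.choose_spec ((unif_isUniformizer K).exists_norm_eq_zpow hx)

theorem ord_eq_of_norm_eq {x : K} {m : ℤ} (h : ‖x‖ = unifNorm K ^ m) : ord K x = m := by
  have hx : x ≠ 0 := by
    rintro rfl
    rw [norm_zero] at h
    exact absurd h.symm (ne_of_gt (zpow_pos (unifNorm_pos K) m))
  apply zpow_unifNorm_injective (K := K)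
  change unifNorm K ^ ord K x = unifNorm K ^ m
  rw [← norm_eq_zpow_ord hx, h]

@[simp] theorem ord_zero : ord K (0 : K) = 0 := by simp [ord]

@[simp] theorem ord_one : ord K (1 : K) = 0 := ord_eq_of_norm_eq (by simp)

theorem ord_mul {x y : K} (hx : x ≠ 0) (hy : y ≠ 0) : ord K (x * y) = ord K x + ord K y := by
  apply ord_eq_of_norm_eq
  rw [norm_mul, norm_eq_zpow_ord hx, norm_eq_zpow_ord hy, zpow_add₀ (ne_of_gt (unifNorm_pos K))]

theorem ord_inv (x : K) : ord K x⁻¹ = - ord K x := by
  by_cases hx : x = 0
  · simp [hx]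
  apply ord_eq_of_norm_eq
  rw [norm_inv, norm_eq_zpow_ord hx, zpow_neg]

theorem ord_pow (x : K) (n : ℕ) : ord K (x ^ n) = n * ord K x := by
  by_cases hx : x = 0
  · rcases Nat.eq_zero_or_pos n with rfl | hn
    · simp
    · simp [hx, zero_pow (Nat.pos_iff_ne_zero.mp hn)]
  apply ord_eq_of_norm_eq
  rw [norm_pow, norm_eq_zpow_ord hx, ← zpow_natCast, ← zpow_mul, mul_comm]

theorem ord_eq_zero_iff {x : K} (hx : x ≠ 0) : ord K x = 0 ↔ ‖x‖ = 1 := by
  constructor
  · intro h
    rw [norm_eq_zpow_ord hx, h, zpow_zero]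
  · intro h
    exact ord_eq_of_norm_eq (by rw [h, zpow_zero])

theorem ord_uniformizer {π : K} (h : IsUniformizer K π) : ord K π = 1 :=
  ord_eq_of_norm_eq (by rw [h.norm_eq_unifNorm, zpow_one])

theorem ord_nonneg_iff {x : K} (hx : x ≠ 0) : 0 ≤ ord K x ↔ ‖x‖ ≤ 1 := by
  rw [norm_eq_zpow_ord hx]
  constructor
  · intro h
    obtain ⟨k, hk⟩ := Int.eq_ofNat_of_zero_le h
    rw [hk, zpow_natCast]
    exact pow_le_one₀ (unifNorm_pos K).le (unifNorm_lt_one K).le
  · intro h
    by_contra hneg
    push Not at hneg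
    have : 1 < unifNorm K ^ ord K x := by
      have h1 : unifNorm K ^ ord K x = (unifNorm K ^ (- ord K x))⁻¹ := by
        rw [zpow_neg, inv_inv]
      rw [h1]
      apply (one_lt_inv₀ (zpow_pos (unifNorm_pos K) _)).mpr
      have hpos : 0 < - ord K x := by omega
      obtain ⟨k, hk⟩ := Int.eq_ofNat_of_zero_le hpos.le
      rw [hk, zpow_natCast]
      exact pow_lt_one₀ (unifNorm_pos K).le (unifNorm_lt_one K) (by omega)
    exact absurd h (not_le.mpr this)

variable (K)

/-- `ord` as a homomorphism on units. -/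
noncomputable def ordHom : Kˣ →* Multiplicative ℤ where
  toFun x := Multiplicative.ofAdd (ord K (x : K))
  map_one' := by simp
  map_mul' x y := by
    rw [Units.val_mul, ord_mul x.ne_zero y.ne_zero]; rfl

@[simp] theorem ordHom_apply (x : Kˣ) : Multiplicative.toAdd (ordHom K x) = ord K (x : K) := rfl

theorem ordHom_surjective : Function.Surjective (ordHom K) := by
  intro m
  refine ⟨(Units.mk0 (unif K) (unif_isUniformizer K).ne_zero) ^ (Multiplicative.toAdd m), ?_⟩
  rw [map_zpow]
  apply Multiplicative.toAdd.injective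
  rw [toAdd_zpow, ordHom_apply, Units.val_mk0, ord_uniformizer (unif_isUniformizer K)]
  simp

end Ord


section OrdExt

variable {K : Type*} [NontriviallyNormedField K] [IsUltrametricDist K] [ProperSpace K]

theorem ord_pos_iff {x : K} (hx : x ≠ 0) : 0 < ord K x ↔ ‖x‖ < 1 := by
  have h1 := ord_nonneg_iff hx
  have h2 := ord_eq_zero_iff hx
  constructor
  · intro h
    have hle : ‖x‖ ≤ 1 := h1.mp h.le
    refine lt_of_le_of_ne hle (fun he => ?_)
    have := h2.mpr he
    omega
  · intro h
    have hle : 0 ≤ ord K x := h1.mpr h.le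
    refine lt_of_le_of_ne hle (fun he => ?_)
    have := h2.mp he.symm
    exact absurd this (ne_of_lt h)

variable (K) (L : Type*) [NontriviallyNormedField L] [IsUltrametricDist L] [ProperSpace L]
  [NormedAlgebra K L]

/-- The ramification index of `L/K`: `unifNorm K = unifNorm L ^ ramIdx K L`. -/
noncomputable def ramIdx : ℕ := (ord L (algebraMap K L (unif K))).toNat

theorem ord_algebraMap_unif_pos : 0 < ord L (algebraMap K L (unif K)) := by
  have hne : algebraMap K L (unif K) ≠ 0 := by
    simpa using (unif_isUniformizer K).ne_zero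
  rw [ord_pos_iff hne, norm_algebraMap']
  exact (unif_isUniformizer K).norm_lt_one

theorem ramIdx_pos : 0 < ramIdx K L := by
  have := ord_algebraMap_unif_pos K L
  rw [ramIdx]
  omega

theorem ramIdx_cast : ((ramIdx K L : ℕ) : ℤ) = ord L (algebraMap K L (unif K)) := by
  rw [ramIdx]
  exact Int.toNat_of_nonneg (ord_algebraMap_unif_pos K L).le

theorem unifNorm_eq_pow : unifNorm K = unifNorm L ^ ramIdx K L := by
  have hne : algebraMap K L (unif K) ≠ 0 := by
    simpa using (unif_isUniformizer K).ne_zero
  have := norm_eq_zpow_ord hne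
  rw [norm_algebraMap', ← ramIdx_cast, zpow_natCast] at this
  exact this

variable {K}

theorem ord_algebraMap (x : K) : ord L (algebraMap K L x) = ramIdx K L * ord K x := by
  by_cases hx : x = 0
  · simp [hx]
  apply ord_eq_of_norm_eq
  rw [norm_algebraMap', norm_eq_zpow_ord hx, unifNorm_eq_pow K L, ← zpow_natCast, ← zpow_mul]

end OrdExt

end Fermat.Agent.S55lib.LocalUnr
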