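/-
S55 sprint, block (II-a): the fundamental identity `[L : K] = e * f` for an extension of local
fields (normed setting), with the explicit basis `ω i * π_L ^ j`. No finiteness hypothesis on
`L / K` is needed: it is a consequence.
-/
import Fermat.Agent.S55lib.LocalUnr.Ord

open scoped NormedField Valued NNReal

namespace Fermat.Agent.S55lib.LocalUnr

set_option linter.unusedSectionVars false
set_option linter.style.haveILetI false

section Fund

variable (K L : Type*) [NontriviallyNormedField K] [IsUltrametricDist K] [ProperSpace K]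
  [NontriviallyNormedField L] [IsUltrametricDist L] [ProperSpace L] [NormedAlgebra K L]

/-- The residue degree. -/
noncomputable def resDeg : ℕ := Module.finrank 𝓀[K] 𝓀[L]

/-- A basis of the residue field extension. -/
noncomputable def resBasis : Module.Basis (Fin (resDeg K L)) 𝓀[K] 𝓀[L] :=
  haveI := finite_residue L
  Module.finBasis 𝓀[K] 𝓀[L]

/-- Lifts to `𝒪[L]` of a basis of the residue field extension. -/
noncomputable def resLift (i : Fin (resDeg K L)) : 𝒪[L] :=
  Classical.choose (IsLocalRing.residue_surjective (resBasis K L i))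

theorem residue_resLift (i : Fin (resDeg K L)) :
    IsLocalRing.residue 𝒪[L] (resLift K L i) = resBasis K L i :=
  Classical.choose_spec (IsLocalRing.residue_surjective (resBasis K L i))

theorem resDeg_pos : 0 < resDeg K L := by
  haveI := finite_residue L
  exact Module.finrank_pos

/-- Key computation: an integral combination of the lifts with one unit coefficient is a unit. -/
theorem norm_sum_resLift_eq_one (a : Fin (resDeg K L) → K) (h1 : ∀ i, ‖a i‖ ≤ 1)
    (j : Fin (resDeg K L)) (hj : ‖a j‖ = 1) :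
    ‖∑ i, a i • (resLift K L i : L)‖ = 1 := by
  let A : Fin (resDeg K L) → 𝒪[K] := fun i => ⟨a i, Valued.integer.mem_iff.mpr (h1 i)⟩
  let s : 𝒪[L] := ∑ i, algebraMap 𝒪[K] 𝒪[L] (A i) * resLift K L i
  have hs : (s : L) = ∑ i, a i • (resLift K L i : L) := by
    simp only [s, AddSubmonoidClass.coe_finsetSum, MulMemClass.coe_mul, coe_algebraMap_integer,
      Algebra.smul_def, A]
  rw [← hs]
  by_contra hne
  have hlt : ‖s‖ < 1 := lt_of_le_of_ne (Valued.integer.norm_le_one s) hne
  have hres : IsLocalRing.residue 𝒪[L] s = 0 := by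
    rw [IsLocalRing.residue_eq_zero_iff]
    exact (mem_maximalIdeal_iff L).mpr hlt
  have hres' : ∑ i, IsLocalRing.residue 𝒪[K] (A i) • resBasis K L i = 0 := by
    rw [← hres]
    simp only [s, map_sum, map_mul, residue_resLift, Algebra.smul_def]
    rfl
  have hli := (resBasis K L).linearIndependent
  rw [Fintype.linearIndependent_iff] at hli
  have := hli _ hres' j
  rw [IsLocalRing.residue_eq_zero_iff] at this
  have hAj := (mem_maximalIdeal_iff K).mp this
  change ‖a j‖ < 1 at hAj
  exact absurd hj (ne_of_lt hAj)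

/-- The norm of a `K`-combination of the lifts is the maximum of the norms of the coefficients. -/
theorem norm_sum_resLift (a : Fin (resDeg K L) → K) (j : Fin (resDeg K L))
    (hj : ∀ i, ‖a i‖ ≤ ‖a j‖) : ‖∑ i, a i • (resLift K L i : L)‖ = ‖a j‖ := by
  by_cases h0 : a j = 0
  · have : ∀ i, a i = 0 := fun i => by
      have := hj i
      rw [h0, norm_zero] at this
      exact norm_le_zero_iff.mp this
    simp [this]
  have hpos : 0 < ‖a j‖ := norm_pos_iff.mpr h0
  have key := norm_sum_resLift_eq_one K L (fun i => a i / a j)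
    (fun i => by rw [norm_div, div_le_one hpos]; exact hj i) j (by rw [div_self h0, norm_one])
  have : ∑ i, (a i / a j) • (resLift K L i : L) = (a j)⁻¹ • ∑ i, a i • (resLift K L i : L) := by
    rw [Finset.smul_sum]
    refine Finset.sum_congr rfl (fun i _ => ?_)
    rw [smul_smul, div_eq_inv_mul]
  rw [this, norm_smul, norm_inv] at key
  field_simp at key
  linarith [key]

/-- The `K`-combination `∑ a i • ω i`. -/
noncomputable def comb (a : Fin (resDeg K L) → K) : L := ∑ i, a i • (resLift K L i : L)

theorem exists_max_coeff (a : Fin (resDeg K L) → K) :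
    ∃ j, ∀ i, ‖a i‖ ≤ ‖a j‖ := by
  haveI : Nonempty (Fin (resDeg K L)) := ⟨⟨0, resDeg_pos K L⟩⟩
  obtain ⟨j, -, hj⟩ := Finset.exists_max_image Finset.univ (fun i => ‖a i‖)
    Finset.univ_nonempty
  exact ⟨j, fun i => hj i (Finset.mem_univ i)⟩

theorem comb_eq_zero_iff (a : Fin (resDeg K L) → K) : comb K L a = 0 ↔ ∀ i, a i = 0 := by
  constructor
  · intro h i
    obtain ⟨j, hj⟩ := exists_max_coeff K L a
    have := norm_sum_resLift K L a j hj
    rw [← comb, h, norm_zero] at this
    have hi := hj i
    rw [← this] at hi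
    exact norm_le_zero_iff.mp hi
  · intro h
    simp [comb, h]

/-- The valuation of a nonzero combination is divisible by the ramification index. -/
theorem ramIdx_dvd_ord_comb (a : Fin (resDeg K L) → K) (h : comb K L a ≠ 0) :
    (ramIdx K L : ℤ) ∣ ord L (comb K L a) := by
  obtain ⟨j, hj⟩ := exists_max_coeff K L a
  have hn := norm_sum_resLift K L a j hj
  rw [← comb] at hn
  have haj : a j ≠ 0 := by
    intro h0
    rw [h0, norm_zero] at hn
    exact h (norm_eq_zero.mp hn)
  have : ord L (comb K L a) = ramIdx K L * ord K (a j) := by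
    apply ord_eq_of_norm_eq
    rw [hn, norm_eq_zpow_ord haj, unifNorm_eq_pow K L, ← zpow_natCast, ← zpow_mul]
  rw [this]
  exact Dvd.intro _ rfl

/-- The family `ω i * π_L ^ j`, `i < f`, `j < e`. -/
noncomputable def fundFamily (p : Fin (resDeg K L) × Fin (ramIdx K L)) : L :=
  (resLift K L p.1 : L) * unif L ^ (p.2 : ℕ)

theorem sum_fundFamily (g : Fin (resDeg K L) × Fin (ramIdx K L) → K) :
    ∑ p, g p • fundFamily K L p =
      ∑ j : Fin (ramIdx K L), comb K L (fun i => g (i, j)) * unif L ^ (j : ℕ) := by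
  rw [Fintype.sum_prod_type_right]
  refine Finset.sum_congr rfl (fun j _ => ?_)
  rw [comb, Finset.sum_mul]
  refine Finset.sum_congr rfl (fun i _ => ?_)
  rw [fundFamily, smul_mul_assoc]

theorem linearIndependent_fundFamily : LinearIndependent K (fundFamily K L) := by
  rw [Fintype.linearIndependent_iff]
  intro g hg
  rw [sum_fundFamily] at hg
  set t : Fin (ramIdx K L) → L := fun j => comb K L (fun i => g (i, j)) * unif L ^ (j : ℕ) with ht
  have hπ : unif L ≠ 0 := (unif_isUniformizer L).ne_zero
  have ht0 : ∀ j, t j = 0 ↔ comb K L (fun i => g (i, j)) = 0 := fun j => by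
    simp [ht, hπ]
  have hord : ∀ j, t j ≠ 0 → ∃ m : ℤ, ord L (t j) = ramIdx K L * m + (j : ℕ) := by
    intro j hj
    have hc : comb K L (fun i => g (i, j)) ≠ 0 := fun h => hj ((ht0 j).mpr h)
    obtain ⟨m, hm⟩ := ramIdx_dvd_ord_comb K L _ hc
    refine ⟨m, ?_⟩
    rw [ht, ord_mul hc (pow_ne_zero _ hπ), hm, ord_pow, ord_uniformizer (unif_isUniformizer L)]
    simp
  have hall : ∀ j, t j = 0 := by
    by_contra hcon
    push Not at hcon
    obtain ⟨j0, hj0⟩ := hcon
    classical
    set J := Finset.univ.filter (fun j => t j ≠ 0) with hJ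
    have hJne : J.Nonempty := ⟨j0, by simp [hJ, hj0]⟩
    have hpair : (J : Set (Fin (ramIdx K L))).Pairwise (fun i j => ‖t i‖ ≠ ‖t j‖) := by
      intro i hi j hj hij heq
      have hi' : t i ≠ 0 := by simpa [hJ] using hi
      have hj' : t j ≠ 0 := by simpa [hJ] using hj
      obtain ⟨mi, hmi⟩ := hord i hi'
      obtain ⟨mj, hmj⟩ := hord j hj'
      have : ord L (t i) = ord L (t j) := by
        apply zpow_unifNorm_injective (K := L)
        change unifNorm L ^ ord L (t i) = unifNorm L ^ ord L (t j)
        rw [← norm_eq_zpow_ord hi', ← norm_eq_zpow_ord hj', heq]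
      rw [hmi, hmj] at this
      apply hij
      apply Fin.ext
      have hi2 := i.2
      have hj2 := j.2
      have hdvd : (ramIdx K L : ℤ) ∣ ((i : ℕ) : ℤ) - ((j : ℕ) : ℤ) := by
        refine ⟨mj - mi, ?_⟩
        linear_combination this
      have := Int.eq_zero_of_abs_lt_dvd hdvd (by
        rw [abs_lt]; constructor <;> omega)
      omega
    have hsum : ∑ j ∈ J, t j = 0 := by
      rw [hJ, Finset.sum_filter_ne_zero]
      exact hg
    have hsup := IsUltrametricDist.norm_sum_eq_sup'_of_pairwise_ne hJne hpair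
    rw [hsum, norm_zero] at hsup
    have hle : ‖t j0‖ ≤ J.sup' hJne (fun j => ‖t j‖) :=
      Finset.le_sup' (fun j => ‖t j‖) (by simp [hJ, hj0])
    rw [← hsup] at hle
    exact hj0 (norm_le_zero_iff.mp hle)
  intro p
  have := (comb_eq_zero_iff K L _).mp ((ht0 p.2).mp (hall p.2)) p.1
  simpa using this

/-- Every integer of `L` is congruent to an integral combination of the lifts. -/
theorem exists_comb_sub_lt (u : L) (hu : ‖u‖ ≤ 1) :
    ∃ c : Fin (resDeg K L) → K, ‖u - ∑ i, c i • (resLift K L i : L)‖ < 1 := by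
  let U : 𝒪[L] := ⟨u, Valued.integer.mem_iff.mpr hu⟩
  have hrepr := (resBasis K L).sum_repr (IsLocalRing.residue 𝒪[L] U)
  choose C hC using fun i => IsLocalRing.residue_surjective
    ((resBasis K L).repr (IsLocalRing.residue 𝒪[L] U) i)
  refine ⟨fun i => (C i : K), ?_⟩
  let s : 𝒪[L] := ∑ i, algebraMap 𝒪[K] 𝒪[L] (C i) * resLift K L i
  have hs : (s : L) = ∑ i, (C i : K) • (resLift K L i : L) := by
    simp only [s, AddSubmonoidClass.coe_finsetSum, MulMemClass.coe_mul, coe_algebraMap_integer,
      Algebra.smul_def]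
  have hres : IsLocalRing.residue 𝒪[L] (U - s) = 0 := by
    rw [map_sub, sub_eq_zero, ← hrepr]
    simp only [s, map_sum, map_mul, residue_resLift, Algebra.smul_def, ← hC]
    rfl
  rw [IsLocalRing.residue_eq_zero_iff] at hres
  have := (mem_maximalIdeal_iff L).mp hres
  rw [← hs]
  exact this

/-- One approximation step: every `x : L` is within `unifNorm L * ‖x‖` of the span. -/
theorem exists_mem_span_sub_le (x : L) :
    ∃ w ∈ Submodule.span K (Set.range (fundFamily K L)), ‖x - w‖ ≤ unifNorm L * ‖x‖ := by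
  by_cases hx : x = 0
  · exact ⟨0, Submodule.zero_mem _, by simp [hx]⟩
  have he : (0 : ℤ) < ramIdx K L := by exact_mod_cast ramIdx_pos K L
  set k := ord L x with hk
  set m : ℤ := k / ramIdx K L with hm
  set j : ℕ := (k % ramIdx K L).toNat with hj
  have hjlt : j < ramIdx K L := by
    have h1 := Int.emod_lt_of_pos k he
    have h2 := Int.emod_nonneg k (ne_of_gt he)
    omega
  have hjcast : (j : ℤ) = k % ramIdx K L := Int.toNat_of_nonneg (Int.emod_nonneg k (ne_of_gt he))
  have hkdecomp : k = ramIdx K L * m + j := by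
    rw [hjcast, hm]; exact (Int.mul_ediv_add_emod k _).symm
  have hπK : algebraMap K L (unif K) ≠ 0 := by simpa using (unif_isUniformizer K).ne_zero
  have hπL : unif L ≠ 0 := (unif_isUniformizer L).ne_zero
  set c : L := algebraMap K L (unif K) ^ m * unif L ^ j with hc
  have hc0 : c ≠ 0 := mul_ne_zero (zpow_ne_zero _ hπK) (pow_ne_zero _ hπL)
  have hcn : ‖c‖ = ‖x‖ := by
    rw [hc, norm_mul, norm_zpow, norm_pow, norm_algebraMap', norm_eq_zpow_ord hx, ← hk, hkdecomp]
    change unifNorm K ^ m * unifNorm L ^ j = _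
    rw [unifNorm_eq_pow K L, ← zpow_natCast, ← zpow_mul, ← zpow_natCast (unifNorm L) j,
      ← zpow_add₀ (ne_of_gt (unifNorm_pos L))]
  have hu : ‖x / c‖ ≤ 1 := by
    rw [norm_div, hcn, div_self (ne_of_gt (norm_pos_iff.mpr hx))]
  obtain ⟨a, ha⟩ := exists_comb_sub_lt K L (x / c) hu
  have ha' : ‖x / c - ∑ i, a i • (resLift K L i : L)‖ ≤ unifNorm L :=
    (unif_isUniformizer L).2 _ ha
  refine ⟨∑ i, (a i * unif K ^ m) • fundFamily K L (i, ⟨j, hjlt⟩), ?_, ?_⟩
  · refine Submodule.sum_mem _ (fun i _ => Submodule.smul_mem _ _ (Submodule.subset_span ⟨_, rfl⟩))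
  · have hw : ∑ i, (a i * unif K ^ m) • fundFamily K L (i, ⟨j, hjlt⟩) =
        c * ∑ i, a i • (resLift K L i : L) := by
      rw [Finset.mul_sum]
      refine Finset.sum_congr rfl (fun i _ => ?_)
      simp only [fundFamily, hc, Algebra.smul_def, map_mul, map_zpow₀]
      ring
    rw [hw]
    have : x - c * ∑ i, a i • (resLift K L i : L) =
        c * (x / c - ∑ i, a i • (resLift K L i : L)) := by
      field_simp
    rw [this, norm_mul, hcn, mul_comm]
    gcongr

theorem exists_mem_span_sub_le_pow (x : L) (N : ℕ) :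
    ∃ w ∈ Submodule.span K (Set.range (fundFamily K L)), ‖x - w‖ ≤ unifNorm L ^ N * ‖x‖ := by
  induction N with
  | zero => exact ⟨0, Submodule.zero_mem _, by simp⟩
  | succ N ih =>
    obtain ⟨w, hw, hw'⟩ := ih
    obtain ⟨w', hw'1, hw'2⟩ := exists_mem_span_sub_le K L (x - w)
    refine ⟨w + w', Submodule.add_mem _ hw hw'1, ?_⟩
    rw [← sub_sub, pow_succ', mul_assoc]
    exact hw'2.trans (mul_le_mul_of_nonneg_left hw' (unifNorm_pos L).le)

theorem span_fundFamily : Submodule.span K (Set.range (fundFamily K L)) = ⊤ := by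
  set W := Submodule.span K (Set.range (fundFamily K L)) with hW
  haveI : FiniteDimensional K W := FiniteDimensional.span_of_finite K (Set.finite_range _)
  have hclosed : IsClosed (W : Set L) := Submodule.closed_of_finiteDimensional W
  rw [eq_top_iff]
  intro x _
  have : x ∈ closure (W : Set L) := by
    rw [Metric.mem_closure_iff]
    intro ε hε
    by_cases hx : x = 0
    · exact ⟨0, W.zero_mem, by simpa [hx] using hε⟩
    have hxpos : 0 < ‖x‖ := norm_pos_iff.mpr hx
    obtain ⟨N, hN⟩ := exists_pow_lt_of_lt_one (div_pos hε hxpos) (unifNorm_lt_one L)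
    obtain ⟨w, hw, hw'⟩ := exists_mem_span_sub_le_pow K L x N
    refine ⟨w, hw, ?_⟩
    rw [dist_eq_norm]
    refine lt_of_le_of_lt hw' ?_
    rwa [lt_div_iff₀ hxpos] at hN
  rwa [hclosed.closure_eq] at this

/-- The basis `ω i * π_L ^ j` of `L` over `K`. -/
noncomputable def fundBasis : Module.Basis (Fin (resDeg K L) × Fin (ramIdx K L)) K L :=
  Module.Basis.mk (linearIndependent_fundFamily K L) (span_fundFamily K L).ge

theorem finiteDimensional_of_local : FiniteDimensional K L :=
  Module.Finite.of_basis (fundBasis K L)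

/-- **The fundamental identity** `[L : K] = e * f`. -/
theorem finrank_eq_ramIdx_mul_resDeg : Module.finrank K L = ramIdx K L * resDeg K L := by
  rw [Module.finrank_eq_card_basis (fundBasis K L), Fintype.card_prod, Fintype.card_fin,
    Fintype.card_fin, mul_comm]

end Fund

end Fermat.Agent.S55lib.LocalUnr
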