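/-
S55 sprint, block (II-a): unramified extensions of local fields (normed setting).
Main results: `IsUnramified`, `resGal_bijective`, cyclicity of the Galois group, and surjectivity
of the norm on units (`exists_norm_eq_of_norm_eq_one`).
-/
import Fermat.Agent.S55lib.LocalUnr.Basic

open scoped NormedField Valued NNReal Pointwise

namespace Fermat.Agent.S55lib.LocalUnr

set_option linter.unusedSectionVars false
set_option linter.style.haveILetI false

theorem prod_one_add_mul {R ι : Type*} [CommRing R] (t : R) (s : Finset ι) (a : ι → R) :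
    ∃ r : R, ∏ i ∈ s, (1 + t * a i) = 1 + t * ∑ i ∈ s, a i + t ^ 2 * r := by
  classical
  induction s using Finset.induction_on with
  | empty => exact ⟨0, by simp⟩
  | insert j s hj ih =>
    obtain ⟨r, hr⟩ := ih
    refine ⟨r + a j * ∑ i ∈ s, a i + t * a j * r, ?_⟩
    rw [Finset.prod_insert hj, Finset.sum_insert hj, hr]
    ring

theorem norm_sub_le_max' {S : Type*} [SeminormedAddCommGroup S] [IsUltrametricDist S] (x y : S) :
    ‖x - y‖ ≤ max ‖x‖ ‖y‖ := by
  have := IsUltrametricDist.norm_add_le_max x (-y)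
  rwa [norm_neg, ← sub_eq_add_neg] at this

/-- In an ultrametric normed group, `‖y - 1‖ < 1` forces `‖y‖ = 1` (stated additively for fields). -/
theorem norm_eq_one_of_sub_one_lt {F : Type*} [NormedField F] [IsUltrametricDist F] {y : F}
    (h : ‖y - 1‖ < 1) : ‖y‖ = 1 := by
  have h1 : ‖y‖ ≤ 1 := by
    have := IsUltrametricDist.norm_add_le_max (y - 1) 1
    rw [sub_add_cancel, norm_one] at this
    exact this.trans (max_le h.le le_rfl)
  refine le_antisymm h1 ?_
  by_contra hlt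
  push Not at hlt
  have := norm_sub_le_max' y (y - 1)
  rw [sub_sub_cancel, norm_one] at this
  exact absurd this (not_le.mpr (max_lt hlt h))

section Unr

variable (K L : Type*) [NontriviallyNormedField K] [IsUltrametricDist K] [ProperSpace K]
  [NontriviallyNormedField L] [IsUltrametricDist L] [ProperSpace L] [NormedAlgebra K L]
  [FiniteDimensional K L] [IsGalois K L]

/-- `L/K` is unramified: the inertia group is trivial and a uniformizer of `K` is a uniformizer
of `L`. (The second condition follows from the first; see later files.) -/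
structure IsUnramified : Prop where
  inertia : Function.Injective (resGal K L)
  isUnif : ∀ π : K, IsUniformizer K π → IsUniformizer L (algebraMap K L π)

variable {K L}

theorem IsUnramified.resGal_bijective (h : IsUnramified K L) : Function.Bijective (resGal K L) :=
  ⟨h.inertia, resGal_surjective K L⟩

/-- The Galois group of an unramified extension is isomorphic to the one of the residue fields. -/
noncomputable def IsUnramified.galEquiv (h : IsUnramified K L) :
    (L ≃ₐ[K] L) ≃* (𝓀[L] ≃ₐ[𝓀[K]] 𝓀[L]) :=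
  MulEquiv.ofBijective (resGal K L) h.resGal_bijective

theorem IsUnramified.isCyclic (h : IsUnramified K L) : IsCyclic (L ≃ₐ[K] L) := by
  haveI := finite_residue L
  exact isCyclic_of_surjective h.galEquiv.symm.toMonoidHom h.galEquiv.symm.surjective

theorem IsUnramified.residue_prod (h : IsUnramified K L) (x : 𝒪[L]) :
    IsLocalRing.residue 𝒪[L] (∏ σ : L ≃ₐ[K] L, σ • x) =
      algebraMap 𝓀[K] 𝓀[L] (Algebra.norm 𝓀[K] (IsLocalRing.residue 𝒪[L] x)) := by
  haveI := finite_residue L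
  rw [Algebra.norm_eq_prod_automorphisms, map_prod]
  exact Fintype.prod_bijective (resGal K L) h.resGal_bijective _ _ (fun σ => rfl)

theorem IsUnramified.residue_sum (h : IsUnramified K L) (x : 𝒪[L]) :
    IsLocalRing.residue 𝒪[L] (∑ σ : L ≃ₐ[K] L, σ • x) =
      algebraMap 𝓀[K] 𝓀[L] (Algebra.trace 𝓀[K] 𝓀[L] (IsLocalRing.residue 𝒪[L] x)) := by
  haveI := finite_residue L
  rw [trace_eq_sum_automorphisms, map_sum]
  exact Fintype.sum_bijective (resGal K L) h.resGal_bijective _ _ (fun σ => rfl)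

omit [ProperSpace K] [NontriviallyNormedField L] [IsUltrametricDist L] [ProperSpace L]
  [NormedAlgebra K L] [FiniteDimensional K L] [IsGalois K L] in
theorem residue_eq_zero_iff (x : 𝒪[K]) : IsLocalRing.residue 𝒪[K] x = 0 ↔ ‖x‖ < 1 := by
  rw [IsLocalRing.residue_eq_zero_iff]
  exact mem_maximalIdeal_iff K

/-- Approximate surjectivity of the norm on units, modulo the maximal ideal. -/
theorem IsUnramified.exists_prod_sub_lt (h : IsUnramified K L) (u : K) (hu : ‖u‖ = 1) :
    ∃ x : L, ‖x‖ = 1 ∧ ‖∏ σ : L ≃ₐ[K] L, σ x - algebraMap K L u‖ < 1 := by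
  haveI := finite_residue L
  have hu' : u ∈ 𝒪[K] := Valued.integer.mem_iff.mpr hu.le
  obtain ⟨xb, hxb⟩ := FiniteField.norm_surjective 𝓀[K] 𝓀[L] (IsLocalRing.residue 𝒪[K] ⟨u, hu'⟩)
  obtain ⟨x, rfl⟩ := IsLocalRing.residue_surjective xb
  have hne : IsLocalRing.residue 𝒪[K] ⟨u, hu'⟩ ≠ 0 := by
    rw [Ne, residue_eq_zero_iff]
    exact not_lt.mpr hu.ge
  refine ⟨(x : L), ?_, ?_⟩
  · by_contra hx
    have hx1 : ‖x‖ < 1 := lt_of_le_of_ne (Valued.integer.norm_le_one x) hx
    have : IsLocalRing.residue 𝒪[L] x = 0 := (residue_eq_zero_iff x).mpr hx1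
    rw [this, Algebra.norm_zero] at hxb
    exact hne hxb.symm
  · have key : IsLocalRing.residue 𝒪[L]
        ((∏ σ : L ≃ₐ[K] L, σ • x) - algebraMap 𝒪[K] 𝒪[L] ⟨u, hu'⟩) = 0 := by
      rw [map_sub, h.residue_prod, hxb]
      exact sub_self _
    have := (residue_eq_zero_iff _).mp key
    simpa [coe_smul_integer, coe_algebraMap_integer] using this

/-- Approximate surjectivity of the trace on integers, modulo the maximal ideal. -/
theorem IsUnramified.exists_sum_sub_lt (h : IsUnramified K L) (a : K) (ha : ‖a‖ ≤ 1) :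
    ∃ x : L, ‖x‖ ≤ 1 ∧ ‖∑ σ : L ≃ₐ[K] L, σ x - algebraMap K L a‖ < 1 := by
  haveI := finite_residue L
  have ha' : a ∈ 𝒪[K] := Valued.integer.mem_iff.mpr ha
  obtain ⟨xb, hxb⟩ := Algebra.trace_surjective 𝓀[K] 𝓀[L] (IsLocalRing.residue 𝒪[K] ⟨a, ha'⟩)
  obtain ⟨x, rfl⟩ := IsLocalRing.residue_surjective xb
  refine ⟨(x : L), Valued.integer.norm_le_one x, ?_⟩
  have key : IsLocalRing.residue 𝒪[L]
      ((∑ σ : L ≃ₐ[K] L, σ • x) - algebraMap 𝒪[K] 𝒪[L] ⟨a, ha'⟩) = 0 := by
    rw [map_sub, h.residue_sum, hxb]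
    exact sub_self _
  have := (residue_eq_zero_iff _).mp key
  simpa [coe_smul_integer, coe_algebraMap_integer] using this

theorem algebraMap_norm_eq_prod (y : L) :
    algebraMap K L (Algebra.norm K y) = ∏ σ : L ≃ₐ[K] L, σ y :=
  Algebra.norm_eq_prod_automorphisms K y

theorem norm_algebraNorm (y : L) : ‖Algebra.norm K y‖ = ‖y‖ ^ Module.finrank K L := by
  rw [← norm_algebraMap' L, algebraMap_norm_eq_prod, norm_prod]
  simp only [norm_algEquiv, Finset.prod_const, Finset.card_univ]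
  rw [← IsGalois.card_aut_eq_finrank K L, Nat.card_eq_fintype_card]

theorem norm_algebraNorm_eq_one {y : L} (hy : ‖y‖ = 1) : ‖Algebra.norm K y‖ = 1 := by
  rw [norm_algebraNorm, hy, one_pow]

/-- One step of the successive approximation. -/
theorem IsUnramified.approx_step (h : IsUnramified K L) {π : K} (hπ : IsUniformizer K π)
    (m : ℕ) (hm : 1 ≤ m) (u : K) (hu : ‖u - 1‖ ≤ ‖π‖ ^ m) :
    ∃ y : L, ‖y‖ = 1 ∧ ‖u - Algebra.norm K y‖ ≤ ‖π‖ ^ (m + 1) := by
  have hπL := h.isUnif π hπ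
  have hπ0 : 0 < ‖π‖ := hπ.norm_pos
  have hπ1 : ‖π‖ < 1 := hπ.norm_lt_one
  have hπne : π ≠ 0 := hπ.ne_zero
  set a : K := (u - 1) / π ^ m with ha
  have ha1 : ‖a‖ ≤ 1 := by
    rw [ha, norm_div, norm_pow, div_le_one (pow_pos hπ0 m)]; exact hu
  obtain ⟨x, hx1, hx2⟩ := h.exists_sum_sub_lt a ha1
  have hx3 : ‖∑ σ : L ≃ₐ[K] L, σ x - algebraMap K L a‖ ≤ ‖π‖ := by
    have := hπL.2 _ hx2; rwa [norm_algebraMap'] at this
  set p : L := algebraMap K L π with hp
  have hpn : ‖p‖ = ‖π‖ := norm_algebraMap' L π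
  let X : 𝒪[L] := ⟨x, Valued.integer.mem_iff.mpr hx1⟩
  let P : 𝒪[L] := ⟨p ^ m, Valued.integer.mem_iff.mpr (by
    rw [norm_pow, hpn]; exact pow_le_one₀ hπ0.le hπ1.le)⟩
  obtain ⟨r, hr⟩ := prod_one_add_mul P Finset.univ (fun σ : L ≃ₐ[K] L => σ • X)
  have hr' : ∏ σ : L ≃ₐ[K] L, (1 + p ^ m * σ x) =
      1 + p ^ m * ∑ σ : L ≃ₐ[K] L, σ x + (p ^ m) ^ 2 * (r : L) := by
    have := congrArg Subtype.val hr
    simpa [X, P, coe_smul_integer] using this
  have hpm : ‖p ^ m‖ = ‖π‖ ^ m := by rw [norm_pow, hpn]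
  have hpm1 : ‖π‖ ^ m < 1 := pow_lt_one₀ hπ0.le hπ1 (by omega)
  refine ⟨1 + p ^ m * x, ?_, ?_⟩
  · apply norm_eq_one_of_sub_one_lt
    rw [add_sub_cancel_left, norm_mul, hpm]
    calc ‖π‖ ^ m * ‖x‖ ≤ ‖π‖ ^ m * 1 := by gcongr
      _ < 1 := by rwa [mul_one]
  · rw [← norm_algebraMap' L, map_sub, algebraMap_norm_eq_prod]
    have hσ : ∀ σ : L ≃ₐ[K] L, σ (1 + p ^ m * x) = 1 + p ^ m * σ x := by
      intro σ
      simp [hp]
    simp only [hσ]
    rw [hr']
    have hu' : algebraMap K L u = 1 + p ^ m * algebraMap K L a := by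
      rw [ha, hp, ← map_pow, ← map_mul, mul_div_cancel₀ _ (pow_ne_zero m hπne)]
      simp
    rw [hu']
    have hring : (1 + p ^ m * algebraMap K L a) -
        (1 + p ^ m * ∑ σ : L ≃ₐ[K] L, σ x + (p ^ m) ^ 2 * (r : L)) =
        - (p ^ m * (∑ σ : L ≃ₐ[K] L, σ x - algebraMap K L a)) - (p ^ m) ^ 2 * (r : L) := by ring
    rw [hring]
    refine (norm_sub_le_max' _ _).trans (max_le ?_ ?_)
    · rw [norm_neg, norm_mul, hpm, pow_succ]
      gcongr
    · rw [norm_mul, norm_pow, hpm]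
      have hr1 : ‖(r : L)‖ ≤ 1 := Valued.integer.norm_le_one r
      calc (‖π‖ ^ m) ^ 2 * ‖(r : L)‖ ≤ (‖π‖ ^ m) ^ 2 * 1 := by gcongr
        _ = ‖π‖ ^ (m + m) := by rw [mul_one, ← pow_mul, mul_two]
        _ ≤ ‖π‖ ^ (m + 1) := pow_le_pow_of_le_one hπ0.le hπ1.le (by omega)

/-- Every unit of `K` is a norm modulo `π^m`, for all `m ≥ 1`. -/
theorem IsUnramified.approx (h : IsUnramified K L) {π : K} (hπ : IsUniformizer K π)
    (m : ℕ) (u : K) (hu : ‖u‖ = 1) :
    ∃ y : L, ‖y‖ = 1 ∧ ‖u - Algebra.norm K y‖ ≤ ‖π‖ ^ (m + 1) := by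
  have hπL := h.isUnif π hπ
  induction m with
  | zero =>
    obtain ⟨x, hx1, hx2⟩ := h.exists_prod_sub_lt u hu
    refine ⟨x, hx1, ?_⟩
    have := hπL.2 _ hx2
    rw [norm_algebraMap', ← algebraMap_norm_eq_prod, ← map_sub, norm_algebraMap', norm_sub_rev]
      at this
    simpa using this
  | succ m ih =>
    obtain ⟨y, hy1, hy2⟩ := ih
    set w : K := Algebra.norm K y with hw
    have hw1 : ‖w‖ = 1 := norm_algebraNorm_eq_one hy1
    have hw0 : w ≠ 0 := by
      intro h0; rw [h0, norm_zero] at hw1; exact zero_ne_one hw1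
    have hu' : ‖u / w - 1‖ ≤ ‖π‖ ^ (m + 1) := by
      have : u / w - 1 = (u - w) / w := by field_simp
      rw [this, norm_div, hw1, div_one]; exact hy2
    obtain ⟨y', hy'1, hy'2⟩ := h.approx_step hπ (m + 1) (by omega) (u / w) hu'
    refine ⟨y * y', by rw [norm_mul, hy1, hy'1, one_mul], ?_⟩
    rw [map_mul, ← hw]
    have : u - w * Algebra.norm K y' = w * (u / w - Algebra.norm K y') := by field_simp
    rw [this, norm_mul, hw1, one_mul]
    exact hy'2

theorem continuous_algEquiv (σ : L ≃ₐ[K] L) : Continuous σ := by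
  have : Isometry σ := by
    apply Isometry.of_dist_eq
    intro x y
    rw [dist_eq_norm, dist_eq_norm, ← map_sub, norm_algEquiv]
  exact this.continuous

/-- **Units are norms in unramified extensions.** -/
theorem IsUnramified.exists_norm_eq (h : IsUnramified K L) (u : K) (hu : ‖u‖ = 1) :
    ∃ y : L, ‖y‖ = 1 ∧ Algebra.norm K y = u := by
  obtain ⟨π, hπ⟩ := exists_isUniformizer K
  have hπ0 : 0 < ‖π‖ := hπ.norm_pos
  have hπ1 : ‖π‖ < 1 := hπ.norm_lt_one
  let N : L → L := fun y => ∏ σ : L ≃ₐ[K] L, σ y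
  have hN : Continuous N := continuous_finsetProd _ (fun σ _ => continuous_algEquiv σ)
  have hcomp : IsCompact (N '' Metric.sphere (0 : L) 1) := (isCompact_sphere 0 1).image hN
  have hclosed : IsClosed (N '' Metric.sphere (0 : L) 1) := hcomp.isClosed
  have hmem : algebraMap K L u ∈ closure (N '' Metric.sphere (0 : L) 1) := by
    rw [Metric.mem_closure_iff]
    intro ε hε
    obtain ⟨m, hm⟩ := exists_pow_lt_of_lt_one hε hπ1
    obtain ⟨y, hy1, hy2⟩ := h.approx hπ m u hu
    refine ⟨N y, ⟨y, by simpa using hy1, rfl⟩, ?_⟩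
    rw [dist_eq_norm]
    change ‖algebraMap K L u - ∏ σ : L ≃ₐ[K] L, σ y‖ < ε
    rw [← algebraMap_norm_eq_prod, ← map_sub, norm_algebraMap']
    refine lt_of_le_of_lt hy2 (lt_of_le_of_lt ?_ hm)
    exact pow_le_pow_of_le_one hπ0.le hπ1.le (Nat.le_succ m)
  rw [hclosed.closure_eq] at hmem
  obtain ⟨y, hy, hNy⟩ := hmem
  refine ⟨y, by simpa using hy, ?_⟩
  apply (algebraMap K L).injective
  rw [algebraMap_norm_eq_prod]
  exact hNy

end Unr

end Fermat.Agent.S55lib.LocalUnr
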