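/-
S55 sprint, block (II-a): criteria for unramifiedness (trivial inertia suffices), the Frobenius
element, and `H¹` of the units.
-/
import Fermat.Agent.S55lib.LocalUnr.Unramified
import Fermat.Agent.S55lib.LocalUnr.Fundamental

open scoped NormedField Valued NNReal Pointwise

namespace Fermat.Agent.S55lib.LocalUnr

set_option linter.unusedSectionVars false
set_option linter.style.haveILetI false

section Crit

variable {K L : Type*} [NontriviallyNormedField K] [IsUltrametricDist K] [ProperSpace K]
  [NontriviallyNormedField L] [IsUltrametricDist L] [ProperSpace L] [NormedAlgebra K L]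
  [FiniteDimensional K L] [IsGalois K L]

theorem isUniformizer_algebraMap_of_ramIdx_eq_one (h : ramIdx K L = 1) {π : K}
    (hπ : IsUniformizer K π) : IsUniformizer L (algebraMap K L π) := by
  rw [isUniformizer_iff_norm_eq, norm_algebraMap', hπ.norm_eq_unifNorm, unifNorm_eq_pow K L, h,
    pow_one]

theorem card_gal_residue : Nat.card (𝓀[L] ≃ₐ[𝓀[K]] 𝓀[L]) = resDeg K L := by
  haveI := finite_residue L
  exact IsGalois.card_aut_eq_finrank 𝓀[K] 𝓀[L]

/-- Trivial inertia implies `e = 1`. -/
theorem ramIdx_eq_one_of_injective (h : Function.Injective (resGal K L)) : ramIdx K L = 1 := by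
  have hbij : Function.Bijective (resGal K L) := ⟨h, resGal_surjective K L⟩
  have hcard : Nat.card (L ≃ₐ[K] L) = Nat.card (𝓀[L] ≃ₐ[𝓀[K]] 𝓀[L]) :=
    Nat.card_eq_of_bijective _ hbij
  rw [IsGalois.card_aut_eq_finrank, card_gal_residue, finrank_eq_ramIdx_mul_resDeg] at hcard
  have hpos := resDeg_pos K L
  have : ramIdx K L * resDeg K L = 1 * resDeg K L := by rw [one_mul]; exact hcard
  exact Nat.eq_of_mul_eq_mul_right hpos this

/-- **Criterion**: a finite Galois extension with trivial inertia is unramified. -/
theorem isUnramified_of_injective (h : Function.Injective (resGal K L)) : IsUnramified K L :=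
  ⟨h, fun _ hπ => isUniformizer_algebraMap_of_ramIdx_eq_one (ramIdx_eq_one_of_injective h) hπ⟩

theorem IsUnramified.ramIdx_eq_one (h : IsUnramified K L) : ramIdx K L = 1 :=
  ramIdx_eq_one_of_injective h.inertia

theorem IsUnramified.resDeg_eq_finrank (h : IsUnramified K L) :
    resDeg K L = Module.finrank K L := by
  rw [finrank_eq_ramIdx_mul_resDeg, h.ramIdx_eq_one, one_mul]

theorem IsUnramified.unifNorm_eq (h : IsUnramified K L) : unifNorm L = unifNorm K := by
  rw [unifNorm_eq_pow K L, h.ramIdx_eq_one, pow_one]

theorem IsUnramified.ord_algebraMap (h : IsUnramified K L) (x : K) :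
    ord L (algebraMap K L x) = ord K x := by
  rw [Fermat.Agent.S55lib.LocalUnr.ord_algebraMap, h.ramIdx_eq_one]
  simp

/-- In an unramified extension `ord_K (N y) = [L : K] * ord_L y`. -/
theorem IsUnramified.ord_algebraNorm (h : IsUnramified K L) (y : L) :
    ord K (Algebra.norm K y) = Module.finrank K L * ord L y := by
  by_cases hy : y = 0
  · simp [hy]
  apply ord_eq_of_norm_eq
  rw [norm_algebraNorm, norm_eq_zpow_ord hy, h.unifNorm_eq, ← zpow_natCast, ← zpow_mul, mul_comm]

end Crit

end Fermat.Agent.S55lib.LocalUnr
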