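/-
S55 sprint, block (II-a): discrete logarithm on a finite cyclic group with a chosen generator, and
the Frobenius element of an unramified extension of local fields.
-/
import Fermat.Agent.S55lib.LocalUnr.UnramifiedCrit

open scoped NormedField Valued NNReal Pointwise

namespace Fermat.Agent.S55lib.LocalUnr

set_option linter.unusedSectionVars false
set_option linter.style.haveILetI false

section CycLog

variable {G : Type*} [Group G] (g : G) (hg : ∀ σ : G, ∃ k : ℕ, g ^ k = σ)

/-- The discrete logarithm with respect to a generator `g`, with values in `ZMod (orderOf g)`. -/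
noncomputable def cycLog (σ : G) : ZMod (orderOf g) := ((Classical.choose (hg σ) : ℕ) : ZMod (orderOf g))

theorem cycLog_pow (k : ℕ) : cycLog g hg (g ^ k) = (k : ZMod (orderOf g)) := by
  rw [cycLog, ZMod.natCast_eq_natCast_iff]
  exact pow_eq_pow_iff_modEq.mp (Classical.choose_spec (hg (g ^ k)))

theorem cycLog_self : cycLog g hg g = 1 := by
  have := cycLog_pow g hg 1
  rwa [pow_one, Nat.cast_one] at this

theorem cycLog_one : cycLog g hg 1 = 0 := by
  have := cycLog_pow g hg 0
  rwa [pow_zero, Nat.cast_zero] at this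

theorem cycLog_mul (σ τ : G) : cycLog g hg (σ * τ) = cycLog g hg σ + cycLog g hg τ := by
  obtain ⟨a, rfl⟩ := hg σ
  obtain ⟨b, rfl⟩ := hg τ
  rw [← pow_add, cycLog_pow, cycLog_pow, cycLog_pow, Nat.cast_add]

theorem cycLog_injective : Function.Injective (cycLog g hg) := by
  intro σ τ h
  obtain ⟨a, rfl⟩ := hg σ
  obtain ⟨b, rfl⟩ := hg τ
  rw [cycLog_pow, cycLog_pow, ZMod.natCast_eq_natCast_iff] at h
  exact pow_eq_pow_iff_modEq.mpr h

end CycLog

section Frob

variable {K L : Type*} [NontriviallyNormedField K] [IsUltrametricDist K] [ProperSpace K]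
  [NontriviallyNormedField L] [IsUltrametricDist L] [ProperSpace L] [NormedAlgebra K L]
  [FiniteDimensional K L] [IsGalois K L]

/-- The Frobenius of the residue field extension. -/
noncomputable def resFrob (K L : Type*) [NontriviallyNormedField K] [IsUltrametricDist K]
    [ProperSpace K] [NontriviallyNormedField L] [IsUltrametricDist L] [ProperSpace L]
    [NormedAlgebra K L] : 𝓀[L] ≃ₐ[𝓀[K]] 𝓀[L] :=
  haveI := finite_residue K
  haveI := finite_residue L
  haveI := Fintype.ofFinite 𝓀[K]
  FiniteField.frobeniusAlgEquivOfAlgebraic 𝓀[K] 𝓀[L]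

omit [FiniteDimensional K L] [IsGalois K L] in
theorem resFrob_apply (x : 𝓀[L]) : resFrob K L x = x ^ Nat.card 𝓀[K] := by
  haveI := finite_residue K
  haveI := finite_residue L
  letI := Fintype.ofFinite 𝓀[K]
  rw [Nat.card_eq_fintype_card]
  rfl

omit [FiniteDimensional K L] [IsGalois K L] in
theorem orderOf_resFrob : orderOf (resFrob K L) = resDeg K L := by
  haveI := finite_residue K
  haveI := finite_residue L
  letI := Fintype.ofFinite 𝓀[K]
  exact FiniteField.orderOf_frobeniusAlgEquivOfAlgebraic 𝓀[K] 𝓀[L]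

omit [FiniteDimensional K L] [IsGalois K L] in
theorem exists_pow_resFrob (τ : 𝓀[L] ≃ₐ[𝓀[K]] 𝓀[L]) : ∃ k : ℕ, resFrob K L ^ k = τ := by
  haveI := finite_residue K
  haveI := finite_residue L
  letI := Fintype.ofFinite 𝓀[K]
  obtain ⟨k, hk⟩ := (FiniteField.bijective_frobeniusAlgEquivOfAlgebraic_pow 𝓀[K] 𝓀[L]).2 τ
  exact ⟨k, hk⟩

omit [FiniteDimensional K L] [IsGalois K L] in
theorem resFrob_pow_apply (m : ℕ) (x : 𝓀[L]) :
    (resFrob K L ^ m) x = x ^ (Nat.card 𝓀[K] ^ m) := by
  induction m generalizing x with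
  | zero => simp
  | succ m ih =>
    rw [pow_succ', AlgEquiv.mul_apply, ih, resFrob_apply, ← pow_mul, ← pow_succ]

/-- The Frobenius element of an unramified extension. -/
noncomputable def IsUnramified.frob (h : IsUnramified K L) : L ≃ₐ[K] L :=
  h.galEquiv.symm (resFrob K L)

theorem IsUnramified.resGal_frob (h : IsUnramified K L) : resGal K L h.frob = resFrob K L :=
  h.galEquiv.apply_symm_apply _

theorem IsUnramified.orderOf_frob (h : IsUnramified K L) :
    orderOf h.frob = Module.finrank K L := by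
  rw [IsUnramified.frob, MulEquiv.orderOf_eq, orderOf_resFrob, h.resDeg_eq_finrank]

theorem IsUnramified.exists_pow_frob (h : IsUnramified K L) (σ : L ≃ₐ[K] L) :
    ∃ k : ℕ, h.frob ^ k = σ := by
  obtain ⟨k, hk⟩ := exists_pow_resFrob (resGal K L σ)
  refine ⟨k, h.inertia ?_⟩
  rw [map_pow, h.resGal_frob, hk]

/-- The Frobenius congruence `‖φ x - x ^ q‖ < 1` on integers. -/
theorem IsUnramified.norm_frob_sub_pow_lt (h : IsUnramified K L) (x : L) (hx : ‖x‖ ≤ 1) :
    ‖h.frob x - x ^ Nat.card 𝓀[K]‖ < 1 := by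
  let X : 𝒪[L] := ⟨x, Valued.integer.mem_iff.mpr hx⟩
  have key : IsLocalRing.residue 𝒪[L] (h.frob • X - X ^ Nat.card 𝓀[K]) = 0 := by
    rw [map_sub, map_pow, ← resGal_apply, h.resGal_frob, resFrob_apply, sub_self]
  have := (residue_eq_zero_iff _).mp key
  simpa [coe_smul_integer] using this

/-- Characterisation of the Frobenius: any `σ` with `‖σ x - x ^ q‖ < 1` on integers is `frob`. -/
theorem IsUnramified.eq_frob_of_congr (h : IsUnramified K L) (σ : L ≃ₐ[K] L) (m : ℕ)
    (hσ : ∀ x : L, ‖x‖ ≤ 1 → ‖σ x - x ^ (Nat.card 𝓀[K] ^ m)‖ < 1) : σ = h.frob ^ m := by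
  apply h.inertia
  apply AlgEquiv.ext
  intro xb
  obtain ⟨X, rfl⟩ := IsLocalRing.residue_surjective xb
  rw [map_pow, h.resGal_frob, resGal_apply, resFrob_pow_apply, ← map_pow, ← sub_eq_zero,
    ← map_sub, residue_eq_zero_iff]
  have := hσ (X : L) (Valued.integer.norm_le_one X)
  simpa [coe_smul_integer] using this

end Frob

end Fermat.Agent.S55lib.LocalUnr
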