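/-
S55 sprint, block (II-a): the representation `Lˣ` of `Gal(L/K)`, `ord` on it, invariants and norms
in the unramified case. Base layer for the unramified invariant map.
-/
import Fermat.Agent.S55lib.LocalUnr.Frob
import Fermat.Agent.S55lib.Recip.CupDelta

open scoped NormedField Valued NNReal Pointwise
open groupCohomology Fermat.Agent.S55lib.Recip

namespace Fermat.Agent.S55lib.LocalUnr

set_option linter.unusedSectionVars false
set_option linter.style.haveILetI false

section CycLogN

variable {G : Type*} [Group G] (g : G) (hg : ∀ σ : G, ∃ k : ℕ, g ^ k = σ) (n : ℕ)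

/-- The discrete logarithm with values in `ZMod n`, for `n = orderOf g`. -/
noncomputable def cycLogN (σ : G) : ZMod n := ((Classical.choose (hg σ) : ℕ) : ZMod n)

variable {n} (hn : orderOf g = n)
include hn

theorem cycLogN_pow (k : ℕ) : cycLogN g hg n (g ^ k) = (k : ZMod n) := by
  subst hn
  exact cycLog_pow g hg k

theorem cycLogN_self : cycLogN g hg n g = 1 := by
  subst hn
  exact cycLog_self g hg

theorem cycLogN_mul (σ τ : G) :
    cycLogN g hg n (σ * τ) = cycLogN g hg n σ + cycLogN g hg n τ := by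
  subst hn
  exact cycLog_mul g hg σ τ

theorem cycLogN_injective : Function.Injective (cycLogN g hg n) := by
  subst hn
  exact cycLog_injective g hg

end CycLogN

section Inv

variable {K L : Type} [NontriviallyNormedField K] [IsUltrametricDist K] [ProperSpace K]
  [NontriviallyNormedField L] [IsUltrametricDist L] [ProperSpace L] [NormedAlgebra K L]
  [FiniteDimensional K L] [IsGalois K L]

/-- `ord` on the additive module of units. -/
noncomputable def ordAdd (L : Type) [NontriviallyNormedField L] [IsUltrametricDist L]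
    [ProperSpace L] : Additive Lˣ →+ ℤ :=
  MonoidHom.toAdditiveLeft (ordHom L)

omit [NormedAlgebra K L] [FiniteDimensional K L] [IsGalois K L]
  [NontriviallyNormedField K] [IsUltrametricDist K] [ProperSpace K] in
@[simp] theorem ordAdd_apply (a : Additive Lˣ) : ordAdd L a = ord L ((a.toMul : Lˣ) : L) := rfl

/-- `ord` on the representation `Lˣ`. -/
noncomputable def ordRep (K L : Type) [NontriviallyNormedField K] [NontriviallyNormedField L]
    [IsUltrametricDist L] [ProperSpace L] [NormedAlgebra K L] :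
    (Rep.ofAlgebraAutOnUnits K L) →+ ℤ := ordAdd L

omit [FiniteDimensional K L] [IsGalois K L] [IsUltrametricDist K] [ProperSpace K] in
theorem ordRep_apply (a : Rep.ofAlgebraAutOnUnits K L) :
    ordRep K L a = ord L (((Rep.toAdditive a).toMul : Lˣ) : L) := rfl

theorem ordRep_ρ (g : L ≃ₐ[K] L) (a : Rep.ofAlgebraAutOnUnits K L) :
    ordRep K L ((Rep.ofAlgebraAutOnUnits K L).ρ g a) = ordRep K L a := by
  change ord L (g (((Rep.toAdditive a).toMul : Lˣ) : L)) = ord L (((Rep.toAdditive a).toMul : Lˣ) : L)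
  apply ord_eq_of_norm_eq
  rw [norm_algEquiv, norm_eq_zpow_ord (Units.ne_zero _)]

theorem ordRep_norm (b : Rep.ofAlgebraAutOnUnits K L) :
    ordRep K L ((Rep.ofAlgebraAutOnUnits K L).ρ.norm b) = Module.finrank K L * ordRep K L b := by
  rw [Representation.norm, LinearMap.sum_apply, map_sum]
  simp only [ordRep_ρ, Finset.sum_const, Finset.card_univ, nsmul_eq_mul]
  rw [← IsGalois.card_aut_eq_finrank K L, Nat.card_eq_fintype_card]

/-- The element of `L` underlying an element of the representation `Lˣ`. -/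
noncomputable def repVal (a : Rep.ofAlgebraAutOnUnits K L) : L :=
  (((Rep.toAdditive a).toMul : Lˣ) : L)

/-- The element of the representation `Lˣ` attached to a unit. -/
noncomputable def repOf (K : Type) {L : Type} [NontriviallyNormedField K]
    [NontriviallyNormedField L] [NormedAlgebra K L] (x : Lˣ) : Rep.ofAlgebraAutOnUnits K L :=
  Rep.toAdditive.symm (Additive.ofMul x)

omit [FiniteDimensional K L] [IsGalois K L] [IsUltrametricDist K] [ProperSpace K]
  [IsUltrametricDist L] [ProperSpace L] in
@[simp] theorem repVal_repOf (x : Lˣ) : repVal (repOf K x) = (x : L) := rfl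

omit [FiniteDimensional K L] [IsGalois K L] [IsUltrametricDist K] [ProperSpace K]
  [IsUltrametricDist L] [ProperSpace L] in
theorem repOf_repVal (a : Rep.ofAlgebraAutOnUnits K L) :
    repOf K ((Rep.toAdditive a).toMul : Lˣ) = a := rfl

omit [FiniteDimensional K L] [IsGalois K L] [IsUltrametricDist K] [ProperSpace K]
  [IsUltrametricDist L] [ProperSpace L] in
theorem repVal_ρ (g : L ≃ₐ[K] L) (a : Rep.ofAlgebraAutOnUnits K L) :
    repVal ((Rep.ofAlgebraAutOnUnits K L).ρ g a) = g (repVal a) := rfl

omit [FiniteDimensional K L] [IsGalois K L] [IsUltrametricDist K] [ProperSpace K]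
  [IsUltrametricDist L] [ProperSpace L] in
theorem repVal_injective : Function.Injective (repVal (K := K) (L := L)) := by
  intro a b hab
  have : ((Rep.toAdditive a).toMul : Lˣ) = ((Rep.toAdditive b).toMul : Lˣ) := Units.ext hab
  exact this

theorem repVal_norm (b : Rep.ofAlgebraAutOnUnits K L) :
    repVal ((Rep.ofAlgebraAutOnUnits K L).ρ.norm b) = algebraMap K L (Algebra.norm K (repVal b)) :=
  groupCohomology.norm_ofAlgebraAutOnUnits_eq (K := K) (L := L) ((Rep.toAdditive b).toMul : Lˣ)

/-- Invariant elements of `Lˣ` come from `K`. -/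
theorem exists_of_invariant (a : Rep.ofAlgebraAutOnUnits K L)
    (ha : ∀ g : L ≃ₐ[K] L, (Rep.ofAlgebraAutOnUnits K L).ρ g a = a) :
    ∃ x : K, x ≠ 0 ∧ algebraMap K L x = repVal a := by
  have hfix : ∀ g : L ≃ₐ[K] L, g (repVal a) = repVal a := fun g => by
    rw [← repVal_ρ, ha g]
  obtain ⟨x, hx⟩ := (IsGalois.mem_range_algebraMap_iff_fixed (F := K) (E := L) (repVal a)).mpr hfix
  refine ⟨x, ?_, hx⟩
  rintro rfl
  rw [map_zero] at hx
  exact (Units.ne_zero ((Rep.toAdditive a).toMul : Lˣ)) hx.symm

omit [FiniteDimensional K L] [IsGalois K L] [IsUltrametricDist K] [ProperSpace K] in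
theorem ordRep_eq (a : Rep.ofAlgebraAutOnUnits K L) : ordRep K L a = ord L (repVal a) := rfl

/-- In an unramified extension, invariant elements with valuation divisible by `[L : K]` are
norms. -/
theorem IsUnramified.mem_range_norm (h : IsUnramified K L) (a : Rep.ofAlgebraAutOnUnits K L)
    (ha : ∀ g : L ≃ₐ[K] L, (Rep.ofAlgebraAutOnUnits K L).ρ g a = a)
    (hdvd : (Module.finrank K L : ℤ) ∣ ordRep K L a) :
    a ∈ LinearMap.range (Rep.ofAlgebraAutOnUnits K L).ρ.norm := by
  obtain ⟨x, hx0, hx⟩ := exists_of_invariant a ha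
  obtain ⟨k, hk⟩ := hdvd
  rw [ordRep_eq, ← hx, h.ord_algebraMap] at hk
  set π := unif K with hπdef
  have hπ : IsUniformizer K π := unif_isUniformizer K
  have hπ0 : π ≠ 0 := hπ.ne_zero
  set n := Module.finrank K L with hn
  set u : K := x / π ^ ((n : ℤ) * k) with hu
  have hu0 : u ≠ 0 := div_ne_zero hx0 (zpow_ne_zero _ hπ0)
  have hu1 : ‖u‖ = 1 := by
    rw [← ord_eq_zero_iff hu0, hu, div_eq_mul_inv, ord_mul hx0 (inv_ne_zero (zpow_ne_zero _ hπ0)),
      ord_inv, hk]
    have : ord K (π ^ ((n : ℤ) * k)) = (n : ℤ) * k := by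
      apply ord_eq_of_norm_eq
      rw [norm_zpow, hπ.norm_eq_unifNorm]
    rw [this]; ring
  obtain ⟨y, hy1, hyN⟩ := h.exists_norm_eq u hu1
  have hy0 : y ≠ 0 := by
    rintro rfl
    rw [norm_zero] at hy1
    exact zero_ne_one hy1
  have hb0 : algebraMap K L (π ^ k) * y ≠ 0 :=
    mul_ne_zero ((map_ne_zero (algebraMap K L)).mpr (zpow_ne_zero k hπ0)) hy0
  refine ⟨repOf K (Units.mk0 _ hb0), ?_⟩
  apply repVal_injective
  rw [repVal_norm, repVal_repOf, Units.val_mk0, map_mul, Algebra.norm_algebraMap, hyN,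
    ← hx, hu]
  congr 1
  rw [← zpow_natCast, ← zpow_mul, mul_comm k, ← hn]
  field_simp

end Inv

end Fermat.Agent.S55lib.LocalUnr
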