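/-
S55 sprint, block (II-a): the unramified invariant map.
For `L/K` unramified (finite Galois) of local fields, with Frobenius `φ` and `n = [L:K]`:
* `IsUnramified.invZEquiv : H²(Gal(L/K), Lˣ) ≃+ ZMod n`,
* `IsUnramified.inv : H²(Gal(L/K), Lˣ) →+ ℚ/ℤ` (injective, `AddCircle (1:ℚ)`),
* `IsUnramified.inv_cupδ_general : inv (a ∪ δψ) = ord(a) · ψ(φ).val / m` for `ψ : G → ZMod m`.
Built on helper9's `Recip/CupDelta.lean`.
-/
import Fermat.Agent.S55lib.LocalUnr.InvUnrBase

open scoped NormedField Valued NNReal Pointwise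
open groupCohomology Fermat.Agent.S55lib.Recip

namespace Fermat.Agent.S55lib.LocalUnr

set_option linter.unusedSectionVars false
set_option linter.style.haveILetI false

section Inv2

variable {K L : Type} [NontriviallyNormedField K] [IsUltrametricDist K] [ProperSpace K]
  [NontriviallyNormedField L] [IsUltrametricDist L] [ProperSpace L] [NormedAlgebra K L]
  [FiniteDimensional K L] [IsGalois K L]

/-- The degree of a finite extension is nonzero. -/
scoped instance neZero_finrank (K L : Type*) [Field K] [Field L] [Algebra K L]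
    [FiniteDimensional K L] : NeZero (Module.finrank K L) := ⟨Module.finrank_pos.ne'⟩

/-- The character `χ : Gal(L/K) → ZMod [L:K]` with `χ(frob) = 1`. -/
noncomputable def IsUnramified.chi (h : IsUnramified K L) :
    (L ≃ₐ[K] L) → ZMod (Module.finrank K L) :=
  cycLogN h.frob h.exists_pow_frob (Module.finrank K L)

theorem IsUnramified.chi_mul (h : IsUnramified K L) (σ τ : L ≃ₐ[K] L) :
    h.chi (σ * τ) = h.chi σ + h.chi τ :=
  cycLogN_mul h.frob h.exists_pow_frob h.orderOf_frob σ τ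

theorem IsUnramified.chi_frob (h : IsUnramified K L) : h.chi h.frob = 1 :=
  cycLogN_self h.frob h.exists_pow_frob h.orderOf_frob

theorem IsUnramified.chi_frob_pow (h : IsUnramified K L) (k : ℕ) : h.chi (h.frob ^ k) = k :=
  cycLogN_pow h.frob h.exists_pow_frob h.orderOf_frob k

theorem IsUnramified.chi_injective (h : IsUnramified K L) : Function.Injective h.chi :=
  cycLogN_injective h.frob h.exists_pow_frob h.orderOf_frob

/-- The `ZMod [L:K]`-valued invariant of a class in `H²(Gal(L/K), Lˣ)`, `L/K` unramified. -/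
noncomputable def IsUnramified.invZ (h : IsUnramified K L)
    (x : H2 (Rep.ofAlgebraAutOnUnits K L)) : ZMod (Module.finrank K L) :=
  (ordRep K L (Classical.choose (exists_eq_cupδ h.chi_mul h.chi_injective h.chi_frob x)) : ℤ)

theorem ordRep_cast_eq_of_cupδ_eq (h : IsUnramified K L) (a b : Rep.ofAlgebraAutOnUnits K L)
    (ha : ∀ g : L ≃ₐ[K] L, (Rep.ofAlgebraAutOnUnits K L).ρ g a = a)
    (hb : ∀ g : L ≃ₐ[K] L, (Rep.ofAlgebraAutOnUnits K L).ρ g b = b)
    (hab : cupδ h.chi h.chi_mul a ha = cupδ h.chi h.chi_mul b hb) :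
    ((ordRep K L a : ℤ) : ZMod (Module.finrank K L)) = (ordRep K L b : ℤ) := by
  have h0 : cupδLin h.chi_mul (⟨a, ha⟩ - ⟨b, hb⟩ : (Rep.ofAlgebraAutOnUnits K L).ρ.invariants) = 0 := by
    rw [map_sub, cupδLin_apply, cupδLin_apply, sub_eq_zero]
    exact hab
  rw [cupδLin_apply] at h0
  obtain ⟨c, hc⟩ := (cupδ_eq_zero_iff h.chi_mul h.chi_injective h.chi_frob _ _).mp h0
  have h1 : ordRep K L (a - b) = Module.finrank K L * ordRep K L c := by
    rw [← ordRep_norm, hc]; rfl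
  rw [map_sub] at h1
  have h2 : ordRep K L a = ordRep K L b + Module.finrank K L * ordRep K L c := by linarith
  rw [h2]
  push_cast
  simp

theorem IsUnramified.invZ_cupδ (h : IsUnramified K L) (a : Rep.ofAlgebraAutOnUnits K L)
    (ha : ∀ g : L ≃ₐ[K] L, (Rep.ofAlgebraAutOnUnits K L).ρ g a = a) :
    h.invZ (cupδ h.chi h.chi_mul a ha) = (ordRep K L a : ℤ) := by
  obtain ⟨ha', hx⟩ := Classical.choose_spec
    (exists_eq_cupδ h.chi_mul h.chi_injective h.chi_frob (cupδ h.chi h.chi_mul a ha))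
  exact (ordRep_cast_eq_of_cupδ_eq h _ _ ha ha' hx).symm

theorem IsUnramified.invZ_add (h : IsUnramified K L) (x y : H2 (Rep.ofAlgebraAutOnUnits K L)) :
    h.invZ (x + y) = h.invZ x + h.invZ y := by
  obtain ⟨a, ha, rfl⟩ := exists_eq_cupδ h.chi_mul h.chi_injective h.chi_frob x
  obtain ⟨b, hb, rfl⟩ := exists_eq_cupδ h.chi_mul h.chi_injective h.chi_frob y
  rw [← cupδ_add h.chi_mul a b ha hb, h.invZ_cupδ, h.invZ_cupδ, h.invZ_cupδ, map_add]
  push_cast
  rfl

/-- The `ZMod [L:K]`-valued invariant as a homomorphism. -/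
noncomputable def IsUnramified.invZHom (h : IsUnramified K L) :
    H2 (Rep.ofAlgebraAutOnUnits K L) →+ ZMod (Module.finrank K L) :=
  AddMonoidHom.mk' h.invZ h.invZ_add

theorem IsUnramified.invZHom_injective (h : IsUnramified K L) :
    Function.Injective h.invZHom := by
  rw [injective_iff_map_eq_zero]
  intro x hx
  obtain ⟨a, ha, rfl⟩ := exists_eq_cupδ h.chi_mul h.chi_injective h.chi_frob x
  change h.invZ _ = 0 at hx
  rw [h.invZ_cupδ, ZMod.intCast_zmod_eq_zero_iff_dvd] at hx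
  exact (cupδ_eq_zero_iff h.chi_mul h.chi_injective h.chi_frob a ha).mpr
    (h.mem_range_norm a ha hx)

/-- The element of the representation `Lˣ` given by a nonzero element of `K`. -/
noncomputable def repOfBase {K : Type} (L : Type) [NontriviallyNormedField K]
    [NontriviallyNormedField L] [NormedAlgebra K L] (x : K) (hx : x ≠ 0) :
    Rep.ofAlgebraAutOnUnits K L :=
  repOf K (Units.mk0 (algebraMap K L x) ((map_ne_zero (algebraMap K L)).mpr hx))

omit [IsUltrametricDist K] [ProperSpace K] [IsUltrametricDist L] [ProperSpace L]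
  [FiniteDimensional K L] [IsGalois K L] in
theorem repOfBase_invariant (x : K) (hx : x ≠ 0) (g : L ≃ₐ[K] L) :
    (Rep.ofAlgebraAutOnUnits K L).ρ g (repOfBase L x hx) = repOfBase L x hx := by
  apply repVal_injective
  rw [repVal_ρ]
  change g (algebraMap K L x) = algebraMap K L x
  exact g.commutes x

theorem IsUnramified.ordRep_repOfBase (h : IsUnramified K L) (x : K) (hx : x ≠ 0) :
    ordRep K L (repOfBase L x hx) = ord K x := by
  rw [ordRep_eq]
  change ord L (algebraMap K L x) = ord K x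
  exact h.ord_algebraMap x

theorem IsUnramified.invZHom_surjective (h : IsUnramified K L) :
    Function.Surjective h.invZHom := by
  intro z
  have hπ := unif_isUniformizer K
  set a := repOfBase L (Fermat.Agent.S55lib.LocalUnr.unif K) hπ.ne_zero with ha
  have h1 : h.invZHom (cupδ h.chi h.chi_mul a (repOfBase_invariant _ _)) = 1 := by
    change h.invZ _ = 1
    rw [h.invZ_cupδ, h.ordRep_repOfBase, ord_uniformizer hπ]
    simp
  refine ⟨z.val • cupδ h.chi h.chi_mul a (repOfBase_invariant _ _), ?_⟩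
  rw [map_nsmul, h1]
  simp

/-- **(U1)** `H²(Gal(L/K), Lˣ) ≃ ℤ/[L:K]` for `L/K` unramified. -/
noncomputable def IsUnramified.invZEquiv (h : IsUnramified K L) :
    H2 (Rep.ofAlgebraAutOnUnits K L) ≃+ ZMod (Module.finrank K L) :=
  AddEquiv.ofBijective h.invZHom ⟨h.invZHom_injective, h.invZHom_surjective⟩

/-- The sum of the carries along a generator: `m * ∑ carry (ψ g) (ψ φ) = |G| * (ψ φ).val`. -/
theorem sum_carry_eq {G : Type*} [Group G] [Fintype G] {m : ℕ} [NeZero m] (ψ : G → ZMod m)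
    (hψ : ∀ g h, ψ (g * h) = ψ g + ψ h) (φ : G) :
    m * ∑ g : G, carry (ψ g) (ψ φ) = Fintype.card G * (ψ φ).val := by
  have h1 : ∑ g : G, ((ψ g).val + (ψ φ).val) =
      ∑ g : G, (m * carry (ψ g) (ψ φ) + (ψ (g * φ)).val) := by
    refine Finset.sum_congr rfl (fun g _ => ?_)
    rw [hψ, carry_spec]
  have h2 : ∑ g : G, (ψ (g * φ)).val = ∑ g : G, (ψ g).val :=
    Fintype.sum_bijective (· * φ) (Group.mulRight_bijective φ) _ _ (fun _ => rfl)
  rw [Finset.sum_add_distrib, Finset.sum_add_distrib, h2, Finset.sum_const, Finset.card_univ,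
    smul_eq_mul, ← Finset.mul_sum] at h1
  omega

/-- The class `a ∪ δψ` for an arbitrary character `ψ`, in terms of the Frobenius character. -/
theorem IsUnramified.cupδ_eq (h : IsUnramified K L) {m : ℕ} [NeZero m]
    (ψ : (L ≃ₐ[K] L) → ZMod m) (hψ : ∀ g h, ψ (g * h) = ψ g + ψ h)
    (a : Rep.ofAlgebraAutOnUnits K L)
    (ha : ∀ g : L ≃ₐ[K] L, (Rep.ofAlgebraAutOnUnits K L).ρ g a = a) :
    cupδ ψ hψ a ha = cupδ h.chi h.chi_mul ((∑ g : L ≃ₐ[K] L, carry (ψ g) (ψ h.frob)) • a)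
      (fun g => by rw [map_nsmul, ha]) := by
  have key := H2π_eq_cupδ h.chi_mul h.chi_injective h.chi_frob (cupδCocycle ψ hψ a ha)
  unfold cupδ at key ⊢
  rw [key]
  congr 1
  apply cocycles₂_ext
  intro g g'
  simp only [cupδCocycle_apply, Finset.sum_smul]

theorem IsUnramified.invZ_cupδ_general (h : IsUnramified K L) {m : ℕ} [NeZero m]
    (ψ : (L ≃ₐ[K] L) → ZMod m) (hψ : ∀ g h, ψ (g * h) = ψ g + ψ h)
    (a : Rep.ofAlgebraAutOnUnits K L)
    (ha : ∀ g : L ≃ₐ[K] L, (Rep.ofAlgebraAutOnUnits K L).ρ g a = a) :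
    h.invZ (cupδ ψ hψ a ha) =
      (((∑ g : L ≃ₐ[K] L, carry (ψ g) (ψ h.frob) : ℕ) : ℤ) * ordRep K L a : ℤ) := by
  rw [h.cupδ_eq ψ hψ a ha, h.invZ_cupδ, map_nsmul]
  simp

/-- The embedding `ℤ/n → ℚ/ℤ`, `k ↦ k/n`. -/
noncomputable def zmodToQZ (n : ℕ) [NeZero n] : ZMod n →+ AddCircle (1 : ℚ) :=
  ZMod.lift n ⟨zmultiplesHom _ ((((1 : ℚ) / n : ℚ)) : AddCircle (1 : ℚ)), by
    have hn : (n : ℚ) ≠ 0 := Nat.cast_ne_zero.mpr (NeZero.ne n)
    rw [zmultiplesHom_apply, natCast_zsmul, ← AddCircle.coe_nsmul, nsmul_eq_mul,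
      mul_one_div_cancel hn]
    exact AddCircle.coe_period 1⟩

theorem zmodToQZ_intCast (n : ℕ) [NeZero n] (k : ℤ) :
    zmodToQZ n (k : ZMod n) = (((k : ℚ) / n : ℚ) : AddCircle (1 : ℚ)) := by
  rw [zmodToQZ, ZMod.lift_coe, zmultiplesHom_apply, ← AddCircle.coe_zsmul, zsmul_eq_mul]
  congr 1
  ring

theorem zmodToQZ_injective (n : ℕ) [NeZero n] : Function.Injective (zmodToQZ n) := by
  rw [injective_iff_map_eq_zero]
  intro z hz
  obtain ⟨k, rfl⟩ := ZMod.intCast_surjective z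
  have hn : (n : ℚ) ≠ 0 := Nat.cast_ne_zero.mpr (NeZero.ne n)
  rw [zmodToQZ_intCast, AddCircle.coe_eq_zero_iff] at hz
  obtain ⟨j, hj⟩ := hz
  rw [ZMod.intCast_zmod_eq_zero_iff_dvd]
  refine ⟨j, ?_⟩
  have : (k : ℚ) = n * j := by
    rw [zsmul_eq_mul, mul_one] at hj
    rw [hj]; field_simp
  exact_mod_cast this

/-- **The unramified invariant map** `inv : H²(Gal(L/K), Lˣ) → ℚ/ℤ`. -/
noncomputable def IsUnramified.inv (h : IsUnramified K L) :
    H2 (Rep.ofAlgebraAutOnUnits K L) →+ AddCircle (1 : ℚ) :=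
  (zmodToQZ (Module.finrank K L)).comp h.invZHom

theorem IsUnramified.inv_injective (h : IsUnramified K L) : Function.Injective h.inv :=
  (zmodToQZ_injective _).comp h.invZHom_injective

theorem IsUnramified.inv_cupδ (h : IsUnramified K L) (a : Rep.ofAlgebraAutOnUnits K L)
    (ha : ∀ g : L ≃ₐ[K] L, (Rep.ofAlgebraAutOnUnits K L).ρ g a = a) :
    h.inv (cupδ h.chi h.chi_mul a ha) =
      (((ordRep K L a : ℚ) / Module.finrank K L : ℚ) : AddCircle (1 : ℚ)) := by
  change zmodToQZ _ (h.invZ _) = _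
  rw [h.invZ_cupδ, zmodToQZ_intCast]

/-- **Explicit formula** `inv (a ∪ δψ) = ord(a) · ψ(Frob) / m` for any character `ψ` with values
in `ZMod m`. -/
theorem IsUnramified.inv_cupδ_general (h : IsUnramified K L) {m : ℕ} [NeZero m]
    (ψ : (L ≃ₐ[K] L) → ZMod m) (hψ : ∀ g h, ψ (g * h) = ψ g + ψ h)
    (a : Rep.ofAlgebraAutOnUnits K L)
    (ha : ∀ g : L ≃ₐ[K] L, (Rep.ofAlgebraAutOnUnits K L).ρ g a = a) :
    h.inv (cupδ ψ hψ a ha) =
      (((ordRep K L a : ℚ) * (ψ h.frob).val / m : ℚ) : AddCircle (1 : ℚ)) := by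
  change zmodToQZ _ (h.invZ _) = _
  rw [h.invZ_cupδ_general, zmodToQZ_intCast]
  congr 1
  have hsum := sum_carry_eq ψ hψ h.frob
  have hcard : Fintype.card (L ≃ₐ[K] L) = Module.finrank K L := by
    rw [← Nat.card_eq_fintype_card, IsGalois.card_aut_eq_finrank]
  rw [hcard] at hsum
  have hm : (m : ℚ) ≠ 0 := Nat.cast_ne_zero.mpr (NeZero.ne m)
  have hn : (Module.finrank K L : ℚ) ≠ 0 := Nat.cast_ne_zero.mpr (NeZero.ne _)
  have hq : (m : ℚ) * ((∑ g : L ≃ₐ[K] L, carry (ψ g) (ψ h.frob) : ℕ) : ℚ) =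
      (Module.finrank K L : ℚ) * ((ψ h.frob).val : ℚ) := by exact_mod_cast hsum
  push_cast
  field_simp
  push_cast at hq
  linear_combination (ordRep K L a : ℚ) * hq

end Inv2

end Fermat.Agent.S55lib.LocalUnr
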