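/-
S55 sprint, block (II-a): behaviour of the unramified invariant in towers.
`K ⊆ K'` arbitrary extension of local fields, `L/K` and `L'/K'` finite Galois unramified, `L ⊆ L'`:
`inv_{L'/K'} (res x) = [K' : K] • inv_{L/K} x` (`inv_map_resHom'`). The case `K' = K` is inflation.
-/
import Fermat.Agent.S55lib.LocalUnr.InvUnr

open scoped NormedField Valued NNReal Pointwise
open groupCohomology Fermat.Agent.S55lib.Recip

namespace Fermat.Agent.S55lib.LocalUnr

set_option linter.unusedSectionVars false
set_option linter.style.haveILetI false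

section Tower

variable {K K' L L' : Type}
  [NontriviallyNormedField K] [IsUltrametricDist K] [ProperSpace K]
  [NontriviallyNormedField K'] [IsUltrametricDist K'] [ProperSpace K']
  [NontriviallyNormedField L] [IsUltrametricDist L] [ProperSpace L]
  [NontriviallyNormedField L'] [IsUltrametricDist L'] [ProperSpace L']
  [NormedAlgebra K K'] [NormedAlgebra K L] [NormedAlgebra K L'] [NormedAlgebra K' L']
  [NormedAlgebra L L'] [IsScalarTower K K' L'] [IsScalarTower K L L']
  [FiniteDimensional K L] [IsGalois K L] [FiniteDimensional K' L'] [IsGalois K' L']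

/-- Restriction of automorphisms `Gal(L'/K') → Gal(L/K)` for `K ⊆ K' ⊆ L'`, `K ⊆ L ⊆ L'`,
`L/K` normal. -/
noncomputable def resHom (K K' L L' : Type) [Field K] [Field K'] [Field L] [Field L']
    [Algebra K K'] [Algebra K L] [Algebra K L'] [Algebra K' L'] [Algebra L L']
    [IsScalarTower K K' L'] [IsScalarTower K L L'] [Normal K L] :
    (L' ≃ₐ[K'] L') →* (L ≃ₐ[K] L) :=
  (AlgEquiv.restrictNormalHom L).comp (AlgEquiv.restrictScalarsHom K)

theorem algebraMap_resHom (σ : L' ≃ₐ[K'] L') (x : L) :
    algebraMap L L' (resHom K K' L L' σ x) = σ (algebraMap L L' x) :=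
  AlgEquiv.restrictNormal_commutes (σ.restrictScalars K) L x

variable (K K' L L') in
/-- The inclusion `Lˣ → L'ˣ` as a morphism of representations along `resHom`. -/
noncomputable def unitsMapRep :
    Rep.res (resHom K K' L L') (Rep.ofAlgebraAutOnUnits K L) ⟶ Rep.ofAlgebraAutOnUnits K' L' :=
  Rep.ofHom
    { toLinearMap := (MonoidHom.toAdditive (Units.map (algebraMap L L' : L →* L'))).toIntLinearMap
      isIntertwining' := fun g => by
        ext v
        exact algebraMap_resHom g _ }

theorem repVal_unitsMapRep (a : Rep.ofAlgebraAutOnUnits K L) :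
    repVal ((unitsMapRep K K' L L').hom a) =
      algebraMap L L' (repVal a) := rfl

omit [NontriviallyNormedField L] [IsUltrametricDist L] [ProperSpace L]
  [NontriviallyNormedField L'] [IsUltrametricDist L'] [ProperSpace L'] [NormedAlgebra K L]
  [NormedAlgebra K L'] [NormedAlgebra K' L'] [NormedAlgebra L L'] [IsScalarTower K K' L']
  [IsScalarTower K L L'] [FiniteDimensional K L] [IsGalois K L] [FiniteDimensional K' L']
  [IsGalois K' L'] in
theorem card_residue_eq_pow : Nat.card 𝓀[K'] = Nat.card 𝓀[K] ^ resDeg K K' := by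
  haveI := finite_residue K
  haveI := finite_residue K'
  letI := Fintype.ofFinite 𝓀[K]
  letI := Fintype.ofFinite 𝓀[K']
  rw [Nat.card_eq_fintype_card, Nat.card_eq_fintype_card, resDeg]
  exact Module.card_eq_pow_finrank

/-- The Frobenius of `L'/K'` restricts to the `f(K'/K)`-th power of the Frobenius of `L/K`. -/
theorem resHom_frob (h : IsUnramified K L) (h' : IsUnramified K' L') :
    resHom K K' L L' h'.frob = h.frob ^ resDeg K K' := by
  apply h.eq_frob_of_congr
  intro x hx
  have hx' : ‖algebraMap L L' x‖ ≤ 1 := by rwa [norm_algebraMap']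
  have := h'.norm_frob_sub_pow_lt (algebraMap L L' x) hx'
  rw [card_residue_eq_pow (K := K) (K' := K'), ← algebraMap_resHom (K := K) (K' := K'), ← map_pow, ← map_sub,
    norm_algebraMap'] at this
  exact this

theorem addCircle_coe_eq_of_sub_int {x y : ℚ} (k : ℤ) (hk : x = y + k) :
    (x : AddCircle (1 : ℚ)) = (y : AddCircle (1 : ℚ)) := by
  rw [hk, AddCircle.coe_add]
  have : ((k : ℚ) : AddCircle (1 : ℚ)) = 0 := by
    rw [AddCircle.coe_eq_zero_iff]
    exact ⟨k, by simp⟩
  rw [this, add_zero]

/-- **(U2)+(U3)** Behaviour of the unramified invariant under restriction/inflation: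
for `K ⊆ K'` arbitrary, `L/K` and `L'/K'` unramified with `L ⊆ L'`,
`inv_{L'/K'}(res x) = [K' : K] • inv_{L/K}(x)`. -/
theorem inv_map_resHom (h : IsUnramified K L) (h' : IsUnramified K' L')
    (x : H2 (Rep.ofAlgebraAutOnUnits K L)) :
    h'.inv (groupCohomology.map (resHom K K' L L') (unitsMapRep K K' L L') 2 x) =
      (ramIdx K K' * resDeg K K') • h.inv x := by
  obtain ⟨a, ha, rfl⟩ := exists_eq_cupδ h.chi_mul h.chi_injective h.chi_frob x
  rw [map_cupδ, h'.inv_cupδ_general, h.inv_cupδ]
  obtain ⟨x₀, hx₀, hxa⟩ := exists_of_invariant a ha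
  -- valuation of the image
  have hord : ordRep K' L' ((unitsMapRep K K' L L').hom a) = ramIdx K K' * ordRep K L a := by
    rw [ordRep_eq, ordRep_eq, repVal_unitsMapRep, ← hxa, ← IsScalarTower.algebraMap_apply,
      IsScalarTower.algebraMap_apply K K' L', h'.ord_algebraMap, ord_algebraMap,
      h.ord_algebraMap]
  -- the character value
  have hchi : (h.chi ∘ resHom K K' L L') h'.frob = (resDeg K K' : ZMod (Module.finrank K L)) := by
    rw [Function.comp_apply, resHom_frob h h', h.chi_frob_pow]
  rw [hord, hchi, ZMod.val_natCast, ← AddCircle.coe_nsmul]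
  set n := Module.finrank K L with hn
  have hn0 : (n : ℚ) ≠ 0 := Nat.cast_ne_zero.mpr (NeZero.ne n)
  obtain ⟨d, r, hd, hr⟩ : ∃ d r : ℕ, d = resDeg K K' / n ∧ r = resDeg K K' % n := ⟨_, _, rfl, rfl⟩
  rw [← hr]
  refine addCircle_coe_eq_of_sub_int (-(ramIdx K K' * ordRep K L a * (d : ℤ))) ?_
  have hdm : (resDeg K K' : ℚ) = (n : ℚ) * (d : ℚ) + (r : ℚ) := by
    rw [hd, hr]
    exact_mod_cast (Nat.div_add_mod (resDeg K K') n).symm
  push_cast
  rw [nsmul_eq_mul]
  push_cast
  field_simp
  rw [hdm]
  ring

/-- The same with the degree `[K' : K]`. -/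
theorem inv_map_resHom' (h : IsUnramified K L) (h' : IsUnramified K' L')
    (x : H2 (Rep.ofAlgebraAutOnUnits K L)) :
    h'.inv (groupCohomology.map (resHom K K' L L') (unitsMapRep K K' L L') 2 x) =
      Module.finrank K K' • h.inv x := by
  rw [inv_map_resHom h h', finrank_eq_ramIdx_mul_resDeg]

end Tower

end Fermat.Agent.S55lib.LocalUnr
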