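/-
S55 sprint, block (II-a): instantiation of the normed local-field setting for intermediate fields
of an ambient normed field, in particular finite subextensions of `PadicAlgCl q / ℚ_[q]`.
For `E : IntermediateField ℚ_[q] (PadicAlgCl q)` finite and `F : IntermediateField E (PadicAlgCl q)`
finite, all instances `NontriviallyNormedField`, `IsUltrametricDist`, `ProperSpace`,
`NormedAlgebra E F` are found automatically, so every theorem of `LocalUnr` applies to `(E, F)`.
-/
import Fermat.Agent.S55lib.LocalUnr.Tower

open scoped NormedField Valued NNReal

namespace Fermat.Agent.S55lib.LocalUnr

set_option linter.unusedSectionVars false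

section Ambient

variable {K₀ Ω : Type*} [NontriviallyNormedField K₀] [NormedField Ω] [NormedAlgebra K₀ Ω]

/-- The ambient field is a normed algebra over every intermediate field. -/
noncomputable instance normedAlgebraAmbient (E : IntermediateField K₀ Ω) : NormedAlgebra E Ω where
  norm_smul_le e x := by
    rw [Algebra.smul_def, norm_mul]
    exact le_of_eq rfl

/-- A finite subextension of a proper field is proper. -/
theorem properSpace_of_finiteDimensional [ProperSpace K₀] (E : IntermediateField K₀ Ω)
    [FiniteDimensional K₀ E] : ProperSpace E :=
  FiniteDimensional.proper K₀ E

variable (E : IntermediateField K₀ Ω) (F : IntermediateField E Ω)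

noncomputable example : NontriviallyNormedField F := inferInstance
noncomputable example : NormedAlgebra E F := inferInstance
noncomputable example [IsUltrametricDist Ω] : IsUltrametricDist F := inferInstance
noncomputable example [IsUltrametricDist Ω] : IsUltrametricDist E := inferInstance

end Ambient

section Padic

variable (q : ℕ) [Fact q.Prime]

noncomputable example : IsUltrametricDist (PadicAlgCl q) := inferInstance

noncomputable instance properSpace_padic (E : IntermediateField ℚ_[q] (PadicAlgCl q))
    [FiniteDimensional ℚ_[q] E] : ProperSpace E :=
  properSpace_of_finiteDimensional E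

noncomputable instance properSpace_padic_tower (E : IntermediateField ℚ_[q] (PadicAlgCl q))
    [FiniteDimensional ℚ_[q] E] (F : IntermediateField E (PadicAlgCl q))
    [FiniteDimensional E F] : ProperSpace F :=
  properSpace_of_finiteDimensional F

end Padic

end Fermat.Agent.S55lib.LocalUnr

namespace Fermat.Agent.S55lib.LocalUnr
open groupCohomology
section Test
variable (q : ℕ) [Fact q.Prime] (E : IntermediateField ℚ_[q] (PadicAlgCl q))
    [FiniteDimensional ℚ_[q] E] (F : IntermediateField E (PadicAlgCl q))
    [FiniteDimensional E F] [IsGalois E F]

noncomputable example (h : IsUnramified E F) :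
    H2 (Rep.ofAlgebraAutOnUnits E F) ≃+ ZMod (Module.finrank E F) := h.invZEquiv

example : Module.finrank E F = ramIdx E F * resDeg E F := finrank_eq_ramIdx_mul_resDeg E F

example (h : Function.Injective (resGal E F)) : IsUnramified E F := isUnramified_of_injective h
end Test
end Fermat.Agent.S55lib.LocalUnr
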