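/-
S55 sprint, block (II-a): roots of unity of order prime to the residue characteristic are distinct
modulo the maximal ideal (normed form).
-/
import Fermat.Agent.S55lib.LocalUnr.Frob

open scoped NormedField Valued NNReal Pointwise

namespace Fermat.Agent.S55lib.LocalUnr

set_option linter.unusedSectionVars false
set_option linter.style.haveILetI false

section RootsOfUnity

variable {F : Type*} [NormedField F] [IsUltrametricDist F]

theorem norm_eq_one_of_pow_eq_one {x : F} {N : ℕ} (hN : N ≠ 0) (h : x ^ N = 1) : ‖x‖ = 1 := by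
  have h1 : ‖x‖ ^ N = 1 := by rw [← norm_pow, h, norm_one]
  exact (pow_eq_one_iff_of_nonneg (norm_nonneg x) hN).mp h1

theorem norm_one_sub_le_one {x : F} (hx : ‖x‖ = 1) : ‖1 - x‖ ≤ 1 := by
  have := norm_sub_le_max' (1 : F) x
  rwa [norm_one, hx, max_self] at this

/-- If `n + 1` is a unit (norm one), the differences `1 - ζ ^ (k+1)`, `k < n`, of a primitive
`(n+1)`-th root of unity are units. -/
theorem norm_one_sub_pow_eq_one {n : ℕ} (hn : ‖((n : F) + 1)‖ = 1) {ζ : F}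
    (hζ : IsPrimitiveRoot ζ (n + 1)) {k : ℕ} (hk : k < n) : ‖1 - ζ ^ (k + 1)‖ = 1 := by
  have hζ1 : ‖ζ‖ = 1 := norm_eq_one_of_pow_eq_one (Nat.succ_ne_zero n) hζ.pow_eq_one
  have hle : ∀ j, ‖1 - ζ ^ (j + 1)‖ ≤ 1 := fun j =>
    norm_one_sub_le_one (by rw [norm_pow, hζ1, one_pow])
  have hprod := congrArg norm hζ.prod_one_sub_pow_eq_order
  rw [norm_prod, hn] at hprod
  refine le_antisymm (hle k) ?_
  have hmem : k ∈ Finset.range n := Finset.mem_range.mpr hk
  rw [← Finset.mul_prod_erase _ _ hmem] at hprod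
  have h2 : ∏ j ∈ (Finset.range n).erase k, ‖1 - ζ ^ (j + 1)‖ ≤ 1 :=
    Finset.prod_le_one (fun j _ => norm_nonneg _) (fun j _ => hle j)
  calc (1 : ℝ) = ‖1 - ζ ^ (k + 1)‖ * ∏ j ∈ (Finset.range n).erase k, ‖1 - ζ ^ (j + 1)‖ := hprod.symm
    _ ≤ ‖1 - ζ ^ (k + 1)‖ * 1 := by gcongr
    _ = ‖1 - ζ ^ (k + 1)‖ := mul_one _

/-- Distinct powers of a primitive `(n+1)`-th root of unity are at distance one when `n + 1` is a
unit. -/
theorem norm_pow_sub_pow_eq_one {n : ℕ} (hn : ‖((n : F) + 1)‖ = 1) {ζ : F}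
    (hζ : IsPrimitiveRoot ζ (n + 1)) {a b : ℕ} (hab : ζ ^ a ≠ ζ ^ b) : ‖ζ ^ a - ζ ^ b‖ = 1 := by
  have hζ1 : ‖ζ‖ = 1 := norm_eq_one_of_pow_eq_one (Nat.succ_ne_zero n) hζ.pow_eq_one
  -- reduce to a > b, both < n + 1
  wlog hlt : b % (n + 1) < a % (n + 1) generalizing a b
  · have hne : a % (n + 1) ≠ b % (n + 1) := by
      intro he
      apply hab
      rw [← Nat.mod_add_div a (n + 1), ← Nat.mod_add_div b (n + 1), pow_add, pow_add, pow_mul,
        pow_mul, hζ.pow_eq_one, one_pow, one_pow, he]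
    have hlt' : a % (n + 1) < b % (n + 1) := by omega
    rw [norm_sub_rev]
    exact this hab.symm hlt'
  set a' := a % (n + 1) with ha'
  set b' := b % (n + 1) with hb'
  have ha : ζ ^ a = ζ ^ a' := by
    rw [← Nat.mod_add_div a (n + 1), pow_add, pow_mul, hζ.pow_eq_one, one_pow, mul_one]
  have hb : ζ ^ b = ζ ^ b' := by
    rw [← Nat.mod_add_div b (n + 1), pow_add, pow_mul, hζ.pow_eq_one, one_pow, mul_one]
  have ha'lt : a' < n + 1 := Nat.mod_lt _ (Nat.succ_pos n)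
  obtain ⟨k, hk⟩ : ∃ k, a' = b' + (k + 1) := ⟨a' - b' - 1, by omega⟩
  have hkn : k < n := by omega
  have hfac : ζ ^ b' * ζ ^ (k + 1) - ζ ^ b' = - (ζ ^ b' * (1 - ζ ^ (k + 1))) := by ring
  rw [ha, hb, hk, pow_add, hfac, norm_neg, norm_mul, norm_pow, hζ1, one_pow, one_mul]
  exact norm_one_sub_pow_eq_one hn hζ hkn

end RootsOfUnity

end Fermat.Agent.S55lib.LocalUnr
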