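/-
S55 sprint, block (II-a): existence of unramified extensions. If `L/K` (finite Galois, local
fields) is generated by a primitive root of unity of order `q_K ^ m - 1`, then `L/K` is unramified
of degree `m`.
-/
import Fermat.Agent.S55lib.LocalUnr.UnrRoots

open scoped NormedField Valued NNReal Pointwise

namespace Fermat.Agent.S55lib.LocalUnr

set_option linter.unusedSectionVars false
set_option linter.style.haveILetI false

section Cyclo

variable {K L : Type*} [NontriviallyNormedField K] [IsUltrametricDist K] [ProperSpace K]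
  [NontriviallyNormedField L] [IsUltrametricDist L] [ProperSpace L] [NormedAlgebra K L]
  [FiniteDimensional K L] [IsGalois K L]

omit [NontriviallyNormedField L] [IsUltrametricDist L] [ProperSpace L] [NormedAlgebra K L]
  [FiniteDimensional K L] [IsGalois K L] in
theorem two_le_card_residue : 2 ≤ Nat.card 𝓀[K] := by
  haveI := finite_residue K
  exact Finite.one_lt_card

omit [NontriviallyNormedField L] [IsUltrametricDist L] [ProperSpace L] [NormedAlgebra K L]
  [FiniteDimensional K L] [IsGalois K L] in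
/-- `q_K ^ m - 1` is a unit of `K` for `m ≥ 1`. -/
theorem norm_natCast_card_pow_sub_one (m : ℕ) (hm : 0 < m) :
    ‖((Nat.card 𝓀[K] ^ m - 1 : ℕ) : K)‖ = 1 := by
  haveI := finite_residue K
  letI := Fintype.ofFinite 𝓀[K]
  set Q := Nat.card 𝓀[K] with hQdef
  have hQ : ((Q : ℕ) : 𝓀[K]) = 0 := by
    rw [hQdef, Nat.card_eq_fintype_card]
    exact Nat.cast_card_eq_zero 𝓀[K]
  have h1 : 1 ≤ Q ^ m := Nat.one_le_pow _ _ (by have := two_le_card_residue (K := K); omega)
  set x : 𝒪[K] := ((Q ^ m - 1 : ℕ) : 𝒪[K]) with hx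
  have hres : IsLocalRing.residue 𝒪[K] x = -1 := by
    rw [hx, map_natCast, Nat.cast_sub h1, Nat.cast_pow, hQ, zero_pow hm.ne']
    simp
  have hne : ¬ ‖x‖ < 1 := by
    rw [← residue_eq_zero_iff, hres]
    simp
  have hle : ‖x‖ ≤ 1 := Valued.integer.norm_le_one x
  have : ‖x‖ = 1 := le_antisymm hle (not_lt.mp hne)
  rw [← this, hx]
  rfl

/-- The Galois action on a norm-one element, modulo the maximal ideal: if `σ` acts trivially on the
residue field then `‖σ x - x‖ < 1`. -/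
theorem norm_sub_lt_of_resGal_eq_one {σ : L ≃ₐ[K] L} (hσ : resGal K L σ = 1) (x : L)
    (hx : ‖x‖ ≤ 1) : ‖σ x - x‖ < 1 := by
  let X : 𝒪[L] := ⟨x, Valued.integer.mem_iff.mpr hx⟩
  have key : IsLocalRing.residue 𝒪[L] (σ • X - X) = 0 := by
    rw [map_sub, ← resGal_apply, hσ]
    simp
  have := (residue_eq_zero_iff _).mp key
  simpa [coe_smul_integer] using this

/-- If `L/K` is generated by a primitive root of unity `ζ` of order `N` with `N` a unit of `K`
(i.e. `N` prime to the residue characteristic), then the inertia group is trivial. -/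
theorem injective_resGal_of_primitiveRoot_of_unit {N : ℕ} (hN0 : N ≠ 0)
    (hunit : ‖((N : ℕ) : K)‖ = 1) {ζ : L} (hζ : IsPrimitiveRoot ζ N)
    (hgen : ∀ σ : L ≃ₐ[K] L, σ ζ = ζ → σ = 1) : Function.Injective (resGal K L) := by
  rw [injective_iff_map_eq_one]
  intro σ hσ
  apply hgen
  obtain ⟨n, hn⟩ : ∃ n, N = n + 1 := ⟨N - 1, by omega⟩
  have hunit' : ‖((n : L) + 1)‖ = 1 := by
    have h2 : ((n : L) + 1) = algebraMap K L ((n + 1 : ℕ) : K) := by simp
    rw [h2, norm_algebraMap', ← hn, hunit]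
  rw [hn] at hζ
  have hζ1 : ‖ζ‖ = 1 := norm_eq_one_of_pow_eq_one (Nat.succ_ne_zero n) hζ.pow_eq_one
  have hlt := norm_sub_lt_of_resGal_eq_one hσ ζ hζ1.le
  have hσζ : (σ ζ) ^ (n + 1) = 1 := by rw [← map_pow, hζ.pow_eq_one, map_one]
  obtain ⟨i, -, hi⟩ := hζ.eq_pow_of_pow_eq_one hσζ
  by_contra hne
  have hne' : ζ ^ i ≠ ζ ^ 1 := by rw [hi, pow_one]; exact hne
  have := norm_pow_sub_pow_eq_one hunit' hζ hne'
  rw [hi, pow_one] at this
  exact absurd this (ne_of_lt hlt)

/-- Such an extension is unramified. -/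
theorem isUnramified_of_primitiveRoot_of_unit {N : ℕ} (hN0 : N ≠ 0)
    (hunit : ‖((N : ℕ) : K)‖ = 1) {ζ : L} (hζ : IsPrimitiveRoot ζ N)
    (hgen : ∀ σ : L ≃ₐ[K] L, σ ζ = ζ → σ = 1) : IsUnramified K L :=
  isUnramified_of_injective (injective_resGal_of_primitiveRoot_of_unit hN0 hunit hζ hgen)

/-- **Existence of unramified extensions, part 1**: if `L/K` is generated by a primitive root of
unity `ζ` of order `q_K ^ m - 1`, then the inertia group is trivial. -/
theorem injective_resGal_of_primitiveRoot (m : ℕ) (hm : 0 < m) {ζ : L}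
    (hζ : IsPrimitiveRoot ζ (Nat.card 𝓀[K] ^ m - 1))
    (hgen : ∀ σ : L ≃ₐ[K] L, σ ζ = ζ → σ = 1) : Function.Injective (resGal K L) := by
  have hQ := two_le_card_residue (K := K)
  have hN1 : 1 ≤ Nat.card 𝓀[K] ^ m - 1 := by
    have : 2 ^ 1 ≤ Nat.card 𝓀[K] ^ m :=
      (Nat.pow_le_pow_left hQ 1).trans (Nat.pow_le_pow_right (by omega) hm)
    omega
  exact injective_resGal_of_primitiveRoot_of_unit (by omega)
    (norm_natCast_card_pow_sub_one (K := K) m hm) hζ hgen

theorem IsUnramified.norm_frob_pow_sub_pow_lt (h : IsUnramified K L) (k : ℕ) (x : L)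
    (hx : ‖x‖ ≤ 1) : ‖(h.frob ^ k) x - x ^ (Nat.card 𝓀[K] ^ k)‖ < 1 := by
  let X : 𝒪[L] := ⟨x, Valued.integer.mem_iff.mpr hx⟩
  have key : IsLocalRing.residue 𝒪[L] ((h.frob ^ k) • X - X ^ (Nat.card 𝓀[K] ^ k)) = 0 := by
    rw [map_sub, map_pow, ← resGal_apply, map_pow, h.resGal_frob, resFrob_pow_apply, sub_self]
  have := (residue_eq_zero_iff _).mp key
  simpa [coe_smul_integer] using this

/-- **Existence of unramified extensions, part 2**: if `L/K` is generated by a primitive root of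
unity of order `q_K ^ m - 1`, then `L/K` is unramified of degree `m`. -/
theorem isUnramified_and_finrank_of_primitiveRoot (m : ℕ) (hm : 0 < m) {ζ : L}
    (hζ : IsPrimitiveRoot ζ (Nat.card 𝓀[K] ^ m - 1))
    (hgen : ∀ σ : L ≃ₐ[K] L, σ ζ = ζ → σ = 1) :
    IsUnramified K L ∧ Module.finrank K L = m := by
  have h : IsUnramified K L :=
    isUnramified_of_injective (injective_resGal_of_primitiveRoot m hm hζ hgen)
  refine ⟨h, ?_⟩
  set Q := Nat.card 𝓀[K] with hQdef
  set N := Q ^ m - 1 with hN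
  have hQ : 2 ≤ Q := two_le_card_residue (K := K)
  have hQm : 2 ≤ Q ^ m :=
    calc 2 = 2 ^ 1 := by norm_num
      _ ≤ Q ^ 1 := Nat.pow_le_pow_left hQ 1
      _ ≤ Q ^ m := Nat.pow_le_pow_right (by omega) hm
  have hN1 : 1 ≤ N := by omega
  obtain ⟨n, hn⟩ : ∃ n, N = n + 1 := ⟨N - 1, by omega⟩
  have hunit : ‖((n : L) + 1)‖ = 1 := by
    have h1 := norm_natCast_card_pow_sub_one (K := K) m hm
    rw [← hQdef, ← hN, hn] at h1
    have h2 : ((n : L) + 1) = algebraMap K L ((n + 1 : ℕ) : K) := by simp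
    rw [h2, norm_algebraMap', h1]
  have hζ' : IsPrimitiveRoot ζ (n + 1) := hn ▸ hζ
  have hζ1 : ‖ζ‖ = 1 := norm_eq_one_of_pow_eq_one (Nat.succ_ne_zero n) hζ'.pow_eq_one
  -- a Galois conjugate of ζ congruent to a power of ζ is equal to it
  have hcongr : ∀ (σ : L ≃ₐ[K] L) (j : ℕ), ‖σ ζ - ζ ^ j‖ < 1 → σ ζ = ζ ^ j := by
    intro σ j hlt
    have hσζ : (σ ζ) ^ (n + 1) = 1 := by rw [← map_pow, hζ'.pow_eq_one, map_one]
    obtain ⟨i, -, hi⟩ := hζ'.eq_pow_of_pow_eq_one hσζ
    by_contra hne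
    have hne' : ζ ^ i ≠ ζ ^ j := by rw [hi]; exact hne
    have := norm_pow_sub_pow_eq_one hunit hζ' hne'
    rw [hi] at this
    exact absurd this (ne_of_lt hlt)
  -- f ∣ m
  have hfm : Module.finrank K L ∣ m := by
    rw [← h.orderOf_frob]
    apply orderOf_dvd_of_pow_eq_one
    apply hgen
    have h1 := hcongr (h.frob ^ m) (Q ^ m) (h.norm_frob_pow_sub_pow_lt m ζ hζ1.le)
    rw [h1]
    have : Q ^ m = N + 1 := by omega
    rw [this, pow_succ, hζ.pow_eq_one, one_mul]
  -- m ≤ f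
  set f := Module.finrank K L with hf
  have hfpos : 0 < f := Module.finrank_pos
  have hmf : m ≤ f := by
    have h1 := h.norm_frob_pow_sub_pow_lt f ζ hζ1.le
    have hpow : h.frob ^ f = 1 := by rw [hf, ← h.orderOf_frob]; exact pow_orderOf_eq_one _
    rw [hpow, AlgEquiv.one_apply] at h1
    have h2 : ζ ^ 1 = ζ ^ (Q ^ f) := by
      by_contra hne
      have := norm_pow_sub_pow_eq_one hunit hζ' hne
      rw [pow_one] at this
      exact absurd this (ne_of_lt h1)
    have hQf : 1 ≤ Q ^ f := Nat.one_le_pow _ _ (by omega)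
    have h3 : ζ ^ (Q ^ f - 1) = 1 := by
      have : ζ ^ (Q ^ f) = ζ ^ (Q ^ f - 1) * ζ := by
        rw [← pow_succ]; congr 1; omega
      rw [pow_one, this] at h2
      have hζ0 : ζ ≠ 0 := by
        intro h0; rw [h0, norm_zero] at hζ1; exact zero_ne_one hζ1
      exact (mul_right_cancel₀ hζ0 (by rw [one_mul]; exact h2)).symm
    have hdvd : N ∣ Q ^ f - 1 := hζ.dvd_of_pow_eq_one _ h3
    have hQf2 : 2 ≤ Q ^ f :=
      calc 2 = 2 ^ 1 := by norm_num
        _ ≤ Q ^ 1 := Nat.pow_le_pow_left hQ 1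
        _ ≤ Q ^ f := Nat.pow_le_pow_right (by omega) hfpos
    have hle : N ≤ Q ^ f - 1 := Nat.le_of_dvd (by omega) hdvd
    have hle2 : Q ^ m ≤ Q ^ f := by omega
    exact (Nat.pow_le_pow_iff_right (by omega)).mp hle2
  exact le_antisymm (Nat.le_of_dvd hm hfm) hmf

end Cyclo

end Fermat.Agent.S55lib.LocalUnr
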