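/-
S55 sprint, block (II-a): existence of unramified extensions inside an ambient field, and inside
`PadicAlgCl q` (`exists_unramified_padic`).
-/
import Fermat.Agent.S55lib.LocalUnr.UnrExist
import Fermat.Agent.S55lib.LocalUnr.Padic

open scoped NormedField Valued NNReal Pointwise IntermediateField

namespace Fermat.Agent.S55lib.LocalUnr

set_option linter.unusedSectionVars false
set_option linter.style.haveILetI false

section AmbientExist

variable {K Ω : Type*} [NontriviallyNormedField K] [IsUltrametricDist K] [ProperSpace K]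
  [NormedField Ω] [NormedAlgebra K Ω] [IsUltrametricDist Ω] [Algebra.IsIntegral K Ω]

/-- Inside an ambient field, `K(ζ)` for `ζ` a primitive root of unity of order `N` a unit of `K`
is a finite Galois unramified extension. -/
theorem adjoin_primitiveRoot_isUnramified_of_unit {N : ℕ} (hN0 : N ≠ 0)
    (hunit : ‖((N : ℕ) : K)‖ = 1) {ζ : Ω} (hζ : IsPrimitiveRoot ζ N) :
    ∃ (_ : FiniteDimensional K K⟮ζ⟯) (_ : IsGalois K K⟮ζ⟯) (_ : ProperSpace K⟮ζ⟯),
      IsUnramified K K⟮ζ⟯ := by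
  have hint : IsIntegral K ζ := Algebra.IsIntegral.isIntegral ζ
  haveI hfd : FiniteDimensional K K⟮ζ⟯ := IntermediateField.adjoin.finiteDimensional hint
  haveI : NeZero N := ⟨hN0⟩
  haveI hcyc : IsCyclotomicExtension {N} K K⟮ζ⟯ :=
    hζ.intermediateField_adjoin_isCyclotomicExtension K
  haveI hgal : IsGalois K K⟮ζ⟯ := IsCyclotomicExtension.isGalois {N} K K⟮ζ⟯
  haveI hprop : ProperSpace K⟮ζ⟯ := FiniteDimensional.proper K K⟮ζ⟯
  refine ⟨hfd, hgal, hprop, ?_⟩
  let ζ' : K⟮ζ⟯ := IntermediateField.AdjoinSimple.gen K ζ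
  have hζ' : IsPrimitiveRoot ζ' N := by
    apply IsPrimitiveRoot.of_map_of_injective (f := algebraMap K⟮ζ⟯ Ω) ?_
      (algebraMap K⟮ζ⟯ Ω).injective
    simpa [ζ'] using hζ
  refine isUnramified_of_primitiveRoot_of_unit hN0 hunit hζ' ?_
  intro σ hσ
  have : (σ : K⟮ζ⟯ →ₐ[K] K⟮ζ⟯) = AlgHom.id K K⟮ζ⟯ := by
    apply (IntermediateField.adjoin.powerBasis hint).algHom_ext
    rw [IntermediateField.adjoin.powerBasis_gen]
    exact hσ
  ext x
  exact congrArg Subtype.val (DFunLike.congr_fun this x)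

/-- Inside an ambient field, `K(ζ)` for `ζ` a primitive root of unity of order `q_K ^ m - 1` is a
finite Galois unramified extension of degree `m`. -/
theorem adjoin_primitiveRoot_isUnramified (m : ℕ) (hm : 0 < m) {ζ : Ω}
    (hζ : IsPrimitiveRoot ζ (Nat.card 𝓀[K] ^ m - 1)) :
    ∃ (_ : FiniteDimensional K K⟮ζ⟯) (_ : IsGalois K K⟮ζ⟯) (_ : ProperSpace K⟮ζ⟯),
      IsUnramified K K⟮ζ⟯ ∧ Module.finrank K K⟮ζ⟯ = m := by
  have hint : IsIntegral K ζ := Algebra.IsIntegral.isIntegral ζ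
  haveI hfd : FiniteDimensional K K⟮ζ⟯ := IntermediateField.adjoin.finiteDimensional hint
  have hQ := two_le_card_residue (K := K)
  have hN1 : 1 ≤ Nat.card 𝓀[K] ^ m - 1 := by
    have : 2 ^ 1 ≤ Nat.card 𝓀[K] ^ m :=
      (Nat.pow_le_pow_left hQ 1).trans (Nat.pow_le_pow_right (by omega) hm)
    omega
  haveI : NeZero (Nat.card 𝓀[K] ^ m - 1) := ⟨by omega⟩
  haveI hcyc : IsCyclotomicExtension {Nat.card 𝓀[K] ^ m - 1} K K⟮ζ⟯ :=
    hζ.intermediateField_adjoin_isCyclotomicExtension K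
  haveI hgal : IsGalois K K⟮ζ⟯ := IsCyclotomicExtension.isGalois {Nat.card 𝓀[K] ^ m - 1} K K⟮ζ⟯
  haveI hprop : ProperSpace K⟮ζ⟯ := FiniteDimensional.proper K K⟮ζ⟯
  refine ⟨hfd, hgal, hprop, ?_⟩
  let ζ' : K⟮ζ⟯ := IntermediateField.AdjoinSimple.gen K ζ
  have hζ' : IsPrimitiveRoot ζ' (Nat.card 𝓀[K] ^ m - 1) := by
    apply IsPrimitiveRoot.of_map_of_injective (f := algebraMap K⟮ζ⟯ Ω) ?_
      (algebraMap K⟮ζ⟯ Ω).injective
    simpa [ζ'] using hζ
  refine isUnramified_and_finrank_of_primitiveRoot m hm hζ' ?_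
  intro σ hσ
  have : (σ : K⟮ζ⟯ →ₐ[K] K⟮ζ⟯) = AlgHom.id K K⟮ζ⟯ := by
    apply (IntermediateField.adjoin.powerBasis hint).algHom_ext
    rw [IntermediateField.adjoin.powerBasis_gen]
    exact hσ
  ext x
  exact congrArg Subtype.val (DFunLike.congr_fun this x)

end AmbientExist

section PadicExist

variable (q : ℕ) [Fact q.Prime] (E : IntermediateField ℚ_[q] (PadicAlgCl q))
  [FiniteDimensional ℚ_[q] E]

instance isIntegral_padicAlgCl_over : Algebra.IsIntegral E (PadicAlgCl q) :=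
  haveI : Algebra.IsIntegral ℚ_[q] (PadicAlgCl q) :=
    (Algebra.isAlgebraic_def.mpr (PadicAlgCl.isAlgebraic q).isAlgebraic).isIntegral
  Algebra.IsIntegral.tower_top (R := ℚ_[q])

/-- **Existence**: every finite extension `E` of `ℚ_q` inside `PadicAlgCl q` has, for every
`m ≥ 1`, a finite Galois unramified extension of degree `m` inside `PadicAlgCl q`. -/
theorem exists_unramified_padic (m : ℕ) (hm : 0 < m) :
    ∃ (F : IntermediateField E (PadicAlgCl q)) (_ : FiniteDimensional E F) (_ : IsGalois E F),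
      IsUnramified E F ∧ Module.finrank E F = m := by
  have hQ := two_le_card_residue (K := E)
  have hN1 : 1 ≤ Nat.card 𝓀[E] ^ m - 1 := by
    have : 2 ^ 1 ≤ Nat.card 𝓀[E] ^ m :=
      (Nat.pow_le_pow_left hQ 1).trans (Nat.pow_le_pow_right (by omega) hm)
    omega
  haveI : NeZero ((Nat.card 𝓀[E] ^ m - 1 : ℕ) : PadicAlgCl q) :=
    ⟨Nat.cast_ne_zero.mpr (by omega)⟩
  obtain ⟨ζ, hζ⟩ := HasEnoughRootsOfUnity.exists_primitiveRoot (PadicAlgCl q)
    (Nat.card 𝓀[E] ^ m - 1)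
  obtain ⟨h1, h2, h3, h4⟩ := adjoin_primitiveRoot_isUnramified (K := E) m hm hζ
  exact ⟨E⟮ζ⟯, h1, h2, by convert h4⟩

end PadicExist

end Fermat.Agent.S55lib.LocalUnr
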