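/-
S55 library, block (II-a) local theory (helper3).  **Krasner density (LF-K).**

Main results (`q` a prime, `τ_q = padicEmbedding q : ℚ̄ → ℚ̄_q` the Prelude's embedding):

* `exists_monic_aroot_norm_sub_lt` : continuity of roots, weak form (a monic polynomial with
  coefficients in a dense subfield, close to `f`, has a root close to a given root of `f`);
* `exists_mem_adjoin_of_denseRange` : general Krasner approximation, from Mathlib's
  `IsKrasner.krasner`;
* `exists_numberField_le_adjoin` : **(LF-K)** every finite extension `E` of `ℚ_q` inside `ℚ̄_q`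
  is contained in `ℚ_q · τ_q(F)` for some number field `F ⊆ ℚ̄`;
* `localGaloisToGlobal_mem_fixingSubgroup_iff` : `r_q(s)` fixes `F` iff `s` fixes `ℚ_q · τ_q(F)`;
* `isLevelConstant₁_of_fixingSubgroup`, `isLevelConstant₂_of_fixingSubgroup` : functions on the
  local Galois group that are right-invariant under an open subgroup `Gal(ℚ̄_q/E)` are
  level-constant in the Prelude's sense (`primeLocalToGlobal` forms included);
* `exists_numberField_mem_adjoin`, `exists_numberField_root_mem_adjoin` : **(LF-p)**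
  `⋃_F (ℚ_q τ_q F) = ℚ̄_q`, and every element has an `n`-th root in some `ℚ_q τ_q F'`;
* `finiteDimensional_adjoin_image` : `ℚ_q · τ_q(F)` is finite over `ℚ_q`.
-/
import Mathlib
import Fermat.Prelude.Def_GaloisRep_CompletionBridge
import Fermat.Prelude.Def_GroupCohomology_ContinuousH2
import Fermat.Prelude.Def_ExtEndgame_ProductionDatum

set_option autoImplicit false

open Polynomial IntermediateField

namespace Fermat.Agent.S55lib.LocalUnr

/-! ### Continuity of roots -/

/-- A product of `card s` factors of norm at least `ε` has norm at least `ε ^ card s`. -/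
theorem pow_card_le_norm_multiset_prod {Ω : Type*} [NormedField Ω] {ε : ℝ} (hε : 0 ≤ ε)
    (s : Multiset Ω) (h : ∀ b ∈ s, ε ≤ ‖b‖) : ε ^ Multiset.card s ≤ ‖s.prod‖ := by
  induction s using Multiset.induction_on with
  | empty => simp
  | cons a s ih =>
    rw [Multiset.prod_cons, Multiset.card_cons, norm_mul, pow_succ, mul_comm]
    exact mul_le_mul (h a (Multiset.mem_cons_self a s))
      (ih fun b hb => h b (Multiset.mem_cons_of_mem hb)) (pow_nonneg hε _) (norm_nonneg _)

/-- The monic polynomial of degree `n` with lower coefficients `c i`. -/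
noncomputable def monicOfCoeffs {R : Type*} [CommRing R] (n : ℕ) (c : ℕ → R) : R[X] :=
  X ^ n + ∑ i ∈ Finset.range n, C (c i) * X ^ i

theorem degree_sum_range_lt {R : Type*} [CommRing R] (n : ℕ) (c : ℕ → R) :
    degree (∑ i ∈ Finset.range n, C (c i) * X ^ i) < n :=
  (degree_sum_le _ _).trans_lt <|
    (Finset.sup_lt_iff <| WithBot.bot_lt_coe n).2 fun _ hk =>
      (degree_C_mul_X_pow_le _ _).trans_lt <| WithBot.coe_lt_coe.2 (Finset.mem_range.mp hk)

theorem monicOfCoeffs_monic {R : Type*} [CommRing R] (n : ℕ) (c : ℕ → R) :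
    (monicOfCoeffs n c).Monic :=
  monic_X_pow_add (degree_sum_range_lt n c)

theorem monicOfCoeffs_natDegree {R : Type*} [CommRing R] [Nontrivial R] (n : ℕ) (c : ℕ → R) :
    (monicOfCoeffs n c).natDegree = n := by
  have h : degree (∑ i ∈ Finset.range n, C (c i) * X ^ i) < degree ((X : R[X]) ^ n) := by
    rw [degree_X_pow]; exact degree_sum_range_lt n c
  rw [monicOfCoeffs, natDegree_add_eq_left_of_degree_lt h, natDegree_X_pow]

theorem aeval_monicOfCoeffs {R A : Type*} [CommRing R] [CommRing A] [Algebra R A]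
    (n : ℕ) (c : ℕ → R) (x : A) :
    aeval x (monicOfCoeffs n c) = x ^ n + ∑ i ∈ Finset.range n, algebraMap R A (c i) * x ^ i := by
  simp [monicOfCoeffs, map_sum]

/-- **Continuity of roots, weak form.**  If `K₀` is dense in the normed field `K`, `f ∈ K[X]` is
monic and `α` is a root of `f` in the algebraically closed normed extension `Ω`, then for every
`ε > 0` there is a monic `g ∈ K₀[X]` with a root `β ∈ Ω` such that `‖α - β‖ < ε`. -/
theorem exists_monic_aroot_norm_sub_lt
    {K₀ K Ω : Type*} [Field K₀] [NormedField K] [NormedField Ω] [NormedAlgebra K Ω]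
    [Algebra K₀ K] [Algebra K₀ Ω] [IsScalarTower K₀ K Ω] [IsAlgClosed Ω]
    (hd : DenseRange (algebraMap K₀ K)) {f : K[X]} (hf : f.Monic) {α : Ω} (hα : aeval α f = 0)
    {ε : ℝ} (hε : 0 < ε) :
    ∃ g : K₀[X], g.Monic ∧ ∃ β ∈ g.aroots Ω, ‖α - β‖ < ε := by
  classical
  set n := f.natDegree with hn
  set B : ℝ := ∑ i ∈ Finset.range n, ‖α‖ ^ i with hB
  have hB0 : 0 ≤ B := Finset.sum_nonneg fun i _ => pow_nonneg (norm_nonneg _) _
  set δ : ℝ := ε ^ n / (B + 1) with hδdef
  have hδ : 0 < δ := div_pos (pow_pos hε n) (by linarith)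
  have hδB : δ * B < ε ^ n := by
    rw [hδdef, div_mul_eq_mul_div, div_lt_iff₀ (by linarith)]
    have : 0 < ε ^ n := pow_pos hε n
    nlinarith
  choose c hc using fun i => hd.exists_dist_lt (f.coeff i) hδ
  refine ⟨monicOfCoeffs n c, monicOfCoeffs_monic n c, ?_⟩
  -- the value of `g` at `α`
  have hfα : α ^ n + ∑ i ∈ Finset.range n, algebraMap K Ω (f.coeff i) * α ^ i = 0 := by
    rw [← aeval_monicOfCoeffs n f.coeff α, ← hα]
    congr 1
    exact hf.as_sum.symm
  have hgα : aeval α (monicOfCoeffs n c) =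
      ∑ i ∈ Finset.range n, algebraMap K Ω (algebraMap K₀ K (c i) - f.coeff i) * α ^ i := by
    rw [aeval_monicOfCoeffs, ← sub_zero (α ^ n + _), ← hfα, add_sub_add_left_eq_sub,
      ← Finset.sum_sub_distrib]
    refine Finset.sum_congr rfl fun i _ => ?_
    rw [map_sub, sub_mul, ← IsScalarTower.algebraMap_apply]
  have hnorm : ‖aeval α (monicOfCoeffs n c)‖ < ε ^ n := by
    refine lt_of_le_of_lt ?_ hδB
    rw [hgα, hB, Finset.mul_sum]
    refine (norm_sum_le _ _).trans (Finset.sum_le_sum fun i _ => ?_)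
    rw [norm_mul, norm_algebraMap', norm_pow]
    refine mul_le_mul_of_nonneg_right ?_ (pow_nonneg (norm_nonneg _) _)
    have := (hc i).le
    rwa [dist_comm, dist_eq_norm] at this
  -- factor over the roots
  have hsplit : ((monicOfCoeffs n c).map (algebraMap K₀ Ω)).Splits := IsAlgClosed.splits _
  by_contra hcon
  push Not at hcon
  have hcard : Multiset.card ((monicOfCoeffs n c).aroots Ω) = n := by
    rw [aroots, ← hsplit.natDegree_eq_card_roots, natDegree_map, monicOfCoeffs_natDegree]
  have h1 := pow_card_le_norm_multiset_prod hε.le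
    (((monicOfCoeffs n c).aroots Ω).map (α - ·)) (by
      intro b hb
      obtain ⟨β, hβ, rfl⟩ := Multiset.mem_map.mp hb
      exact hcon β hβ)
  rw [Multiset.card_map, hcard,
    ← hsplit.aeval_eq_prod_aroots_of_monic (monicOfCoeffs_monic n c)] at h1
  exact absurd hnorm (not_lt.mpr h1)

/-! ### Krasner approximation -/

/-- There is a positive lower bound for the distance from `α` to its other conjugates. -/
theorem exists_pos_le_norm_sub_conj {K Ω : Type*} [Field K] [NormedField Ω] [Algebra K Ω]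
    {α : Ω} (hα : IsIntegral K α) :
    ∃ ε : ℝ, 0 < ε ∧ ∀ x' : Ω, IsConjRoot K α x' → α ≠ x' → ε ≤ ‖α - x'‖ := by
  classical
  set S : Set Ω := (minpoly K α).rootSet Ω \ {α} with hS
  have hfin : S.Finite := ((minpoly K α).rootSet_finite Ω).sdiff
  have hopen : IsOpen Sᶜ := hfin.isClosed.isOpen_compl
  have hmem : α ∈ Sᶜ := by simp [hS]
  obtain ⟨ε, hε, hball⟩ := Metric.isOpen_iff.mp hopen α hmem
  refine ⟨ε, hε, fun x' hx' hne => ?_⟩
  by_contra hlt
  push Not at hlt
  have h1 : x' ∈ Metric.ball α ε := by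
    rw [Metric.mem_ball, dist_comm, dist_eq_norm]; exact hlt
  have h2 : x' ∈ S := ⟨(isConjRoot_iff_mem_minpoly_rootSet hα).mp hx', fun h => hne h.symm⟩
  exact hball h1 h2

/-- **Krasner approximation.**  Let `K` be a complete ultrametric field containing a dense
subfield `K₀`, `Ω` an algebraically closed algebraic normed extension of `K`, and `Ω₀` an
algebraically closed extension of `K₀` with a `K₀`-embedding `τ : Ω₀ → Ω`.  Then every separable
`α ∈ Ω` lies in `K(τ β₀)` for some `β₀ ∈ Ω₀` integral over `K₀`. -/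
theorem exists_mem_adjoin_of_denseRange
    {K₀ K Ω₀ Ω : Type*} [Field K₀] [Field Ω₀] [Algebra K₀ Ω₀] [IsAlgClosed Ω₀]
    [NontriviallyNormedField K] [CompleteSpace K] [IsUltrametricDist K]
    [NormedField Ω] [NormedAlgebra K Ω] [Algebra.IsAlgebraic K Ω] [IsAlgClosed Ω]
    [Algebra K₀ K] [Algebra K₀ Ω] [IsScalarTower K₀ K Ω]
    (hd : DenseRange (algebraMap K₀ K)) (τ : Ω₀ →ₐ[K₀] Ω)
    {α : Ω} (hsep : (minpoly K α).Separable) :
    ∃ β₀ : Ω₀, IsIntegral K₀ β₀ ∧ α ∈ K⟮τ β₀⟯ := by
  have hα : IsIntegral K α := Algebra.IsIntegral.isIntegral α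
  obtain ⟨ε, hε, hconj⟩ := exists_pos_le_norm_sub_conj hα
  obtain ⟨g, hg, β, hβ, hαβ⟩ :=
    exists_monic_aroot_norm_sub_lt hd (minpoly.monic hα) (minpoly.aeval K α) hε
  have hβ' : β ∈ g.rootSet Ω := by
    classical
    rw [rootSet, Finset.mem_coe, Multiset.mem_toFinset]; exact hβ
  rw [← (IsAlgClosed.splits (g.map (algebraMap K₀ Ω₀))).image_rootSet τ] at hβ'
  obtain ⟨β₀, hβ₀, rfl⟩ := hβ'
  refine ⟨β₀, ⟨g, hg, ?_⟩, ?_⟩
  · rw [← aeval_def]; exact (mem_rootSet.mp hβ₀).2
  · exact IsKrasner.krasner hsep (IsAlgClosed.splits _) (Algebra.IsIntegral.isIntegral _)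
      fun x' hx' hne => lt_of_lt_of_le hαβ (hconj x' hx' hne)

/-! ### The `p`-adic case -/

section Padic

variable (q : ℕ) [Fact q.Prime]

theorem denseRange_algebraMap_rat_padic : DenseRange (algebraMap ℚ ℚ_[q]) := by
  have : (algebraMap ℚ ℚ_[q] : ℚ → ℚ_[q]) = ((↑) : ℚ → ℚ_[q]) := funext fun x => eq_ratCast _ x
  rw [this]
  exact Padic.denseRange_ratCast q

/-- Every element of `ℚ̄_q` lies in `ℚ_q(τ_q β₀)` for some `β₀ ∈ ℚ̄`. -/
theorem exists_mem_adjoin_padicEmbedding (α : PadicAlgCl q) :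
    ∃ β₀ : AlgebraicClosure ℚ, IsIntegral ℚ β₀ ∧ α ∈ ℚ_[q]⟮padicEmbedding q β₀⟯ :=
  exists_mem_adjoin_of_denseRange (denseRange_algebraMap_rat_padic q) (padicEmbedding q)
    (minpoly.irreducible (Algebra.IsIntegral.isIntegral α)).separable

/-- **(LF-K) Krasner density.**  Every finite extension `E` of `ℚ_q` inside `PadicAlgCl q` is
contained in `ℚ_q · τ_q(F)` for a number field `F ⊆ ℚ̄`. -/
theorem exists_numberField_le_adjoin (E : IntermediateField ℚ_[q] (PadicAlgCl q))
    [FiniteDimensional ℚ_[q] E] :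
    ∃ F : IntermediateField ℚ (AlgebraicClosure ℚ), FiniteDimensional ℚ F ∧
      E ≤ IntermediateField.adjoin ℚ_[q]
        (padicEmbedding q '' (F : Set (AlgebraicClosure ℚ))) := by
  obtain ⟨α, hα⟩ := Field.exists_primitive_element ℚ_[q] E
  obtain ⟨β₀, hβ₀, hαβ⟩ := exists_mem_adjoin_padicEmbedding q (α : PadicAlgCl q)
  refine ⟨ℚ⟮β₀⟯, IntermediateField.adjoin.finiteDimensional hβ₀, fun x hx => ?_⟩
  have h1 : (⟨x, hx⟩ : E) ∈ ℚ_[q]⟮α⟯ := by rw [hα]; trivial
  have h2 : x ∈ (ℚ_[q]⟮α⟯).map E.val := (IntermediateField.mem_map _).mpr ⟨_, h1, rfl⟩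
  rw [IntermediateField.adjoin_map, Set.image_singleton] at h2
  have h3 : ℚ_[q]⟮(E.val α)⟯ ≤ ℚ_[q]⟮padicEmbedding q β₀⟯ :=
    IntermediateField.adjoin_simple_le_iff.mpr hαβ
  have h4 : ℚ_[q]⟮padicEmbedding q β₀⟯ ≤ IntermediateField.adjoin ℚ_[q]
      (padicEmbedding q '' ((ℚ⟮β₀⟯ : IntermediateField ℚ (AlgebraicClosure ℚ)) :
        Set (AlgebraicClosure ℚ))) :=
    IntermediateField.adjoin.mono _ _ _ (Set.singleton_subset_iff.mpr
      ⟨β₀, IntermediateField.mem_adjoin_simple_self ℚ β₀, rfl⟩)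
  exact h4 (h3 h2)

/-- `ℚ_q · τ_q(F)` is monotone in `F`. -/
theorem adjoin_image_mono {F F' : IntermediateField ℚ (AlgebraicClosure ℚ)} (h : F ≤ F') :
    IntermediateField.adjoin ℚ_[q] (padicEmbedding q '' (F : Set (AlgebraicClosure ℚ))) ≤
      IntermediateField.adjoin ℚ_[q] (padicEmbedding q '' (F' : Set (AlgebraicClosure ℚ))) :=
  IntermediateField.adjoin.mono _ _ _ (Set.image_mono h)

/-- (LF-K), cofinal form: the number field can be taken to contain any given number field. -/
theorem exists_numberField_ge_le_adjoin (E : IntermediateField ℚ_[q] (PadicAlgCl q))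
    [FiniteDimensional ℚ_[q] E] (F₀ : IntermediateField ℚ (AlgebraicClosure ℚ))
    [FiniteDimensional ℚ F₀] :
    ∃ F : IntermediateField ℚ (AlgebraicClosure ℚ), FiniteDimensional ℚ F ∧ F₀ ≤ F ∧
      E ≤ IntermediateField.adjoin ℚ_[q]
        (padicEmbedding q '' (F : Set (AlgebraicClosure ℚ))) := by
  obtain ⟨F, hF, hle⟩ := exists_numberField_le_adjoin q E
  have := hF
  exact ⟨F₀ ⊔ F, inferInstance, le_sup_left, hle.trans (adjoin_image_mono q le_sup_right)⟩

/-- An element of the local Galois group fixes `ℚ_q · τ_q(F)` pointwise iff its image in `G_ℚ`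
fixes `F` pointwise. -/
theorem localGaloisToGlobal_mem_fixingSubgroup_iff
    (F : IntermediateField ℚ (AlgebraicClosure ℚ)) (s : PadicAlgCl q ≃ₐ[ℚ_[q]] PadicAlgCl q) :
    localGaloisToGlobal q s ∈ F.fixingSubgroup ↔
      s ∈ (IntermediateField.adjoin ℚ_[q]
        (padicEmbedding q '' (F : Set (AlgebraicClosure ℚ)))).fixingSubgroup := by
  constructor
  · intro hs
    have hle : IntermediateField.adjoin ℚ_[q]
        (padicEmbedding q '' (F : Set (AlgebraicClosure ℚ))) ≤
        IntermediateField.fixedField (Subgroup.zpowers s) := by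
      rw [IntermediateField.adjoin_le_iff]
      rintro _ ⟨x, hx, rfl⟩
      rintro ⟨t, ht⟩
      obtain ⟨k, rfl⟩ := Subgroup.mem_zpowers_iff.mp ht
      have h2 : s • padicEmbedding q x = padicEmbedding q x := by
        change s (padicEmbedding q x) = padicEmbedding q x
        rw [← padicEmbedding_localGaloisToGlobal,
          (IntermediateField.mem_fixingSubgroup_iff F _).mp hs x hx]
      exact MulAction.mem_stabilizer_iff.mp
        (Subgroup.zpow_mem _ (MulAction.mem_stabilizer_iff.mpr h2) k)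
    exact (IntermediateField.le_iff_le _ _).mp hle (Subgroup.mem_zpowers s)
  · intro hs
    rw [IntermediateField.mem_fixingSubgroup_iff] at hs ⊢
    intro x hx
    have h1 : padicEmbedding q (localGaloisToGlobal q s x) = padicEmbedding q x := by
      rw [padicEmbedding_localGaloisToGlobal]
      exact hs _ (IntermediateField.subset_adjoin _ _ ⟨x, hx, rfl⟩)
    exact (padicEmbedding q).toRingHom.injective h1

/-- (LF-K) in the form used by the interface layer: every open subgroup `Gal(ℚ̄_q/E)` of the local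
Galois group contains the preimage of a global level. -/
theorem exists_global_level (E : IntermediateField ℚ_[q] (PadicAlgCl q))
    [FiniteDimensional ℚ_[q] E] :
    ∃ F : IntermediateField ℚ (AlgebraicClosure ℚ), FiniteDimensional ℚ F ∧
      ∀ d : PadicAlgCl q ≃ₐ[ℚ_[q]] PadicAlgCl q,
        localGaloisToGlobal q d ∈ F.fixingSubgroup → d ∈ E.fixingSubgroup := by
  obtain ⟨F, hF, hle⟩ := exists_numberField_le_adjoin q E
  exact ⟨F, hF, fun d hd => IntermediateField.fixingSubgroup_antitone hle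
    ((localGaloisToGlobal_mem_fixingSubgroup_iff q F d).mp hd)⟩

/-- **Cofinality of the Prelude's local levels, one variable.**  A function on the local Galois
group which is right-invariant under `Gal(ℚ̄_q/E)`, `E/ℚ_q` finite, is level-constant. -/
theorem isLevelConstant₁_of_fixingSubgroup (E : IntermediateField ℚ_[q] (PadicAlgCl q))
    [FiniteDimensional ℚ_[q] E] {X : Type*}
    (f : (PadicAlgCl q ≃ₐ[ℚ_[q]] PadicAlgCl q) → X)
    (hf : ∀ g s, s ∈ E.fixingSubgroup → f (g * s) = f g) :
    groupCohomology.IsLevelConstant₁ (localGaloisToGlobal q) f := by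
  obtain ⟨F, hF, hle⟩ := exists_numberField_le_adjoin q E
  exact ⟨F, hF, fun g s hs => hf g s (IntermediateField.fixingSubgroup_antitone hle
    ((localGaloisToGlobal_mem_fixingSubgroup_iff q F s).mp hs))⟩

/-- **Cofinality of the Prelude's local levels, two variables.** -/
theorem isLevelConstant₂_of_fixingSubgroup (E : IntermediateField ℚ_[q] (PadicAlgCl q))
    [FiniteDimensional ℚ_[q] E] {X : Type*}
    (f : (PadicAlgCl q ≃ₐ[ℚ_[q]] PadicAlgCl q) × (PadicAlgCl q ≃ₐ[ℚ_[q]] PadicAlgCl q) → X)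
    (hf : ∀ g g' s s', s ∈ E.fixingSubgroup → s' ∈ E.fixingSubgroup →
      f (g * s, g' * s') = f (g, g')) :
    groupCohomology.IsLevelConstant₂ (localGaloisToGlobal q) f := by
  obtain ⟨F, hF, hle⟩ := exists_numberField_le_adjoin q E
  exact ⟨F, hF, fun g g' s s' hs hs' => hf g g' s s'
    (IntermediateField.fixingSubgroup_antitone hle
      ((localGaloisToGlobal_mem_fixingSubgroup_iff q F s).mp hs))
    (IntermediateField.fixingSubgroup_antitone hle
      ((localGaloisToGlobal_mem_fixingSubgroup_iff q F s').mp hs'))⟩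

/-- **(LF-p), first half**: `⋃_F ℚ_q τ_q(F) = ℚ̄_q`. -/
theorem exists_numberField_mem_adjoin (y : PadicAlgCl q) :
    ∃ F : IntermediateField ℚ (AlgebraicClosure ℚ), FiniteDimensional ℚ F ∧
      y ∈ IntermediateField.adjoin ℚ_[q]
        (padicEmbedding q '' (F : Set (AlgebraicClosure ℚ))) := by
  obtain ⟨β₀, hβ₀, hy⟩ := exists_mem_adjoin_padicEmbedding q y
  refine ⟨ℚ⟮β₀⟯, IntermediateField.adjoin.finiteDimensional hβ₀, ?_⟩
  have h4 : ℚ_[q]⟮padicEmbedding q β₀⟯ ≤ IntermediateField.adjoin ℚ_[q]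
      (padicEmbedding q '' ((ℚ⟮β₀⟯ : IntermediateField ℚ (AlgebraicClosure ℚ)) :
        Set (AlgebraicClosure ℚ))) :=
    IntermediateField.adjoin.mono _ _ _ (Set.singleton_subset_iff.mpr
      ⟨β₀, IntermediateField.mem_adjoin_simple_self ℚ β₀, rfl⟩)
  exact h4 hy

/-- **(LF-p)**: every element of `ℚ̄_q` has an `n`-th root in `ℚ_q τ_q(F)` for some number
field `F`, which may be taken to contain a given number field `F₀`.  In particular the group
`⋃_F (ℚ_q τ_q F)ˣ` is divisible. -/
theorem exists_numberField_root_mem_adjoin (y : PadicAlgCl q) {n : ℕ} (hn : 0 < n)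
    (F₀ : IntermediateField ℚ (AlgebraicClosure ℚ)) [FiniteDimensional ℚ F₀] :
    ∃ F : IntermediateField ℚ (AlgebraicClosure ℚ), FiniteDimensional ℚ F ∧ F₀ ≤ F ∧
      ∃ z ∈ IntermediateField.adjoin ℚ_[q]
        (padicEmbedding q '' (F : Set (AlgebraicClosure ℚ))), z ^ n = y := by
  obtain ⟨z, hz⟩ := IsAlgClosed.exists_pow_nat_eq y hn
  obtain ⟨F, hF, hzF⟩ := exists_numberField_mem_adjoin q z
  have := hF
  exact ⟨F₀ ⊔ F, inferInstance, le_sup_left, z, adjoin_image_mono q le_sup_right hzF, hz⟩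

/-- `ℚ_q · τ_q(F)` is finite over `ℚ_q` when `F` is a number field. -/
theorem finiteDimensional_adjoin_image (F : IntermediateField ℚ (AlgebraicClosure ℚ))
    [FiniteDimensional ℚ F] :
    FiniteDimensional ℚ_[q] (IntermediateField.adjoin ℚ_[q]
      (padicEmbedding q '' (F : Set (AlgebraicClosure ℚ)))) := by
  classical
  have hfg : F.FG := IntermediateField.fg_of_fg_toSubalgebra F
    (Subalgebra.fg_of_fg_toSubmodule (Module.Finite.iff_fg.mp ‹FiniteDimensional ℚ F›))
  obtain ⟨t, ht⟩ := hfg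
  have hfin : FiniteDimensional ℚ_[q] (IntermediateField.adjoin ℚ_[q]
      (padicEmbedding q '' (t : Set (AlgebraicClosure ℚ)))) := by
    have : Finite (padicEmbedding q '' (t : Set (AlgebraicClosure ℚ))) :=
      (t.finite_toSet.image _).to_subtype
    exact IntermediateField.finiteDimensional_adjoin
      fun x _ => Algebra.IsIntegral.isIntegral x
  have hle : IntermediateField.adjoin ℚ_[q] (padicEmbedding q '' (F : Set (AlgebraicClosure ℚ)))
      ≤ IntermediateField.adjoin ℚ_[q] (padicEmbedding q '' (t : Set (AlgebraicClosure ℚ))) := by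
    have key : ∀ x ∈ IntermediateField.adjoin ℚ (t : Set (AlgebraicClosure ℚ)),
        padicEmbedding q x ∈ IntermediateField.adjoin ℚ_[q]
          (padicEmbedding q '' (t : Set (AlgebraicClosure ℚ))) := by
      intro x hx
      induction hx using IntermediateField.adjoin_induction with
      | mem x hx => exact IntermediateField.subset_adjoin _ _ ⟨x, hx, rfl⟩
      | algebraMap r =>
        rw [AlgHom.commutes, IsScalarTower.algebraMap_apply ℚ ℚ_[q] (PadicAlgCl q)]
        exact IntermediateField.algebraMap_mem _ _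
      | add x y _ _ hx hy => rw [map_add]; exact add_mem hx hy
      | inv x _ hx => rw [map_inv₀]; exact inv_mem hx
      | mul x y _ _ hx hy => rw [map_mul]; exact mul_mem hx hy
    rw [IntermediateField.adjoin_le_iff]
    rintro _ ⟨x, hx, rfl⟩
    rw [SetLike.mem_coe, ← ht] at hx
    exact key x hx
  exact FiniteDimensional.of_injective (IntermediateField.inclusion hle).toLinearMap
    (IntermediateField.inclusion hle).injective

end Padic

/-! ### `Nat.Primes` forms, for the Prelude's `primeLocalToGlobal` -/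

section Primes

open ExtCitation

/-- one-variable level-constancy for `primeLocalToGlobal`. -/
theorem isLevelConstant₁_primeLocalToGlobal (q : Nat.Primes) :
    haveI : Fact (q : ℕ).Prime := ⟨q.2⟩
    ∀ (E : IntermediateField ℚ_[(q : ℕ)] (PadicAlgCl (q : ℕ)))
      [FiniteDimensional ℚ_[(q : ℕ)] E] {X : Type*} (f : primeLocalGaloisGroup q → X),
      (∀ g s : primeLocalGaloisGroup q,
        (s : PadicAlgCl (q : ℕ) ≃ₐ[ℚ_[(q : ℕ)]] PadicAlgCl (q : ℕ)) ∈ E.fixingSubgroup →
          f (g * s) = f g) →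
      groupCohomology.IsLevelConstant₁ (primeLocalToGlobal q) f := by
  intro E _ X f hf
  have : Fact (q : ℕ).Prime := ⟨q.2⟩
  exact isLevelConstant₁_of_fixingSubgroup (q : ℕ) E f hf

/-- two-variable level-constancy for `primeLocalToGlobal`. -/
theorem isLevelConstant₂_primeLocalToGlobal (q : Nat.Primes) :
    haveI : Fact (q : ℕ).Prime := ⟨q.2⟩
    ∀ (E : IntermediateField ℚ_[(q : ℕ)] (PadicAlgCl (q : ℕ)))
      [FiniteDimensional ℚ_[(q : ℕ)] E] {X : Type*}
      (f : primeLocalGaloisGroup q × primeLocalGaloisGroup q → X),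
      (∀ g g' s s' : primeLocalGaloisGroup q,
        (s : PadicAlgCl (q : ℕ) ≃ₐ[ℚ_[(q : ℕ)]] PadicAlgCl (q : ℕ)) ∈ E.fixingSubgroup →
        (s' : PadicAlgCl (q : ℕ) ≃ₐ[ℚ_[(q : ℕ)]] PadicAlgCl (q : ℕ)) ∈ E.fixingSubgroup →
          f (g * s, g' * s') = f (g, g')) →
      groupCohomology.IsLevelConstant₂ (primeLocalToGlobal q) f := by
  intro E _ X f hf
  have : Fact (q : ℕ).Prime := ⟨q.2⟩
  exact isLevelConstant₂_of_fixingSubgroup (q : ℕ) E f hf

end Primes

end Fermat.Agent.S55lib.LocalUnr
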