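/-
S55 library, global reciprocity mod `p` (helper3).  **Subgroups of `G_ℚ` ↔ subfields of `ℚ̄`, for the
level basis `unr S`, and layers `K ≤ M`** (light file: Mathlib + `Cpx/Level` only).

* `IsNormFrom C W σ p c` : `c = ∑_{i<p} σ^i x` with `x ∈ C^W`;
* `exists_field_of_isOpen` : an open subgroup `V` (for `OpenBasis.ofLevel id (unr S)`, i.e. helper4's
  `unrBasis S`) is `K.fixingSubgroup` with `K` unramified outside `S`; `isOpen_fixingSubgroup_unr`;
* for `K ≤ M` subfields of `ℚ̄`: `layerAlgebra : Algebra ↥K ↥M` (helper4's convention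
  `(IntermediateField.inclusion h).toRingHom.toAlgebra`), `layerField : IntermediateField ↥K ℚ̄`,
  `layerEquiv : ↥(layerField) ≃ₐ[↥K] ↥M`, the restriction `resKM : K.fixingSubgroup →* (↥M ≃ₐ[↥K] ↥M)`
  (`coe_resKM`, `resKM_surjective`, `resKM_eq_one_iff`);
* **`IsFieldLayer p K M`** (`K ≤ M`, `M/K` Galois with `|Gal(M/K)| = p`) `↔` **`IsGroupLayer p K M`**
  (`K ≤ M`, `Gal(ℚ̄/M)` normal of index `p` in `Gal(ℚ̄/K)`): `isFieldLayer_iff_isGroupLayer`;
* `exists_char_of_normal_of_index` : a normal subgroup of prime index `p` is the kernel of an additive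
  character onto `ZMod p`; `normal_of_char`, `index_of_char`.
-/
import Mathlib
import Fermat.Agent.S55lib.Cpx.Level

set_option autoImplicit false
set_option linter.unusedSectionVars false
set_option linter.style.haveILetI false

noncomputable section

namespace Fermat.Agent.S55lib.LocalUnr

open Fermat.Agent.S55lib

/-! ### Norms -/

section Norm

variable {G : Type} [Group G] (C : Rep.{0} ℤ G)

/-- `c` is a norm from `C^W` along `σ`: `c = ∑_{i<p} σ^i x` with `x ∈ C^W` -/
def IsNormFrom (W : Subgroup G) (σ : G) (p : ℕ) (c : C) : Prop :=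
  ∃ x : C, (∀ w ∈ W, C.ρ w x = x) ∧ c = ∑ i ∈ Finset.range p, C.ρ (σ ^ i) x

end Norm

/-! ### Characters and normal subgroups of prime index -/

section Char

variable {H : Type} [Group H] {p : ℕ} [Fact p.Prime]

/-- **A normal subgroup of prime index `p` is the kernel of an additive character onto `ZMod p`.** -/
theorem exists_char_of_normal_of_index (N : Subgroup H) [N.Normal] (hidx : N.index = p) :
    ∃ χ : H → ZMod p, (∀ g h, χ (g * h) = χ g + χ h) ∧ (∀ g, χ g = 0 ↔ g ∈ N) ∧ ∃ σ, χ σ = 1 := by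
  have hp : p.Prime := Fact.out
  have hcard : Nat.card (H ⧸ N) = p := by rw [← hidx]; rfl
  haveI : IsCyclic (H ⧸ N) := isCyclic_of_prime_card hcard
  -- an isomorphism `H ⧸ N ≃ Multiplicative (ZMod p)`
  let e₀ : Multiplicative (ZMod (Nat.card (H ⧸ N))) ≃* (H ⧸ N) := zmodCyclicMulEquiv ‹_›
  let e₁ : ZMod (Nat.card (H ⧸ N)) ≃+ ZMod p := (ZMod.ringEquivCongr hcard).toAddEquiv
  let f : H →* Multiplicative (ZMod p) :=
    (AddEquiv.toMultiplicative e₁).toMonoidHom.comp (e₀.symm.toMonoidHom.comp (QuotientGroup.mk' N))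
  have hf : ∀ g, f g = 1 ↔ g ∈ N := by
    intro g
    change AddEquiv.toMultiplicative e₁ (e₀.symm (QuotientGroup.mk' N g)) = 1 ↔ _
    rw [MulEquiv.map_eq_one_iff, MulEquiv.map_eq_one_iff, QuotientGroup.mk'_apply,
      QuotientGroup.eq_one_iff]
  have hsurj : Function.Surjective f := by
    intro y
    obtain ⟨g, hg⟩ := QuotientGroup.mk'_surjective N (e₀ ((AddEquiv.toMultiplicative e₁).symm y))
    refine ⟨g, ?_⟩
    change AddEquiv.toMultiplicative e₁ (e₀.symm (QuotientGroup.mk' N g)) = y
    rw [hg, MulEquiv.symm_apply_apply, MulEquiv.apply_symm_apply]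
  refine ⟨fun g => (f g).toAdd, fun g h => ?_, fun g => ?_, ?_⟩
  · change (f (g * h)).toAdd = _
    rw [map_mul]
    rfl
  · rw [← hf g]
    exact Iff.rfl
  · obtain ⟨σ, hσ⟩ := hsurj (Multiplicative.ofAdd 1)
    exact ⟨σ, congrArg Multiplicative.toAdd hσ⟩

/-- the hom to `Multiplicative (ZMod p)` of an additive character -/
def charMulHom (χ : H → ZMod p) (hadd : ∀ g h, χ (g * h) = χ g + χ h) :
    H →* Multiplicative (ZMod p) where
  toFun g := Multiplicative.ofAdd (χ g)
  map_one' := by
    have := hadd 1 1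
    rw [mul_one] at this
    exact congrArg Multiplicative.ofAdd (left_eq_add.mp this)
  map_mul' g h := congrArg Multiplicative.ofAdd (hadd g h)

theorem mem_ker_charMulHom {χ : H → ZMod p} (hadd : ∀ g h, χ (g * h) = χ g + χ h) (g : H) :
    g ∈ (charMulHom χ hadd).ker ↔ χ g = 0 := by
  rw [MonoidHom.mem_ker]
  exact Iff.rfl

/-- a character with `χ σ = 1` is onto -/
theorem charMulHom_surjective {χ : H → ZMod p} (hadd : ∀ g h, χ (g * h) = χ g + χ h) {σ : H}
    (hσ : χ σ = 1) : Function.Surjective (charMulHom χ hadd) := by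
  intro y
  refine ⟨σ ^ (y.toAdd).val, ?_⟩
  rw [map_pow]
  apply Multiplicative.toAdd.injective
  change (y.toAdd).val • (χ σ) = y.toAdd
  rw [hσ, nsmul_eq_mul, mul_one, ZMod.natCast_zmod_val]

/-- the kernel of a character with `χ σ = 1` has index `p` -/
theorem index_ker_charMulHom {χ : H → ZMod p} (hadd : ∀ g h, χ (g * h) = χ g + χ h) {σ : H}
    (hσ : χ σ = 1) : (charMulHom χ hadd).ker.index = p := by
  rw [Subgroup.index_ker, MonoidHom.range_eq_top.2 (charMulHom_surjective hadd hσ), Subgroup.card_top,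
    Nat.card_eq_fintype_card, Fintype.card_multiplicative, ZMod.card]

end Char

/-! ### Open subgroups and fields -/

section OpenSubgroups

/-- `ℚ̄/ℚ` is Galois -/
theorem isGaloisQbar : IsGalois ℚ Qbar := ⟨⟩

attribute [local instance] isGaloisQbar

variable (S : Finset Nat.Primes)

/-- **Open subgroups (for the level basis `unr S`) are the `Gal(ℚ̄/K)`, `K ⊂ ℚ_S` finite.** -/
theorem exists_field_of_isOpen {V : Subgroup GQ}
    (hV : (OpenBasis.ofLevel (MonoidHom.id GQ) (LevelClass.unr S)).IsOpen V) :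
    ∃ K : FieldQ, K.IsUnramifiedOutside S ∧ V = K.fixingSubgroup := by
  obtain ⟨_, ⟨F, hF, hN, rfl⟩, hUV⟩ := hV
  have hF' : F.IsUnramifiedOutside S := hF
  haveI : FiniteDimensional ℚ F := hF'.1
  have hNV : F.fixingSubgroup ≤ V := hUV
  have hle : IntermediateField.fixedField V ≤ F := by
    have h1 := IntermediateField.fixedField_le hNV
    rwa [InfiniteGalois.fixedField_fixingSubgroup] at h1
  have hopen : IsOpen (V : Set GQ) :=
    Subgroup.isOpen_mono hNV (IntermediateField.fixingSubgroup_isOpen F)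
  have hclosed : IsClosed (V : Set GQ) := Subgroup.isClosed_of_isOpen V hopen
  refine ⟨IntermediateField.fixedField V, hF'.of_le hle, ?_⟩
  exact (InfiniteGalois.fixingSubgroup_fixedField ⟨V, hclosed⟩).symm

/-- conversely `Gal(ℚ̄/K)` is open for `K ⊂ ℚ_S` finite -/
theorem isOpen_fixingSubgroup_unr {K : FieldQ} (hK : K.IsUnramifiedOutside S) :
    (OpenBasis.ofLevel (MonoidHom.id GQ) (LevelClass.unr S)).IsOpen K.fixingSubgroup := by
  obtain ⟨U, hU, hle⟩ := OpenBasis.exists_ofLevel_le (r := MonoidHom.id GQ)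
    (𝓛 := LevelClass.unr S) (F := K) hK
  exact ⟨U, hU, hle⟩

/-- `K ≤ M` from `Gal(ℚ̄/M) ≤ Gal(ℚ̄/K)` -/
theorem le_of_fixingSubgroup_le {K M : FieldQ} (h : M.fixingSubgroup ≤ K.fixingSubgroup) : K ≤ M := by
  have h1 := IntermediateField.fixedField_le h
  rwa [InfiniteGalois.fixedField_fixingSubgroup, InfiniteGalois.fixedField_fixingSubgroup] at h1

/-- an element fixed by `Gal(ℚ̄/K)` lies in `K` -/
theorem mem_of_fixed_Qbar (K : FieldQ) {x : Qbar} (hx : ∀ v ∈ K.fixingSubgroup, v x = x) : x ∈ K := by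
  rw [← InfiniteGalois.fixedField_fixingSubgroup K, IntermediateField.mem_fixedField_iff]
  exact hx

end OpenSubgroups

/-! ### Layers -/

section Layer

attribute [local instance] isGaloisQbar

variable (K M : FieldQ) (hKM : K ≤ M)

/-- the algebra structure of a tower `K ≤ M` of subfields of `ℚ̄` -/
abbrev layerAlgebra : Algebra ↥K ↥M := (IntermediateField.inclusion hKM).toRingHom.toAlgebra

theorem layer_isScalarTower : letI := layerAlgebra K M hKM; IsScalarTower ℚ ↥K ↥M :=
  letI := layerAlgebra K M hKM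
  IsScalarTower.of_algebraMap_eq (fun x => by
    rw [eq_ratCast, eq_ratCast, map_ratCast])

theorem layer_isScalarTower' : letI := layerAlgebra K M hKM; IsScalarTower ↥K ↥M Qbar :=
  letI := layerAlgebra K M hKM
  IsScalarTower.of_algebraMap_eq (fun _ => rfl)

/-- `M` as an intermediate field of `ℚ̄/K` -/
def layerField : IntermediateField ↥K Qbar := IntermediateField.extendScalars hKM

theorem mem_layerField {x : Qbar} : x ∈ layerField K M hKM ↔ x ∈ M := Iff.rfl

/-- the identification `↥(layerField) ≃ₐ[↥K] ↥M` -/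
def layerEquiv : letI := layerAlgebra K M hKM; ↥(layerField K M hKM) ≃ₐ[↥K] ↥M :=
  letI := layerAlgebra K M hKM
  { toFun := fun x => ⟨x.1, x.2⟩
    invFun := fun x => ⟨x.1, x.2⟩
    left_inv := fun _ => rfl
    right_inv := fun _ => rfl
    map_mul' := fun _ _ => rfl
    map_add' := fun _ _ => rfl
    commutes' := fun _ => rfl }

theorem coe_layerEquiv (x : ↥(layerField K M hKM)) :
    letI := layerAlgebra K M hKM
    ((layerEquiv K M hKM x : ↥M) : Qbar) = (x : Qbar) := rfl

/-- the restriction `Gal(ℚ̄/K) → Gal(layerField/K)` -/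
def resK [Normal ↥K ↥(layerField K M hKM)] :
    ↥K.fixingSubgroup →* (↥(layerField K M hKM) ≃ₐ[↥K] ↥(layerField K M hKM)) :=
  (AlgEquiv.restrictNormalHom (layerField K M hKM)).comp
    (IntermediateField.fixingSubgroupEquiv K).toMonoidHom

theorem coe_resK [Normal ↥K ↥(layerField K M hKM)] (σ : ↥K.fixingSubgroup)
    (x : ↥(layerField K M hKM)) :
    ((resK K M hKM σ x : ↥(layerField K M hKM)) : Qbar) = (σ : GQ) (x : Qbar) :=
  AlgEquiv.restrictNormal_commutes (IntermediateField.fixingSubgroupEquiv K σ)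
    (layerField K M hKM) x

theorem resK_surjective [Normal ↥K ↥(layerField K M hKM)] :
    Function.Surjective (resK K M hKM) := by
  intro γ
  obtain ⟨τ, hτ⟩ := AlgEquiv.restrictNormalHom_surjective (F := ↥K)
    (K₁ := ↥(layerField K M hKM)) Qbar γ
  exact ⟨(IntermediateField.fixingSubgroupEquiv K).symm τ, by
    rw [resK, MonoidHom.comp_apply]
    simpa using hτ⟩

theorem mem_ker_resK_iff [Normal ↥K ↥(layerField K M hKM)] (σ : ↥K.fixingSubgroup) :
    σ ∈ (resK K M hKM).ker ↔ (σ : GQ) ∈ M.fixingSubgroup := by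
  rw [MonoidHom.mem_ker, IntermediateField.mem_fixingSubgroup_iff]
  constructor
  · intro h x hx
    have := coe_resK K M hKM σ ⟨x, hx⟩
    rw [h] at this
    exact this.symm
  · intro h
    ext x
    rw [coe_resK]
    exact h x.1 x.2

theorem ker_resK [Normal ↥K ↥(layerField K M hKM)] :
    (resK K M hKM).ker = M.fixingSubgroup.subgroupOf K.fixingSubgroup := by
  ext σ
  rw [mem_ker_resK_iff, Subgroup.mem_subgroupOf]

/-- **`Gal(ℚ̄/M)` normal in `Gal(ℚ̄/K)` ⇒ `M/K` normal.** -/
theorem normal_layerField_of_normal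
    (hn : (M.fixingSubgroup.subgroupOf K.fixingSubgroup).Normal) :
    Normal ↥K ↥(layerField K M hKM) := by
  rw [IntermediateField.normal_iff_forall_map_le']
  intro σ y hy
  obtain ⟨x, hx, rfl⟩ := hy
  have hxM : x ∈ M := hx
  change σ x ∈ M
  apply mem_of_fixed_Qbar M
  intro w hw
  -- `v := σ` as an element of `Gal(ℚ̄/K)`
  let v : GQ := σ.restrictScalars ℚ
  have hv : v ∈ K.fixingSubgroup := by
    rw [IntermediateField.mem_fixingSubgroup_iff]
    intro k hk
    exact σ.commutes ⟨k, hk⟩
  have hwK : w ∈ K.fixingSubgroup := IntermediateField.fixingSubgroup_le hKM hw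
  have hconj : v⁻¹ * w * v ∈ M.fixingSubgroup := by
    have := hn.conj_mem ⟨w, hwK⟩ (Subgroup.mem_subgroupOf.2 hw) ⟨v⁻¹, K.fixingSubgroup.inv_mem hv⟩
    rw [Subgroup.mem_subgroupOf] at this
    simpa using this
  have h1 := (IntermediateField.mem_fixingSubgroup_iff _ _).1 hconj x hxM
  simp only [AlgEquiv.mul_apply] at h1
  have h2 : v (v⁻¹ (w (v x))) = v x := congrArg v h1
  have h3 : v (v⁻¹ (w (v x))) = w (v x) := by
    change (v * v⁻¹) (w (v x)) = _
    rw [mul_inv_cancel]; rfl
  rw [h3] at h2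
  exact h2

end Layer

/-! ### Field layers and group layers -/

section Layers

attribute [local instance] isGaloisQbar

/-- `M/K` is Galois with group of order `p` (field form; algebra = `layerAlgebra`) -/
structure IsFieldLayer (p : ℕ) (K M : FieldQ) : Prop where
  le : K ≤ M
  isGalois : letI := layerAlgebra K M le; IsGalois ↥K ↥M
  card : letI := layerAlgebra K M le; Nat.card (↥M ≃ₐ[↥K] ↥M) = p

/-- `Gal(ℚ̄/M)` is normal of index `p` in `Gal(ℚ̄/K)` (group form) -/
structure IsGroupLayer (p : ℕ) (K M : FieldQ) : Prop where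
  le : K ≤ M
  normal : (M.fixingSubgroup.subgroupOf K.fixingSubgroup).Normal
  index : M.fixingSubgroup.relIndex K.fixingSubgroup = p

variable {p : ℕ} {K M : FieldQ}

theorem IsGroupLayer.normal_layerField (h : IsGroupLayer p K M) :
    Normal ↥K ↥(layerField K M h.le) := normal_layerField_of_normal K M h.le h.normal

theorem card_aut_layerField (hKM : K ≤ M) [Normal ↥K ↥(layerField K M hKM)] :
    Nat.card (↥(layerField K M hKM) ≃ₐ[↥K] ↥(layerField K M hKM)) =
      M.fixingSubgroup.relIndex K.fixingSubgroup := by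
  rw [Subgroup.relIndex, ← ker_resK K M hKM, Subgroup.index_ker,
    MonoidHom.range_eq_top.2 (resK_surjective K M hKM), Subgroup.card_top]

/-- group layer ⇒ field layer -/
theorem IsGroupLayer.isFieldLayer (h : IsGroupLayer p K M) : IsFieldLayer p K M := by
  haveI := h.normal_layerField
  letI := layerAlgebra K M h.le
  have hgal : IsGalois ↥K ↥(layerField K M h.le) := ⟨⟩
  refine ⟨h.le, IsGalois.of_algEquiv (layerEquiv K M h.le), ?_⟩
  rw [← Nat.card_congr (AlgEquiv.autCongr (layerEquiv K M h.le)).toEquiv, card_aut_layerField h.le,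
    h.index]

theorem IsFieldLayer.normal_layerField (h : IsFieldLayer p K M) :
    Normal ↥K ↥(layerField K M h.le) := by
  letI := layerAlgebra K M h.le
  haveI : IsGalois ↥K ↥M := h.isGalois
  exact Normal.of_algEquiv (layerEquiv K M h.le).symm

/-- field layer ⇒ group layer -/
theorem IsFieldLayer.isGroupLayer (h : IsFieldLayer p K M) : IsGroupLayer p K M := by
  haveI := h.normal_layerField
  letI := layerAlgebra K M h.le
  refine ⟨h.le, ?_, ?_⟩
  · rw [← ker_resK K M h.le]
    exact MonoidHom.normal_ker _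
  · rw [← card_aut_layerField h.le, Nat.card_congr (AlgEquiv.autCongr (layerEquiv K M h.le)).toEquiv]
    exact h.card

theorem isFieldLayer_iff_isGroupLayer : IsFieldLayer p K M ↔ IsGroupLayer p K M :=
  ⟨IsFieldLayer.isGroupLayer, IsGroupLayer.isFieldLayer⟩

/-- the restriction `Gal(ℚ̄/K) → Gal(M/K)` of a field layer -/
def resKM (h : IsFieldLayer p K M) :
    letI := layerAlgebra K M h.le
    ↥K.fixingSubgroup →* (↥M ≃ₐ[↥K] ↥M) :=
  letI := layerAlgebra K M h.le
  haveI := h.normal_layerField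
  (AlgEquiv.autCongr (layerEquiv K M h.le)).toMonoidHom.comp (resK K M h.le)

theorem coe_resKM (h : IsFieldLayer p K M) (σ : ↥K.fixingSubgroup) (x : ↥M) :
    letI := layerAlgebra K M h.le
    ((resKM h σ x : ↥M) : Qbar) = (σ : GQ) (x : Qbar) := by
  letI := layerAlgebra K M h.le
  haveI := h.normal_layerField
  exact coe_resK K M h.le σ ((layerEquiv K M h.le).symm x)

theorem resKM_surjective (h : IsFieldLayer p K M) :
    letI := layerAlgebra K M h.le
    Function.Surjective (resKM h) := by
  letI := layerAlgebra K M h.le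
  haveI := h.normal_layerField
  exact (AlgEquiv.autCongr (layerEquiv K M h.le)).surjective.comp (resK_surjective K M h.le)

theorem resKM_eq_one_iff (h : IsFieldLayer p K M) (σ : ↥K.fixingSubgroup) :
    letI := layerAlgebra K M h.le
    resKM h σ = 1 ↔ (σ : GQ) ∈ M.fixingSubgroup := by
  letI := layerAlgebra K M h.le
  haveI := h.normal_layerField
  rw [← mem_ker_resK_iff K M h.le, MonoidHom.mem_ker]
  change (AlgEquiv.autCongr (layerEquiv K M h.le)) (resK K M h.le σ) = 1 ↔ _
  rw [MulEquiv.map_eq_one_iff]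

end Layers

end Fermat.Agent.S55lib.LocalUnr
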