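/-
S55 library, global reciprocity mod `p` (helper3).  **The field-level inputs of global (CF4)**, stated
purely in terms of `(G_ℚ, CSfull S)` and fixing subgroups (light file: `GLayer` + `Iface/ClassLimit`).

For `K ⊂ ℚ_S` finite containing `ζ_p` and `C = CSfull S`:
* `EFieldStatement p S` — existence mod `p`: `c ∈ C^{G_K}` which is a norm from `C^{G_M}` for every
  layer `M/K` (Galois of degree `p`, `M ⊂ ℚ_S`) lies in `p C^{G_K}`;
* `NFieldStatement p S` — for every layer `M/K` some `c ∈ C^{G_K}` is not a norm from `C^{G_M}`;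
* `FFieldStatement p S` — `C^{G_K} / p` is finite.
(To be proved from helper1's `ExistP` package + helper4's T3 + descent.)
-/
import Mathlib
import Fermat.Agent.S55lib.LocalUnr.GLayer
import Fermat.Agent.S55lib.Iface.ClassLimit

set_option autoImplicit false

noncomputable section

namespace Fermat.Agent.S55lib.LocalUnr

open Fermat.Agent.S55lib

/-- **(E-field)** existence mod `p` in `CSfull S`. -/
def EFieldStatement (p : ℕ) (S : Finset Nat.Primes) : Prop :=
  ∀ K : FieldQ, K.IsUnramifiedOutside S → (∃ ζ ∈ K, IsPrimitiveRoot ζ p) →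
    ∀ c : CSfull S, (∀ s ∈ K.fixingSubgroup, (CSfull S).ρ s c = c) →
      (∀ M : FieldQ, M.IsUnramifiedOutside S → IsFieldLayer p K M →
        ∃ σ ∈ K.fixingSubgroup, σ ∉ M.fixingSubgroup ∧
          IsNormFrom (CSfull S) M.fixingSubgroup σ p c) →
      ∃ c' : CSfull S, (∀ s ∈ K.fixingSubgroup, (CSfull S).ρ s c' = c') ∧ p • c' = c

/-- **(N-field)** the norm group of a layer is a proper subgroup. -/
def NFieldStatement (p : ℕ) (S : Finset Nat.Primes) : Prop :=
  ∀ K : FieldQ, K.IsUnramifiedOutside S → (∃ ζ ∈ K, IsPrimitiveRoot ζ p) →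
    ∀ M : FieldQ, M.IsUnramifiedOutside S → IsFieldLayer p K M →
      ∃ c : CSfull S, (∀ s ∈ K.fixingSubgroup, (CSfull S).ρ s c = c) ∧
        ∀ σ ∈ K.fixingSubgroup, σ ∉ M.fixingSubgroup →
          ¬ IsNormFrom (CSfull S) M.fixingSubgroup σ p c

/-- **(F-field)** `C^{G_K} / p` is finite. -/
def FFieldStatement (p : ℕ) (S : Finset Nat.Primes) : Prop :=
  ∀ K : FieldQ, K.IsUnramifiedOutside S → (∃ ζ ∈ K, IsPrimitiveRoot ζ p) →
    ∃ T : Finset (CSfull S), ∀ c : CSfull S, (∀ s ∈ K.fixingSubgroup, (CSfull S).ρ s c = c) →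
      ∃ t ∈ T, ∃ c' : CSfull S, (∀ s ∈ K.fixingSubgroup, (CSfull S).ρ s c' = c') ∧ c = t + p • c'

end Fermat.Agent.S55lib.LocalUnr
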