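/-
S55 library, global reciprocity mod `p` (helper3).  **The subgroup `U₀ = Gal(ℚ̄/ℚ(ζ_p))` of `G_ℚ`**:
it fixes `ζ_p`, is open for `unrBasis S` when `ζ_p ∈ ℚ_S` (i.e. `p ∈ S`), and has index `p - 1`,
prime to `p` — the three side conditions of helper8's `k4_of_cfData` for the global formation.
-/
import Mathlib
import Fermat.Agent.S55lib.LocalUnr.GLayer

set_option autoImplicit false
set_option linter.unusedSectionVars false
set_option linter.style.haveILetI false

noncomputable section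

namespace Fermat.Agent.S55lib.LocalUnr

open Fermat.Agent.S55lib IntermediateField

attribute [local instance] isGaloisQbar

variable {p : ℕ} [Fact p.Prime] (ζ : Qbar)

/-- `U₀ = Gal(ℚ̄/ℚ(ζ))` -/
def U0 : Subgroup GQ := (ℚ⟮ζ⟯ : FieldQ).fixingSubgroup

theorem U0_fixes (v : GQ) (hv : v ∈ U0 ζ) : v ζ = ζ :=
  (IntermediateField.mem_fixingSubgroup_iff _ _).1 hv ζ (mem_adjoin_simple_self ℚ ζ)

variable {ζ}

/-- `U₀` is open for the level basis `unr S` as soon as `ζ` lies in some field unramified outside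
`S` -/
theorem isOpen_U0 (S : Finset Nat.Primes)
    (hunr : ∃ F : FieldQ, F.IsUnramifiedOutside S ∧ ζ ∈ F) :
    (OpenBasis.ofLevel (MonoidHom.id GQ) (LevelClass.unr S)).IsOpen (U0 ζ) := by
  obtain ⟨F, hF, hζF⟩ := hunr
  refine isOpen_fixingSubgroup_unr S (hF.of_le ?_)
  rw [adjoin_simple_le_iff]
  exact hζF

/-- `[G_ℚ : U₀] = p - 1` is prime to `p` -/
theorem coprime_index_U0 (hζ : IsPrimitiveRoot ζ p) : Nat.Coprime (U0 ζ).index p := by
  have hp : p.Prime := Fact.out
  haveI : NeZero p := ⟨hp.ne_zero⟩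
  haveI : IsCyclotomicExtension {p} ℚ ℚ⟮ζ⟯ :=
    hζ.intermediateField_adjoin_isCyclotomicExtension ℚ
  haveI : FiniteDimensional ℚ ℚ⟮ζ⟯ := IsCyclotomicExtension.finiteDimensional {p} ℚ ℚ⟮ζ⟯
  have h1 : Module.finrank ℚ ℚ⟮ζ⟯ = p.totient :=
    IsCyclotomicExtension.finrank ℚ⟮ζ⟯ (Polynomial.cyclotomic.irreducible_rat hp.pos)
  have h2 : (U0 ζ).index = p - 1 := by
    unfold U0
    rw [← IntermediateField.finrank_eq_fixingSubgroup_index, h1, Nat.totient_prime hp]
  rw [h2]
  have h3 : 0 < p - 1 := by have := hp.two_le; omega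
  exact Nat.Coprime.symm ((Nat.Prime.coprime_iff_not_dvd hp).2
    (Nat.not_dvd_of_pos_of_lt h3 (by omega)))
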