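/-
S55 library, block (II-a)/(K2) local theory (helper3).  **Additivity of `a ∪ δχ` in the character.**

On top of helper9's `Recip/CupDelta.lean`: for additive characters `χ χ' : G → ZMod n` and an
invariant element `a`, `a ∪ δ(χ + χ') = a ∪ δχ + a ∪ δχ'`, `a ∪ δ0 = 0`, `a ∪ δ(m • χ) = m • (a ∪ δχ)`,
hence `n • (a ∪ δχ) = 0`.
-/
import Mathlib
import Fermat.Agent.S55lib.Recip.CupDelta

set_option autoImplicit false

namespace Fermat.Agent.S55lib.LocalUnr

open groupCohomology Fermat.Agent.S55lib.Recip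

universe u

section Carry

variable {n : ℕ} [NeZero n]

/-- The interchange identity for carries. -/
lemma carry_interchange (x y x' y' : ZMod n) :
    carry x y + carry x' y' + carry (x + y) (x' + y') =
      carry x x' + carry y y' + carry (x + x') (y + y') := by
  have hn : 0 < n := Nat.pos_of_ne_zero (NeZero.ne n)
  have h1 := carry_spec x y
  have h2 := carry_spec x' y'
  have h3 := carry_spec (x + y) (x' + y')
  have h4 := carry_spec x x'
  have h5 := carry_spec y y'
  have h6 := carry_spec (x + x') (y + y')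
  have e : x + y + (x' + y') = x + x' + (y + y') := by ring
  rw [e] at h3
  have : n * (carry x y + carry x' y' + carry (x + y) (x' + y')) =
      n * (carry x x' + carry y y' + carry (x + x') (y + y')) := by
    rw [Nat.mul_add, Nat.mul_add, Nat.mul_add, Nat.mul_add]; omega
  exact Nat.eq_of_mul_eq_mul_left hn this

end Carry

section Char

variable {k G : Type u} [CommRing k] [Group G] {A : Rep.{u, u, u} k G} {n : ℕ} [NeZero n]

/-- The difference of cocycles `a ∪ δχ + a ∪ δχ' - a ∪ δ(χ + χ')` is the coboundary of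
`g ↦ carry (χ g) (χ' g) • a`. -/
lemma cupδFun_add_char_sub_mem_coboundaries₂ {χ χ' : G → ZMod n}
    (hχ : ∀ g h, χ (g * h) = χ g + χ h) (hχ' : ∀ g h, χ' (g * h) = χ' g + χ' h) {a : A}
    (ha : ∀ g : G, A.ρ g a = a) :
    cupδFun A (χ + χ') a - (cupδFun A χ a + cupδFun A χ' a) ∈ coboundaries₂ A := by
  refine ⟨fun g => -(carry (χ g) (χ' g) • a), ?_⟩
  funext ⟨g, h⟩
  rw [d₁₂_hom_apply]
  simp only [cupδFun, Pi.sub_apply, Pi.add_apply, map_neg, map_nsmul, ha, hχ, hχ']
  have key := carry_interchange (χ g) (χ h) (χ' g) (χ' h)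
  have e1 : (carry (χ g) (χ h) + carry (χ' g) (χ' h) + carry (χ g + χ h) (χ' g + χ' h)) • a =
      (carry (χ g) (χ' g) + carry (χ h) (χ' h) + carry (χ g + χ' g) (χ h + χ' h)) • a := by
    rw [key]
  simp only [add_smul] at e1
  have e2 : carry (χ g + χ' g) (χ h + χ' h) • a =
      carry (χ g) (χ h) • a + carry (χ' g) (χ' h) • a + carry (χ g + χ h) (χ' g + χ' h) • a -
        carry (χ g) (χ' g) • a - carry (χ h) (χ' h) • a := by
    rw [e1]; abel
  rw [e2]
  abel

/-- **Additivity of `a ∪ δχ` in `χ`.** -/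
theorem cupδ_add_char {χ χ' : G → ZMod n}
    (hχ : ∀ g h, χ (g * h) = χ g + χ h) (hχ' : ∀ g h, χ' (g * h) = χ' g + χ' h) (a : A)
    (ha : ∀ g : G, A.ρ g a = a) :
    cupδ (χ + χ') (fun g h => by simp only [Pi.add_apply, hχ, hχ']; abel) a ha =
      cupδ χ hχ a ha + cupδ χ' hχ' a ha := by
  unfold cupδ
  rw [← map_add, H2π_eq_iff]
  exact cupδFun_add_char_sub_mem_coboundaries₂ hχ hχ' ha

/-- `a ∪ δ0 = 0`. -/
theorem cupδ_zero_char (a : A) (ha : ∀ g : G, A.ρ g a = a) :
    cupδ (0 : G → ZMod n) (fun _ _ => by simp) a ha = 0 := by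
  unfold cupδ
  have : cupδCocycle (0 : G → ZMod n) (fun _ _ => by simp) a ha = 0 := by
    apply cocycles₂_ext
    intro g h
    change carry (0 : ZMod n) 0 • a = 0
    rw [carry_zero_left, zero_smul]
  rw [this, map_zero]

/-- `cupδ` only depends on the function `χ`. -/
theorem cupδ_congr_char {χ χ' : G → ZMod n} (h : χ = χ')
    (hχ : ∀ g h, χ (g * h) = χ g + χ h) (hχ' : ∀ g h, χ' (g * h) = χ' g + χ' h)
    (a : A) (ha : ∀ g : G, A.ρ g a = a) :
    cupδ χ hχ a ha = cupδ χ' hχ' a ha := by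
  subst h; rfl

/-- `a ∪ δ(m • χ) = m • (a ∪ δχ)`. -/
theorem cupδ_nsmul_char {χ : G → ZMod n} (hχ : ∀ g h, χ (g * h) = χ g + χ h) (a : A)
    (ha : ∀ g : G, A.ρ g a = a) (m : ℕ) :
    cupδ (m • χ) (fun g h => by simp only [Pi.smul_apply, hχ, smul_add]) a ha =
      m • cupδ χ hχ a ha := by
  induction m with
  | zero =>
    rw [zero_smul ℕ (cupδ χ hχ a ha)]
    exact (cupδ_congr_char (zero_smul ℕ χ) _ (fun _ _ => by simp) a ha).trans
      (cupδ_zero_char a ha)
  | succ m ih =>
    rw [succ_nsmul (cupδ χ hχ a ha) m, ← ih]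
    exact (cupδ_congr_char (succ_nsmul χ m) _
      (fun g h => by simp only [Pi.add_apply, Pi.smul_apply, hχ, smul_add]; abel) a ha).trans
      (cupδ_add_char (fun g h => by simp only [Pi.smul_apply, hχ, smul_add]) hχ a ha)

/-- `n • (a ∪ δχ) = 0` for a character with values in `ZMod n`. -/
theorem nsmul_cupδ_eq_zero {χ : G → ZMod n} (hχ : ∀ g h, χ (g * h) = χ g + χ h) (a : A)
    (ha : ∀ g : G, A.ρ g a = a) : n • cupδ χ hχ a ha = 0 := by
  rw [← cupδ_nsmul_char hχ a ha n]
  have h0 : n • χ = 0 := by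
    funext g
    simp
  exact (cupδ_congr_char h0 _ (fun _ _ => by simp) a ha).trans (cupδ_zero_char a ha)

end Char

end Fermat.Agent.S55lib.LocalUnr
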