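/-
S55 library, block (K2) local reciprocity mod `p` (helper3).  **The Kummer symbol.**

`K ⊂ L` fields, `ζ ∈ Kˣ` a primitive `p`-th root of unity, `Γ = Gal(L/K)` acting on `Lˣ`
(`Rep.ofAlgebraAutOnUnits K L`).  For `y ∈ Lˣ` with `y ^ p ∈ K` the Kummer character
`kumChar ζ y : Γ → ZMod p` is defined by `g y = ζ ^ χ(g) · y`, and the Kummer symbol is
`kumSymbol hζ y hy c := c ∪ δχ_y ∈ H²(Γ, Lˣ)` (helper9's `cupδ`).  Main results:

* `kumChar_mul`, `kumChar_mul_rad`, `kumChar_baseUnit_mul` : additivity in `g`, in `y`, and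
  invariance under `y ↦ t y`, `t ∈ Kˣ`;
* `cupδ_kumProd_eq_zero` : `(∏_{i<p} ζ^i y) ∪ δχ_y = 0`, by an explicit 1-cochain;
* `kumSymbol_neg_self` : `(-b, β) = 0` for `β ^ p = b`;
* `kumSymbol_mul_left`, `kumSymbol_mul_right` : bilinearity;
* `kumSymbol_skew` : `(c, β) + (b, γ) = 0` for `β ^ p = b`, `γ ^ p = c`.
-/
import Mathlib
import Fermat.Agent.S55lib.LocalUnr.CupChar

set_option autoImplicit false
set_option linter.unusedSectionVars false

namespace Fermat.Agent.S55lib.LocalUnr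

open groupCohomology Fermat.Agent.S55lib.Recip

section Basic

variable {K L : Type} [Field K] [Field L] [Algebra K L]

/-- A unit of `L` as an element of the representation `Lˣ` of `Gal(L/K)`. -/
def uRep (K : Type) {L : Type} [Field K] [Field L] [Algebra K L] (x : Lˣ) :
    Rep.ofAlgebraAutOnUnits K L :=
  Rep.toAdditive.symm (Additive.ofMul x)

/-- The unit underlying an element of the representation `Lˣ`. -/
def uVal (a : Rep.ofAlgebraAutOnUnits K L) : Lˣ := (Rep.toAdditive a).toMul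

@[simp] theorem uVal_uRep (x : Lˣ) : uVal (uRep K x) = x := rfl
@[simp] theorem uRep_uVal (a : Rep.ofAlgebraAutOnUnits K L) : uRep K (uVal a) = a := rfl

theorem uVal_ρ (g : L ≃ₐ[K] L) (a : Rep.ofAlgebraAutOnUnits K L) :
    uVal ((Rep.ofAlgebraAutOnUnits K L).ρ g a) = g • uVal a := rfl

theorem uRep_mul (x y : Lˣ) : uRep K (x * y) = uRep K x + uRep K y := rfl
theorem uRep_one : uRep K (1 : Lˣ) = 0 := rfl
theorem uRep_inv (x : Lˣ) : uRep K x⁻¹ = -uRep K x := rfl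
theorem uRep_div (x y : Lˣ) : uRep K (x / y) = uRep K x - uRep K y := rfl

theorem uRep_pow (x : Lˣ) (m : ℕ) : uRep K (x ^ m) = m • uRep K x := by
  induction m with
  | zero => rw [pow_zero, zero_smul]; rfl
  | succ m ih => rw [pow_succ, uRep_mul, ih, succ_nsmul]

theorem ρ_uRep (g : L ≃ₐ[K] L) (x : Lˣ) :
    (Rep.ofAlgebraAutOnUnits K L).ρ g (uRep K x) = uRep K (g • x) := rfl

theorem coe_smul_unit (g : L ≃ₐ[K] L) (x : Lˣ) : ((g • x : Lˣ) : L) = g (x : L) := rfl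

/-- The image of a unit of `K` in `Lˣ`. -/
def baseUnit (L : Type) [Field L] [Algebra K L] (c : Kˣ) : Lˣ :=
  Units.map (algebraMap K L : K →* L) c

@[simp] theorem coe_baseUnit (c : Kˣ) : ((baseUnit L c : Lˣ) : L) = algebraMap K L c := rfl

theorem baseUnit_mul (c d : Kˣ) : baseUnit L (c * d) = baseUnit L c * baseUnit L d :=
  map_mul _ _ _

theorem baseUnit_pow (c : Kˣ) (m : ℕ) : baseUnit L (c ^ m) = baseUnit L c ^ m :=
  map_pow _ _ _

theorem smul_baseUnit (g : L ≃ₐ[K] L) (c : Kˣ) : g • baseUnit L c = baseUnit L c := by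
  apply Units.ext
  rw [coe_smul_unit, coe_baseUnit, g.commutes]

theorem baseUnit_injective : Function.Injective (baseUnit L (K := K)) := fun c d h => by
  apply Units.ext
  apply (algebraMap K L).injective
  have := congrArg (fun u : Lˣ => (u : L)) h
  simpa using this

end Basic

section Kummer

variable {K L : Type} [Field K] [Field L] [Algebra K L] {p : ℕ} [NeZero p]

theorem isPrimitiveRoot_baseUnit {ζ : Kˣ} (hζ : IsPrimitiveRoot ζ p) :
    IsPrimitiveRoot (baseUnit L ζ) p :=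
  hζ.map_of_injective (baseUnit_injective (L := L))

open Classical in
/-- The Kummer character of `y` (with `y ^ p ∈ K`): `g y = ζ ^ χ(g) * y`. -/
noncomputable def kumChar (ζ : Kˣ) (y : Lˣ) (g : L ≃ₐ[K] L) : ZMod p :=
  if h : ∃ i : ℕ, i < p ∧ baseUnit L ζ ^ i * y = g • y then ((Classical.choose h : ℕ) : ZMod p)
  else 0

variable {ζ : Kˣ} (hζ : IsPrimitiveRoot ζ p) {y : Lˣ} (hy : ∃ b : Kˣ, y ^ p = baseUnit L b)

include hζ hy in
theorem kumChar_spec (g : L ≃ₐ[K] L) :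
    baseUnit L ζ ^ (kumChar (p := p) ζ y g).val * y = g • y := by
  obtain ⟨b, hb⟩ := hy
  have hroot : (g • y / y) ∈ rootsOfUnity p L := by
    rw [mem_rootsOfUnity, div_pow, ← smul_pow', hb, smul_baseUnit, div_self']
  obtain ⟨i, hi, hi'⟩ := (isPrimitiveRoot_baseUnit (L := L) hζ).eq_pow_of_mem_rootsOfUnity hroot
  have hex : ∃ i : ℕ, i < p ∧ baseUnit L ζ ^ i * y = g • y :=
    ⟨i, hi, by rw [hi', div_mul_cancel]⟩
  rw [kumChar, dif_pos hex]
  obtain ⟨h1, h2⟩ := Classical.choose_spec hex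
  rw [ZMod.val_natCast_of_lt h1, h2]

include hζ in
theorem kumChar_eq_of_pow_mul_eq (g : L ≃ₐ[K] L) (i : ℕ) (hi : baseUnit L ζ ^ i * y = g • y)
    (hy : ∃ b : Kˣ, y ^ p = baseUnit L b) :
    kumChar (p := p) ζ y g = (i : ZMod p) := by
  have h1 := kumChar_spec hζ hy g
  rw [← hi] at h1
  have h2 : baseUnit L ζ ^ (kumChar (p := p) ζ y g).val = baseUnit L ζ ^ i :=
    mul_right_cancel h1
  rw [pow_eq_pow_iff_modEq, ← (isPrimitiveRoot_baseUnit (L := L) hζ).eq_orderOf] at h2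
  have := (ZMod.natCast_eq_natCast_iff _ _ _).mpr h2
  rwa [ZMod.natCast_zmod_val] at this

include hζ in
/-- The Kummer character is additive in the group element. -/
theorem kumChar_mul (hy : ∃ b : Kˣ, y ^ p = baseUnit L b) (g h : L ≃ₐ[K] L) :
    kumChar (p := p) ζ y (g * h) = kumChar (p := p) ζ y g + kumChar (p := p) ζ y h := by
  have hg := kumChar_spec hζ hy g
  have hh := kumChar_spec hζ hy h
  have key : baseUnit L ζ ^ ((kumChar (p := p) ζ y g).val + (kumChar (p := p) ζ y h).val) * y =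
      (g * h) • y := by
    rw [mul_smul, ← hh, smul_mul', smul_pow', smul_baseUnit, ← hg, pow_add]
    rw [mul_comm (baseUnit L ζ ^ _) (baseUnit L ζ ^ _), mul_assoc]
  rw [kumChar_eq_of_pow_mul_eq hζ (g * h) _ key hy, Nat.cast_add, ZMod.natCast_zmod_val,
    ZMod.natCast_zmod_val]

include hζ in
/-- The Kummer character is additive in the radical. -/
theorem kumChar_mul_rad {y' : Lˣ} (hy : ∃ b : Kˣ, y ^ p = baseUnit L b)
    (hy' : ∃ b : Kˣ, y' ^ p = baseUnit L b) (g : L ≃ₐ[K] L) :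
    kumChar (p := p) ζ (y * y') g = kumChar (p := p) ζ y g + kumChar (p := p) ζ y' g := by
  have hg := kumChar_spec hζ hy g
  have hg' := kumChar_spec hζ hy' g
  have hyy' : ∃ b : Kˣ, (y * y') ^ p = baseUnit L b := by
    obtain ⟨b, hb⟩ := hy
    obtain ⟨b', hb'⟩ := hy'
    exact ⟨b * b', by rw [mul_pow, hb, hb', baseUnit_mul]⟩
  have key : baseUnit L ζ ^ ((kumChar (p := p) ζ y g).val + (kumChar (p := p) ζ y' g).val) *
      (y * y') = g • (y * y') := by
    rw [smul_mul', ← hg, ← hg', pow_add]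
    rw [mul_mul_mul_comm]
  rw [kumChar_eq_of_pow_mul_eq hζ g _ key hyy', Nat.cast_add, ZMod.natCast_zmod_val,
    ZMod.natCast_zmod_val]

include hζ in
/-- Multiplying the radical by an element of `K` does not change the Kummer character. -/
theorem kumChar_baseUnit_mul (hy : ∃ b : Kˣ, y ^ p = baseUnit L b) (t : Kˣ) (g : L ≃ₐ[K] L) :
    kumChar (p := p) ζ (baseUnit L t * y) g = kumChar (p := p) ζ y g := by
  have hg := kumChar_spec hζ hy g
  have hty : ∃ b : Kˣ, (baseUnit L t * y) ^ p = baseUnit L b := by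
    obtain ⟨b, hb⟩ := hy
    exact ⟨t ^ p * b, by rw [mul_pow, hb, baseUnit_mul, baseUnit_pow]⟩
  have key : baseUnit L ζ ^ (kumChar (p := p) ζ y g).val * (baseUnit L t * y) =
      g • (baseUnit L t * y) := by
    rw [smul_mul', smul_baseUnit, ← hg, mul_left_comm]
  rw [kumChar_eq_of_pow_mul_eq hζ g _ key hty, ZMod.natCast_zmod_val]

/-! ### The vanishing `(-b, b) = 0` -/

/-- Partial products `∏_{i<m} ζ^i y`. -/
noncomputable def kumProd (ζ : Kˣ) (y : Lˣ) (m : ℕ) : Lˣ :=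
  ∏ i ∈ Finset.range m, (baseUnit L ζ ^ i * y)

theorem kumProd_add (ζ : Kˣ) (y : Lˣ) (m' m : ℕ) :
    kumProd ζ y (m' + m) =
      kumProd ζ y m' * ∏ i ∈ Finset.range m, (baseUnit L ζ ^ (m' + i) * y) :=
  Finset.prod_range_add _ _ _

include hζ in
theorem kumProd_shift_period (m : ℕ) :
    ∏ i ∈ Finset.range m, (baseUnit L ζ ^ (p + i) * y) = kumProd ζ y m := by
  refine Finset.prod_congr rfl fun i _ => ?_
  rw [pow_add, (isPrimitiveRoot_baseUnit (L := L) hζ).pow_eq_one, one_mul]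

include hζ in
theorem kumProd_mul_add (c r : ℕ) :
    kumProd ζ y (p * c + r) = kumProd ζ y p ^ c * kumProd ζ y r := by
  induction c with
  | zero => simp [kumProd]
  | succ c ih =>
    have e : p * (c + 1) + r = p + (p * c + r) := by ring
    rw [e, kumProd_add, kumProd_shift_period hζ, ih, pow_succ]
    rw [mul_comm (kumProd ζ y p ^ c) (kumProd ζ y p), mul_assoc]

include hζ in
theorem smul_kumProd (hy : ∃ b : Kˣ, y ^ p = baseUnit L b) (g : L ≃ₐ[K] L) (m : ℕ) :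
    g • kumProd ζ y m =
      ∏ i ∈ Finset.range m, (baseUnit L ζ ^ ((kumChar (p := p) ζ y g).val + i) * y) := by
  rw [kumProd, Finset.smul_prod']
  refine Finset.prod_congr rfl fun i _ => ?_
  rw [smul_mul', smul_pow', smul_baseUnit, ← kumChar_spec hζ hy g, pow_add]
  rw [mul_left_comm, mul_assoc]

include hζ in
/-- The cocycle `(∏_{i<p} ζ^i y) ∪ δχ_y` is the coboundary of `g ↦ ∏_{i<χ(g)} ζ^i y`. -/
theorem cupδFun_kumProd_mem_coboundaries₂ (hy : ∃ b : Kˣ, y ^ p = baseUnit L b) :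
    cupδFun (Rep.ofAlgebraAutOnUnits K L) (kumChar (p := p) ζ y) (uRep K (kumProd ζ y p)) ∈
      coboundaries₂ (Rep.ofAlgebraAutOnUnits K L) := by
  refine ⟨fun g => uRep K (kumProd ζ y (kumChar (p := p) ζ y g).val), ?_⟩
  funext ⟨g, h⟩
  rw [d₁₂_hom_apply]
  change (Rep.ofAlgebraAutOnUnits K L).ρ g (uRep K (kumProd ζ y (kumChar (p := p) ζ y h).val)) -
      uRep K (kumProd ζ y (kumChar (p := p) ζ y (g * h)).val) +
      uRep K (kumProd ζ y (kumChar (p := p) ζ y g).val) =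
    carry (kumChar (p := p) ζ y g) (kumChar (p := p) ζ y h) • uRep K (kumProd ζ y p)
  rw [ρ_uRep, ← uRep_div, ← uRep_mul, ← uRep_pow]
  congr 1
  have h1 : kumProd ζ y (kumChar (p := p) ζ y g).val *
      g • kumProd ζ y (kumChar (p := p) ζ y h).val =
      kumProd ζ y p ^ carry (kumChar (p := p) ζ y g) (kumChar (p := p) ζ y h) *
        kumProd ζ y (kumChar (p := p) ζ y (g * h)).val := by
    rw [smul_kumProd hζ hy, ← kumProd_add, carry_spec, kumProd_mul_add hζ, kumChar_mul hζ hy]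
  rw [div_mul_eq_mul_div, div_eq_iff_eq_mul, mul_comm (g • _) _, h1]

include hζ in
/-- `(∏_{i<p} ζ^i y) ∪ δχ_y = 0`. -/
theorem cupδ_kumProd_eq_zero (hy : ∃ b : Kˣ, y ^ p = baseUnit L b)
    (hinv : ∀ g : L ≃ₐ[K] L,
      (Rep.ofAlgebraAutOnUnits K L).ρ g (uRep K (kumProd ζ y p)) = uRep K (kumProd ζ y p)) :
    cupδ (kumChar (p := p) ζ y) (kumChar_mul hζ hy) (uRep K (kumProd ζ y p)) hinv = 0 := by
  unfold cupδ
  rw [H2π_eq_zero_iff]
  exact cupδFun_kumProd_mem_coboundaries₂ hζ hy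

include hζ in
/-- `∏_{i<p} ζ^i (-β) = -β^p`. -/
theorem kumProd_neg {β : Lˣ} {b : Kˣ} (hb : β ^ p = baseUnit L b) :
    kumProd ζ (baseUnit L (-1 : Kˣ) * β) p = baseUnit L (-b) := by
  apply Units.ext
  have hp : 0 < p := Nat.pos_of_ne_zero (NeZero.ne p)
  have hζ' : IsPrimitiveRoot (algebraMap K L (ζ : K)) p :=
    ((IsPrimitiveRoot.coe_units_iff).mpr hζ).map_of_injective (algebraMap K L).injective
  have hb' : (β : L) ^ p = algebraMap K L (b : K) := by
    have := congrArg (fun u : Lˣ => (u : L)) hb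
    simpa using this
  have h1 := congrArg (Polynomial.eval (0 : L)) (X_pow_sub_C_eq_prod hζ' hp hb')
  rw [Polynomial.eval_sub, Polynomial.eval_pow, Polynomial.eval_X, Polynomial.eval_C,
    zero_pow hp.ne', zero_sub, Polynomial.eval_prod] at h1
  rw [kumProd, Units.coe_prod, coe_baseUnit, Units.val_neg, map_neg, h1]
  refine Finset.prod_congr rfl fun i _ => ?_
  rw [Polynomial.eval_sub, Polynomial.eval_X, Polynomial.eval_C, zero_sub]
  simp only [Units.val_mul, Units.val_pow_eq_pow_val, coe_baseUnit, Units.val_neg, Units.val_one,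
    map_neg, map_one]
  ring

/-! ### The Kummer symbol -/

theorem uRep_baseUnit_invariant (c : Kˣ) (g : L ≃ₐ[K] L) :
    (Rep.ofAlgebraAutOnUnits K L).ρ g (uRep K (baseUnit L c)) = uRep K (baseUnit L c) := by
  rw [ρ_uRep, smul_baseUnit]

/-- `cupδ` depends only on the function `χ` and the element `a`. -/
theorem cupδ_congr₂ {G : Type} [Group G] {A : Rep ℤ G} {n : ℕ} [NeZero n] {χ χ' : G → ZMod n}
    (h : χ = χ') {a b : A} (hab : a = b)
    (hχ : ∀ g h, χ (g * h) = χ g + χ h) (hχ' : ∀ g h, χ' (g * h) = χ' g + χ' h)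
    (ha : ∀ g : G, A.ρ g a = a) (hb : ∀ g : G, A.ρ g b = b) :
    cupδ χ hχ a ha = cupδ χ' hχ' b hb := by
  subst h; subst hab; rfl

/-- The Kummer symbol `(c, y) := c ∪ δχ_y ∈ H²(Gal(L/K), Lˣ)`, for `c ∈ Kˣ` and `y ∈ Lˣ` with
`y ^ p ∈ K`. -/
noncomputable def kumSymbol (hζ : IsPrimitiveRoot ζ p) (y : Lˣ)
    (hy : ∃ b : Kˣ, y ^ p = baseUnit L b) (c : Kˣ) : H2 (Rep.ofAlgebraAutOnUnits K L) :=
  cupδ (kumChar (p := p) ζ y) (kumChar_mul hζ hy) (uRep K (baseUnit L c))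
    (uRep_baseUnit_invariant c)

theorem kumSymbol_mul_left (hy : ∃ b : Kˣ, y ^ p = baseUnit L b) (c d : Kˣ) :
    kumSymbol hζ y hy (c * d) = kumSymbol hζ y hy c + kumSymbol hζ y hy d := by
  unfold kumSymbol
  rw [← cupδ_add]
  exact cupδ_congr₂ rfl (by rw [baseUnit_mul, uRep_mul]) _ _ _ _

theorem kumSymbol_mul_right {y' : Lˣ} (hy : ∃ b : Kˣ, y ^ p = baseUnit L b)
    (hy' : ∃ b : Kˣ, y' ^ p = baseUnit L b) (hyy' : ∃ b : Kˣ, (y * y') ^ p = baseUnit L b)
    (c : Kˣ) :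
    kumSymbol hζ (y * y') hyy' c = kumSymbol hζ y hy c + kumSymbol hζ y' hy' c := by
  unfold kumSymbol
  rw [← cupδ_add_char]
  exact cupδ_congr₂ (funext fun g => kumChar_mul_rad hζ hy hy' g) rfl _ _ _ _

theorem kumSymbol_baseUnit_mul (hy : ∃ b : Kˣ, y ^ p = baseUnit L b) (t : Kˣ)
    (hty : ∃ b : Kˣ, (baseUnit L t * y) ^ p = baseUnit L b) (c : Kˣ) :
    kumSymbol hζ (baseUnit L t * y) hty c = kumSymbol hζ y hy c := by
  unfold kumSymbol
  exact cupδ_congr₂ (funext fun g => kumChar_baseUnit_mul hζ hy t g) rfl _ _ _ _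

/-- `(-b, β) = 0` for `β ^ p = b`. -/
theorem kumSymbol_neg_self {β : Lˣ} {b : Kˣ} (hb : β ^ p = baseUnit L b) :
    kumSymbol hζ β ⟨b, hb⟩ (-b) = 0 := by
  have hty : ∃ b' : Kˣ, (baseUnit L (-1 : Kˣ) * β) ^ p = baseUnit L b' :=
    ⟨(-1) ^ p * b, by rw [mul_pow, hb, baseUnit_mul, baseUnit_pow]⟩
  rw [← kumSymbol_baseUnit_mul hζ ⟨b, hb⟩ (-1) hty]
  have hP := kumProd_neg hζ hb
  have hinv : ∀ g : L ≃ₐ[K] L, (Rep.ofAlgebraAutOnUnits K L).ρ g
      (uRep K (kumProd ζ (baseUnit L (-1 : Kˣ) * β) p)) =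
        uRep K (kumProd ζ (baseUnit L (-1 : Kˣ) * β) p) := by
    intro g; rw [hP]; exact uRep_baseUnit_invariant _ g
  rw [← cupδ_kumProd_eq_zero hζ hty hinv]
  unfold kumSymbol
  exact cupδ_congr₂ rfl (by rw [hP]) _ _ _ _

/-- **Skew-symmetry of the Kummer symbol**: `(c, β) + (b, γ) = 0` for `β ^ p = b`, `γ ^ p = c`. -/
theorem kumSymbol_skew {β γ : Lˣ} {b c : Kˣ} (hb : β ^ p = baseUnit L b)
    (hc : γ ^ p = baseUnit L c) :
    kumSymbol hζ β ⟨b, hb⟩ c + kumSymbol hζ γ ⟨c, hc⟩ b = 0 := by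
  have hbc : (β * γ) ^ p = baseUnit L (b * c) := by rw [mul_pow, hb, hc, baseUnit_mul]
  have h0 := kumSymbol_neg_self hζ hbc
  rw [kumSymbol_mul_right hζ ⟨b, hb⟩ ⟨c, hc⟩ ⟨b * c, hbc⟩] at h0
  have e1 : -(b * c) = -b * c := by rw [neg_mul]
  have e2 : -(b * c) = -c * b := by rw [neg_mul, mul_comm]
  have h1 : kumSymbol hζ β ⟨b, hb⟩ (-(b * c)) = kumSymbol hζ β ⟨b, hb⟩ c := by
    rw [e1, kumSymbol_mul_left, kumSymbol_neg_self hζ hb, zero_add]
  have h2 : kumSymbol hζ γ ⟨c, hc⟩ (-(b * c)) = kumSymbol hζ γ ⟨c, hc⟩ b := by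
    rw [e2, kumSymbol_mul_left, kumSymbol_neg_self hζ hc, zero_add]
  rw [h1, h2] at h0
  exact h0

end Kummer

end Fermat.Agent.S55lib.LocalUnr
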