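/-
S55 library, local theory (helper3).  **The finite-level ↔ smooth dictionary for the absolute Galois
group of a field `E` inside a Galois extension `Ω/K₀`** (in the application `K₀ = ℚ_q`,
`Ω = PadicAlgCl q`, `E/ℚ_q` finite), on helper7's `Cpx` hub.

* `galBasis K₀ Ω : OpenBasis (Ω ≃ₐ[K₀] Ω)` : the subgroups `Gal(Ω/N)`, `N/K₀` finite Galois.
  Everything below is stated for the AMBIENT basis `basis K₀ Ω` of a `[GalBasis K₀ Ω]` structure
  (a basis `𝒰` with `IsGalBasis K₀ Ω 𝒰` : mutually cofinal with `galBasis`).  The default instance is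
  `galBasis K₀ Ω` itself, so nothing has to be done to work with `galBasis`; for another basis `𝒰₀`
  use `letI : GalBasis K₀ Ω := GalBasis.of K₀ Ω 𝒰₀` (then `basis K₀ Ω = 𝒰₀` by `rfl`), and to be
  generic put `variable [GalBasis K₀ Ω]`;
  `unitsRep K₀ Ω = Rep.ofAlgebraAutOnUnits K₀ Ω`, `isSm_unitsRep`.
* For `E : IntermediateField K₀ Ω` finite over `K₀`: `subBasis E`, `subRep E` (the induced basis and
  module on the subgroup `E.fixingSubgroup`, i.e. helper8's `𝒰_V`, `C_V`); for
  `F : IntermediateField E Ω` finite Galois over `E`: `resV E F : ↥E.fixingSubgroup →* Gal(F/E)`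
  (`coe_resV`, `resV_surjective`, `mem_ker_resV_iff`, `exists_le_ker_resV`, `exists_ker_resV_le`),
  `unitsIncl E F`, `inflV E F : Cpx.Hom (Call (Rep.ofAlgebraAutOnUnits E F)) (Csm (subBasis E) (subRep E))`
  (`inflV_val`, `inflV_injective`).
* `exists_inflV_eq` : **exhaustion**, every smooth cochain is inflated from a finite Galois level
  (which may be chosen above a given one); `exists_inflV_eq_of_ker_le`.
* towers `F ≤ F'` : `towerAlgebra`, `tower_isScalarTower`, `galInfC`, `inflV_galInfC`.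
* cohomology: `inflH E F n : Hⁿ(Gal(F/E), Fˣ) →+ Hsm (subBasis E) (subRep E) n` with
  **(a)** `exists_inflH_eq`, **(b)** `exists_galInf_eq_zero`, **(c)** `inflH_galInf`
  (`galInf` = helper6's `LocalH/GalInfRes`), i.e. `Hsm = colim_F Hⁿ(Gal(F/E), Fˣ)` elementwise.
* `exists_eq_fixingSubgroup_of_isOpen`, `isOpen_fixingSubgroup` : the open subgroups of `Gal(Ω/K₀)`
  are exactly the `E.fixingSubgroup`, `E/K₀` finite; `mem_of_fixed`.
-/
import Mathlib
import Fermat.Agent.S55lib.Cpx.Bridge
import Fermat.Agent.S55lib.Cpx.Shapiro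
import Fermat.Agent.S55lib.LocalUnr.KummerSymbol
import Fermat.Agent.S55lib.LocalH.GalInfRes

set_option autoImplicit false
set_option linter.unusedSectionVars false
set_option linter.style.haveILetI false

noncomputable section

namespace Fermat.Agent.S55lib.LocalUnr

open groupCohomology Fermat.Agent.S55lib Fermat.Agent.S55lib.LocalH

section Basis

variable (K₀ Ω : Type) [Field K₀] [Field Ω] [Algebra K₀ Ω] [IsGalois K₀ Ω]

/-- The basis of open normal subgroups `Gal(Ω/N)`, `N/K₀` finite Galois, of `Gal(Ω/K₀)`. -/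
def galBasis : OpenBasis (Ω ≃ₐ[K₀] Ω) where
  sets := {U | ∃ N : FiniteGaloisIntermediateField K₀ Ω, U = N.toIntermediateField.fixingSubgroup}
  nonempty := ⟨_, ⊥, rfl⟩
  directed := by
    rintro _ ⟨N, rfl⟩ _ ⟨N', rfl⟩
    refine ⟨_, ⟨N ⊔ N', rfl⟩, ?_⟩
    change (N.toIntermediateField ⊔ N'.toIntermediateField).fixingSubgroup ≤ _
    rw [IntermediateField.fixingSubgroup_sup]
  normal := by
    rintro _ ⟨N, rfl⟩
    infer_instance
  finiteIndex := by
    rintro _ ⟨N, rfl⟩
    refine ⟨?_⟩
    rw [← IntermediateField.finrank_eq_fixingSubgroup_index]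
    exact Module.finrank_pos.ne'

theorem mem_galBasis {U : Subgroup (Ω ≃ₐ[K₀] Ω)} :
    U ∈ (galBasis K₀ Ω).sets ↔
      ∃ N : FiniteGaloisIntermediateField K₀ Ω, U = N.toIntermediateField.fixingSubgroup :=
  Iff.rfl

/-- The `Gal(Ω/K₀)`-module `Ωˣ`. -/
abbrev unitsRep : Rep ℤ (Ω ≃ₐ[K₀] Ω) := Rep.ofAlgebraAutOnUnits K₀ Ω

/-- `𝒰` is a basis of open normal subgroups for the Krull topology of `Gal(Ω/K₀)`: it is mutually
cofinal with the subgroups `Gal(Ω/N)`, `N/K₀` finite Galois. -/
class IsGalBasis (𝒰 : OpenBasis (Ω ≃ₐ[K₀] Ω)) : Prop where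
  exists_fixing_le : ∀ U ∈ 𝒰.sets, ∃ N : FiniteGaloisIntermediateField K₀ Ω,
    N.toIntermediateField.fixingSubgroup ≤ U
  exists_le_fixing : ∀ N : FiniteGaloisIntermediateField K₀ Ω, ∃ U ∈ 𝒰.sets,
    U ≤ N.toIntermediateField.fixingSubgroup

instance isGalBasis_galBasis : IsGalBasis K₀ Ω (galBasis K₀ Ω) where
  exists_fixing_le := by
    rintro _ ⟨N, rfl⟩
    exact ⟨N, le_rfl⟩
  exists_le_fixing := fun N => ⟨_, ⟨N, rfl⟩, le_rfl⟩

/-- **The ambient basis**: a choice of a basis `𝒰` of open normal subgroups for the Krull topology of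
`Gal(Ω/K₀)`.  The default instance is `galBasis K₀ Ω`; to work with another basis `𝒰₀`
(`[IsGalBasis K₀ Ω 𝒰₀]`) put `letI : GalBasis K₀ Ω := GalBasis.of K₀ Ω 𝒰₀` (or a variable
`[GalBasis K₀ Ω]`) in scope; then `basis K₀ Ω` is `𝒰₀` by `rfl`. -/
class GalBasis where
  /-- the basis -/
  𝒰 : OpenBasis (Ω ≃ₐ[K₀] Ω)
  isGalBasis : IsGalBasis K₀ Ω 𝒰

/-- the default ambient basis: the subgroups `Gal(Ω/N)`, `N/K₀` finite Galois -/
instance (priority := 100) instGalBasisDefault : GalBasis K₀ Ω := ⟨galBasis K₀ Ω, inferInstance⟩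

/-- the ambient basis structure of an explicit basis -/
@[reducible] def GalBasis.of (𝒰 : OpenBasis (Ω ≃ₐ[K₀] Ω)) [h : IsGalBasis K₀ Ω 𝒰] :
    GalBasis K₀ Ω := ⟨𝒰, h⟩

/-- the ambient basis of open normal subgroups of `Gal(Ω/K₀)` -/
abbrev basis [B : GalBasis K₀ Ω] : OpenBasis (Ω ≃ₐ[K₀] Ω) := B.𝒰

instance isGalBasis_basis [B : GalBasis K₀ Ω] : IsGalBasis K₀ Ω (basis K₀ Ω) := B.isGalBasis

theorem basis_default : basis K₀ Ω (B := instGalBasisDefault K₀ Ω) = galBasis K₀ Ω := rfl

theorem isSm_unitsRep (𝒰 : OpenBasis (Ω ≃ₐ[K₀] Ω)) [IsGalBasis K₀ Ω 𝒰] :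
    IsSm 𝒰 (unitsRep K₀ Ω) := by
  intro a
  let u : Ωˣ := uVal a
  obtain ⟨U, hU, hle⟩ := IsGalBasis.exists_le_fixing (𝒰 := 𝒰)
    (FiniteGaloisIntermediateField.adjoin K₀ {(u : Ω)})
  refine ⟨U, hU, fun s hs => ?_⟩
  have hmem : (u : Ω) ∈ (FiniteGaloisIntermediateField.adjoin K₀ {(u : Ω)}).toIntermediateField :=
    FiniteGaloisIntermediateField.subset_adjoin K₀ {(u : Ω)} (Set.mem_singleton _)
  have h1 : s (u : Ω) = (u : Ω) :=
    (IntermediateField.mem_fixingSubgroup_iff _ _).mp (hle hs) _ hmem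
  have h2 : s • u = u := Units.ext h1
  rw [← uRep_uVal a, ρ_uRep]
  exact congrArg (uRep K₀) h2

end Basis

section Sub

variable {K₀ Ω : Type} [Field K₀] [Field Ω] [Algebra K₀ Ω] [IsGalois K₀ Ω]
  (E : IntermediateField K₀ Ω) (F : IntermediateField E Ω) [Normal E F]

/-- Restriction `Gal(Ω/E) → Gal(F/E)`, on the subgroup `E.fixingSubgroup` of `Gal(Ω/K₀)`. -/
def resV : ↥E.fixingSubgroup →* (F ≃ₐ[E] F) :=
  (AlgEquiv.restrictNormalHom F).comp (IntermediateField.fixingSubgroupEquiv E).toMonoidHom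

theorem coe_resV (σ : ↥E.fixingSubgroup) (x : F) :
    ((resV E F σ x : F) : Ω) = (σ : Ω ≃ₐ[K₀] Ω) (x : Ω) :=
  AlgEquiv.restrictNormal_commutes (IntermediateField.fixingSubgroupEquiv E σ) F x

theorem resV_surjective : Function.Surjective (resV E F) := by
  intro γ
  obtain ⟨τ, hτ⟩ := AlgEquiv.restrictNormalHom_surjective (F := E) (K₁ := F) Ω γ
  exact ⟨(IntermediateField.fixingSubgroupEquiv E).symm τ, by
    rw [resV, MonoidHom.comp_apply]
    simpa using hτ⟩

theorem mem_ker_resV_iff (σ : ↥E.fixingSubgroup) :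
    σ ∈ (resV E F).ker ↔ ∀ x : F, (σ : Ω ≃ₐ[K₀] Ω) (x : Ω) = (x : Ω) := by
  rw [MonoidHom.mem_ker]
  constructor
  · intro h x
    rw [← coe_resV, h]; rfl
  · intro h
    ext x
    rw [coe_resV, h]; rfl

/-- The Galois closure of a finite subextension, as a finite Galois intermediate field. -/
def galClosure (M : IntermediateField K₀ Ω) [FiniteDimensional K₀ M] :
    FiniteGaloisIntermediateField K₀ Ω :=
  { IntermediateField.normalClosure K₀ M Ω with
    finiteDimensional := normalClosure.is_finiteDimensional K₀ M Ω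
    isGalois := IsGalois.normalClosure K₀ M Ω }

theorem le_galClosure (M : IntermediateField K₀ Ω) [FiniteDimensional K₀ M] :
    M ≤ (galClosure M).toIntermediateField :=
  IntermediateField.le_normalClosure M

/-- `Ωˣ` as a `Gal(Ω/E)`-module. -/
abbrev subRep : Rep ℤ ↥E.fixingSubgroup := Rep.res E.fixingSubgroup.subtype (unitsRep K₀ Ω)

/-- The inclusion `Fˣ → Ωˣ` as a morphism of representations along `resV`. -/
def unitsIncl : Rep.res (resV E F) (Rep.ofAlgebraAutOnUnits E F) ⟶ subRep E :=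
  Rep.ofHom
    { toLinearMap := (MonoidHom.toAdditive (Units.map (algebraMap F Ω : F →* Ω))).toIntLinearMap
      isIntertwining' := fun σ => by
        refine LinearMap.ext fun v => ?_
        refine congrArg (uRep K₀) (Units.ext ?_)
        exact coe_resV E F σ _ }

theorem unitsIncl_injective : Function.Injective (unitsIncl E F).hom := by
  intro a b hab
  have h1 : Units.map (algebraMap F Ω : F →* Ω) (uVal (K := E) (L := F) a) =
      Units.map (algebraMap F Ω : F →* Ω) (uVal (K := E) (L := F) b) := hab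
  have h2 : uVal (K := E) (L := F) a = uVal (K := E) (L := F) b :=
    Units.map_injective (f := (algebraMap F Ω : F →* Ω)) (algebraMap F Ω).injective h1
  exact congrArg (uRep (↥E)) h2

variable [GalBasis K₀ Ω]

/-- The induced basis on the open subgroup `Gal(Ω/E)`. -/
abbrev subBasis : OpenBasis ↥E.fixingSubgroup := (basis K₀ Ω).comap E.fixingSubgroup.subtype

/-- The kernel of `Gal(Ω/E) → Gal(F/E)` is open. -/
theorem exists_le_ker_resV [FiniteDimensional K₀ E] [FiniteDimensional E F] :
    ∃ U ∈ (subBasis E).sets, U ≤ (resV E F).ker := by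
  have hfin : FiniteDimensional K₀ ↥(F.restrictScalars K₀) := by
    have : FiniteDimensional K₀ F := FiniteDimensional.trans K₀ E F
    exact this
  obtain ⟨U, hU, hle⟩ := IsGalBasis.exists_le_fixing (𝒰 := basis K₀ Ω)
    (galClosure (F.restrictScalars K₀))
  refine ⟨_, ⟨U, hU, rfl⟩, fun σ hσ => ?_⟩
  rw [mem_ker_resV_iff]
  intro x
  have hσ' := hle (Subgroup.mem_comap.mp hσ)
  rw [IntermediateField.mem_fixingSubgroup_iff] at hσ'
  exact hσ' (x : Ω) (le_galClosure (F.restrictScalars K₀) x.2)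

variable [FiniteDimensional K₀ E] [FiniteDimensional E F]

theorem inflFun_mem_smC (n : ℕ) (x : (Fin n → (F ≃ₐ[E] F)) → Rep.ofAlgebraAutOnUnits E F) :
    ((cochainsMap (resV E F) (unitsIncl E F)).f n).hom x ∈ smC (subBasis E) (subRep E) n := by
  obtain ⟨U, hU, hUker⟩ := exists_le_ker_resV E F
  refine ⟨U, hU, fun g s hs => ?_, fun g s hs => ?_⟩
  · show (unitsIncl E F).hom (x (resV E F ∘ (g * s))) = (unitsIncl E F).hom (x (resV E F ∘ g))
    have : resV E F ∘ (g * s) = resV E F ∘ g := by
      funext i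
      have h1 : resV E F (s i) = 1 := MonoidHom.mem_ker.mp (hUker (hs i))
      simp [h1]
    rw [this]
  · show (subRep E).ρ s ((unitsIncl E F).hom (x (resV E F ∘ g))) =
      (unitsIncl E F).hom (x (resV E F ∘ g))
    rw [← Rep.hom_comm_apply]
    have h1 : resV E F s = 1 := MonoidHom.mem_ker.mp (hUker hs)
    show (unitsIncl E F).hom ((Rep.ofAlgebraAutOnUnits E F).ρ (resV E F s) _) = _
    rw [h1, map_one]
    rfl

/-- Inflation of cochains from the finite level `F/E` to the smooth cochains of `Gal(Ω/E)`. -/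
def inflV : Cpx.Hom (Call (Rep.ofAlgebraAutOnUnits E F)) (Csm (subBasis E) (subRep E)) where
  f := fun n => (((cochainsMap (resV E F) (unitsIncl E F)).f n).hom).codRestrict
    (smC (subBasis E) (subRep E) n) (inflFun_mem_smC E F n)
  comm := by
    intro n x
    apply Subtype.ext
    have := (cochainsMap (resV E F) (unitsIncl E F)).comm n (n + 1)
    simp only [CochainComplex.of_d] at this
    have h := congrArg (fun ψ => ψ.hom x) this
    exact h.symm

theorem inflV_val (n : ℕ) (x : (Call (Rep.ofAlgebraAutOnUnits E F)).X n)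
    (g : Fin n → ↥E.fixingSubgroup) :
    ((inflV E F).f n x).1 g = (unitsIncl E F).hom (x (resV E F ∘ g)) := rfl

theorem inflV_injective (n : ℕ) : Function.Injective ((inflV E F).f n) := by
  intro x y hxy
  funext γ
  obtain ⟨g, hg⟩ : ∃ g : Fin n → ↥E.fixingSubgroup, resV E F ∘ g = γ :=
    ⟨fun i => Function.surjInv (resV_surjective E F) (γ i), funext fun i =>
      Function.surjInv_eq (resV_surjective E F) (γ i)⟩
  have h := congrFun (congrArg Subtype.val hxy) g
  rw [inflV_val, inflV_val, hg] at h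
  exact unitsIncl_injective E F h

end Sub

section Exhaust

variable {K₀ Ω : Type} [Field K₀] [Field Ω] [Algebra K₀ Ω] [IsGalois K₀ Ω]
  (E : IntermediateField K₀ Ω) [FiniteDimensional K₀ E]

/-- a unit of `Ω` lying in an intermediate field, as a unit of that field -/
def unitOfMemF (F : IntermediateField E Ω) (u : Ωˣ) (hu : (u : Ω) ∈ F) : (↥F)ˣ where
  val := ⟨u, hu⟩
  inv := ⟨((u⁻¹ : Ωˣ) : Ω), by rw [Units.val_inv_eq_inv_val]; exact F.inv_mem hu⟩
  val_inv := Subtype.ext (by simp)
  inv_val := Subtype.ext (by simp)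

theorem coe_unitOfMemF (F : IntermediateField E Ω) (u : Ωˣ) (hu : (u : Ω) ∈ F) :
    ((unitOfMemF E F u hu : (↥F)ˣ) : Ω) = (u : Ω) := rfl

variable [GalBasis K₀ Ω]

/-- Every open subgroup of the induced basis contains the kernel of the restriction to some finite
Galois `F/E`, which may be chosen to contain a given one. -/
theorem exists_ker_resV_le (F₀ : FiniteGaloisIntermediateField E Ω)
    {U : Subgroup ↥E.fixingSubgroup} (hU : U ∈ (subBasis E).sets) :
    ∃ F : FiniteGaloisIntermediateField E Ω, F₀ ≤ F ∧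
      (resV E F.toIntermediateField).ker ≤ U := by
  classical
  obtain ⟨U', hU', rfl⟩ := hU
  obtain ⟨N, hN⟩ := IsGalBasis.exists_fixing_le (𝒰 := basis K₀ Ω) U' hU'
  have hfg : N.toIntermediateField.FG := IntermediateField.fg_of_fg_toSubalgebra _
    (Subalgebra.fg_of_fg_toSubmodule (Module.Finite.iff_fg.mp N.finiteDimensional))
  obtain ⟨t, ht⟩ := hfg
  have : Finite (↑t : Set Ω) := t.finite_toSet.to_subtype
  refine ⟨F₀ ⊔ FiniteGaloisIntermediateField.adjoin E (↑t : Set Ω), le_sup_left, fun σ hσ => ?_⟩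
  rw [mem_ker_resV_iff] at hσ
  rw [Subgroup.mem_comap]
  apply hN
  rw [IntermediateField.mem_fixingSubgroup_iff]
  -- the fixed field of `σ` contains `t`, hence `N`
  have hle : N.toIntermediateField ≤
      ((F₀ ⊔ FiniteGaloisIntermediateField.adjoin E (↑t : Set Ω)).toIntermediateField).restrictScalars
        K₀ := by
    rw [← ht, IntermediateField.adjoin_le_iff]
    intro x hx
    have h1 : x ∈ (FiniteGaloisIntermediateField.adjoin E (↑t : Set Ω)).toIntermediateField :=
      FiniteGaloisIntermediateField.subset_adjoin E (↑t : Set Ω) hx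
    have h2 : FiniteGaloisIntermediateField.adjoin E (↑t : Set Ω) ≤
        F₀ ⊔ FiniteGaloisIntermediateField.adjoin E (↑t : Set Ω) := le_sup_right
    exact h2 h1
  intro x hx
  exact hσ ⟨x, hle hx⟩

/-- Descent of a smooth cochain to a finite Galois level `F/E` whose kernel is contained in the
level of the cochain. -/
theorem exists_inflV_eq_of_ker_le (F : IntermediateField E Ω) [FiniteDimensional E F]
    [IsGalois E F] {n : ℕ} (x : (Csm (subBasis E) (subRep E)).X n)
    {U : Subgroup ↥E.fixingSubgroup} (hker : (resV E F).ker ≤ U) (hinv : IsInvR U x.1)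
    (hfix : ∀ g, ∀ s ∈ U, (subRep E).ρ s (x.1 g) = x.1 g) :
    ∃ y : (Call (Rep.ofAlgebraAutOnUnits E F)).X n, (inflV E F).f n y = x := by
  let s : (F ≃ₐ[E] F) → ↥E.fixingSubgroup := Function.surjInv (resV_surjective E F)
  have hs : ∀ γ, resV E F (s γ) = γ := Function.surjInv_eq (resV_surjective E F)
  -- the values lie in `F`
  have hval : ∀ g : Fin n → ↥E.fixingSubgroup,
      ((uVal (K := K₀) (L := Ω) (x.1 g) : Ωˣ) : Ω) ∈ F := by
    intro g
    rw [← InfiniteGalois.fixedField_fixingSubgroup F, IntermediateField.mem_fixedField_iff]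
    intro τ hτ
    set σ : ↥E.fixingSubgroup := (IntermediateField.fixingSubgroupEquiv E).symm τ with hσ
    have hστ : ∀ w : Ω, (σ : Ω ≃ₐ[K₀] Ω) w = τ w := fun w => by
      have : IntermediateField.fixingSubgroupEquiv E σ = τ := by rw [hσ]; simp
      rw [← this]; rfl
    have hσker : σ ∈ (resV E F).ker := by
      rw [mem_ker_resV_iff]
      intro w
      rw [hστ]
      exact (IntermediateField.mem_fixingSubgroup_iff _ _).mp hτ _ w.2
    have h1 := hfix g σ (hker hσker)
    have h2 := congrArg (fun a => ((uVal (K := K₀) (L := Ω) a : Ωˣ) : Ω)) h1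
    rw [← hστ]
    exact h2
  refine ⟨fun γ => uRep E (unitOfMemF E F (uVal (K := K₀) (L := Ω) (x.1 (s ∘ γ))) (hval _)), ?_⟩
  apply Subtype.ext
  funext g
  refine Eq.trans (inflV_val E F n _ g) ?_
  have h1 : (unitsIncl E F).hom (uRep E (unitOfMemF E F
      (uVal (K := K₀) (L := Ω) (x.1 (s ∘ (resV E F ∘ g)))) (hval _))) =
      x.1 (s ∘ (resV E F ∘ g)) := by
    refine Eq.trans ?_ (uRep_uVal (K := K₀) (L := Ω) (x.1 (s ∘ (resV E F ∘ g))))
    refine congrArg (uRep K₀) (Units.ext ?_)
    rfl
  refine Eq.trans h1 ?_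
  refine (isInvR_iff.1 hinv _ _ fun i => hker ?_).symm
  rw [MonoidHom.mem_ker, map_mul, map_inv, Function.comp_apply, Function.comp_apply, hs,
    inv_mul_cancel]

/-- **Exhaustion.**  Every smooth cochain of `Gal(Ω/E)` with values in `Ωˣ` is inflated from a
finite Galois level `F/E`, which may be chosen to contain a given one. -/
theorem exists_inflV_eq (F₀ : FiniteGaloisIntermediateField E Ω) {n : ℕ}
    (x : (Csm (subBasis E) (subRep E)).X n) :
    ∃ (F : FiniteGaloisIntermediateField E Ω) (_ : F₀ ≤ F)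
      (y : (Call (Rep.ofAlgebraAutOnUnits E F.toIntermediateField)).X n),
      (inflV E F.toIntermediateField).f n y = x := by
  obtain ⟨U, hU, hinv, hfix⟩ := x.2
  obtain ⟨F, hF₀, hker⟩ := exists_ker_resV_le E F₀ hU
  exact ⟨F, hF₀, exists_inflV_eq_of_ker_le E F.toIntermediateField x hker hinv hfix⟩

end Exhaust

section Tower

variable {K₀ Ω : Type} [Field K₀] [Field Ω] [Algebra K₀ Ω] [IsGalois K₀ Ω]
  (E : IntermediateField K₀ Ω) [FiniteDimensional K₀ E]
  (F F' : IntermediateField E Ω) (h : F ≤ F')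

/-- the algebra structure of a tower of intermediate fields -/
@[reducible] def towerAlgebra : Algebra F F' := (IntermediateField.inclusion h).toAlgebra

theorem tower_isScalarTower : letI := towerAlgebra E F F' h; IsScalarTower E F F' :=
  letI := towerAlgebra E F F' h
  IsScalarTower.of_algebraMap_eq (fun _ => rfl)

variable [FiniteDimensional E F] [IsGalois E F] [FiniteDimensional E F'] [IsGalois E F']

/-- Inflation of cochains between two finite levels `F ≤ F'`. -/
def galInfC : Cpx.Hom (Call (Rep.ofAlgebraAutOnUnits E F)) (Call (Rep.ofAlgebraAutOnUnits E F')) :=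
  letI := towerAlgebra E F F' h
  haveI := tower_isScalarTower E F F' h
  Call.map (resHom E E F F') (galUnitsMap E E F F')

theorem resHom_resV (σ : ↥E.fixingSubgroup) :
    letI := towerAlgebra E F F' h
    haveI := tower_isScalarTower E F F' h
    resHom E E F F' (resV E F' σ) = resV E F σ := by
  letI := towerAlgebra E F F' h
  haveI := tower_isScalarTower E F F' h
  ext x
  have h1 := algebraMap_resHom' E E F F' (resV E F' σ) x
  have h2 : ((resHom E E F F' (resV E F' σ) x : F) : Ω) =
      ((algebraMap F F' (resHom E E F F' (resV E F' σ) x) : F') : Ω) := rfl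
  rw [h2, h1, coe_resV, coe_resV]
  rfl

variable [GalBasis K₀ Ω]

/-- Inflation to the limit is compatible with inflation between finite levels. -/
theorem inflV_galInfC (n : ℕ) (y : (Call (Rep.ofAlgebraAutOnUnits E F)).X n) :
    (inflV E F').f n ((galInfC E F F' h).f n y) = (inflV E F).f n y := by
  letI := towerAlgebra E F F' h
  haveI := tower_isScalarTower E F F' h
  apply Subtype.ext
  funext g
  refine Eq.trans (inflV_val E F' n _ g) ?_
  refine Eq.trans ?_ (inflV_val E F n _ g).symm
  have h1 : (galInfC E F F' h).f n y (resV E F' ∘ g) =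
      (galUnitsMap E E F F').hom (y (resHom E E F F' ∘ (resV E F' ∘ g))) := rfl
  rw [h1]
  have h2 : resHom E E F F' ∘ (resV E F' ∘ g) = resV E F ∘ g := by
    funext i
    exact resHom_resV E F F' h (g i)
  rw [h2]
  refine congrArg (uRep K₀) (Units.ext ?_)
  rfl

end Tower

section Coh

variable {K₀ Ω : Type} [Field K₀] [Field Ω] [Algebra K₀ Ω] [IsGalois K₀ Ω]
  [GalBasis K₀ Ω]
  (E : IntermediateField K₀ Ω) [FiniteDimensional K₀ E]

/-- The comparison map `Hⁿ(Gal(F/E), Fˣ) → Hⁿ_sm(Gal(Ω/E), Ωˣ)`. -/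
def inflH (F : IntermediateField E Ω) [FiniteDimensional E F] [IsGalois E F] (n : ℕ) :
    groupCohomology (Rep.ofAlgebraAutOnUnits E F) n →+ Hsm (subBasis E) (subRep E) n :=
  ((inflV E F).mapH n).toAddMonoidHom.comp
    (Call.toGC (Rep.ofAlgebraAutOnUnits E F) n).symm.toAddEquiv.toAddMonoidHom

theorem inflH_toGC_cl (F : IntermediateField E Ω) [FiniteDimensional E F] [IsGalois E F] {n : ℕ}
    (z : (Call (Rep.ofAlgebraAutOnUnits E F)).X n)
    (hz : (Call (Rep.ofAlgebraAutOnUnits E F)).d n z = 0) :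
    inflH E F n (Call.toGC _ n ((Call (Rep.ofAlgebraAutOnUnits E F)).cl z hz)) =
      (Csm (subBasis E) (subRep E)).cl ((inflV E F).f n z) ((inflV E F).map_Z n hz) := by
  unfold inflH
  have h1 : (Call.toGC (Rep.ofAlgebraAutOnUnits E F) n).symm
      (Call.toGC _ n ((Call (Rep.ofAlgebraAutOnUnits E F)).cl z hz)) =
      (Call (Rep.ofAlgebraAutOnUnits E F)).cl z hz := LinearEquiv.symm_apply_apply _ _
  change (inflV E F).mapH n ((Call.toGC (Rep.ofAlgebraAutOnUnits E F) n).symm _) = _
  rw [h1]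
  rfl

/-- **(a)** Every smooth cohomology class of `Gal(Ω/E)` in `Ωˣ` comes from a finite Galois level. -/
theorem exists_inflH_eq (F₀ : FiniteGaloisIntermediateField E Ω) {n : ℕ}
    (x : Hsm (subBasis E) (subRep E) n) :
    ∃ (F : FiniteGaloisIntermediateField E Ω) (_ : F₀ ≤ F)
      (y : groupCohomology (Rep.ofAlgebraAutOnUnits E F.toIntermediateField) n),
      inflH E F.toIntermediateField n y = x := by
  obtain ⟨a, ha, rfl⟩ := (Csm (subBasis E) (subRep E)).exists_rep x
  obtain ⟨F, hF, z, hz⟩ := exists_inflV_eq E F₀ a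
  have hdz : (Call (Rep.ofAlgebraAutOnUnits E F.toIntermediateField)).d n z = 0 := by
    apply inflV_injective E F.toIntermediateField (n + 1)
    rw [(inflV E F.toIntermediateField).comm, hz, ha, map_zero]
  refine ⟨F, hF, Call.toGC _ n (Cpx.cl _ z hdz), ?_⟩
  rw [inflH_toGC_cl]
  exact Cpx.cl_congr _ hz _

variable (F F' : IntermediateField E Ω) (h : F ≤ F')
  [FiniteDimensional E F] [IsGalois E F] [FiniteDimensional E F'] [IsGalois E F']

/-- **(c)** compatibility of the comparison maps with inflation between finite levels. -/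
theorem inflH_galInf {n : ℕ} (y : groupCohomology (Rep.ofAlgebraAutOnUnits E F) n) :
    letI := towerAlgebra E F F' h
    haveI := tower_isScalarTower E F F' h
    inflH E F' n (galInf E F F' n y) = inflH E F n y := by
  letI := towerAlgebra E F F' h
  haveI := tower_isScalarTower E F F' h
  obtain ⟨w, rfl⟩ := (Call.toGC (Rep.ofAlgebraAutOnUnits E F) n).surjective y
  obtain ⟨z, hz, rfl⟩ := (Call (Rep.ofAlgebraAutOnUnits E F)).exists_rep w
  have h1 : galInf E F F' n (Call.toGC _ n ((Call (Rep.ofAlgebraAutOnUnits E F)).cl z hz)) =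
      Call.toGC _ n ((galInfC E F F' h).mapH n ((Call (Rep.ofAlgebraAutOnUnits E F)).cl z hz)) :=
    (Call.toGC_map (resHom E E F F') (galUnitsMap E E F F') n _).symm
  rw [h1, Cpx.Hom.mapH_cl, inflH_toGC_cl, inflH_toGC_cl]
  exact Cpx.cl_congr _ (inflV_galInfC E F F' h n z) _

omit [FiniteDimensional E F] [IsGalois E F] [FiniteDimensional E F'] [IsGalois E F'] in
/-- **(b)** A finite-level class dying in the smooth cohomology of `Gal(Ω/E)` already dies after
inflation to some larger finite level. -/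
theorem exists_galInf_eq_zero (F : FiniteGaloisIntermediateField E Ω) {n : ℕ}
    (y : groupCohomology (Rep.ofAlgebraAutOnUnits E F.toIntermediateField) n)
    (hy : inflH E F.toIntermediateField n y = 0) :
    ∃ (F' : FiniteGaloisIntermediateField E Ω) (h : F ≤ F'),
      letI := towerAlgebra E F.toIntermediateField F'.toIntermediateField h
      haveI := tower_isScalarTower E F.toIntermediateField F'.toIntermediateField h
      galInf E F.toIntermediateField F'.toIntermediateField n y = 0 := by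
  obtain ⟨w, rfl⟩ := (Call.toGC (Rep.ofAlgebraAutOnUnits E F.toIntermediateField) n).surjective y
  obtain ⟨z, hz, rfl⟩ := (Call (Rep.ofAlgebraAutOnUnits E F.toIntermediateField)).exists_rep w
  rw [inflH_toGC_cl, Cpx.cl_eq_zero_iff] at hy
  -- it suffices to find `F'` where the inflated cocycle is a coboundary
  suffices hsuff : ∃ (F' : FiniteGaloisIntermediateField E Ω) (h : F ≤ F'),
      (galInfC E F.toIntermediateField F'.toIntermediateField h).f n z ∈
        (Call (Rep.ofAlgebraAutOnUnits E F'.toIntermediateField)).B n by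
    obtain ⟨F', h, hB⟩ := hsuff
    refine ⟨F', h, ?_⟩
    letI := towerAlgebra E F.toIntermediateField F'.toIntermediateField h
    haveI := tower_isScalarTower E F.toIntermediateField F'.toIntermediateField h
    have h1 : galInf E F.toIntermediateField F'.toIntermediateField n (Call.toGC _ n
        ((Call (Rep.ofAlgebraAutOnUnits E F.toIntermediateField)).cl z hz)) =
        Call.toGC _ n ((galInfC E F.toIntermediateField F'.toIntermediateField h).mapH n
          ((Call (Rep.ofAlgebraAutOnUnits E F.toIntermediateField)).cl z hz)) :=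
      (Call.toGC_map (resHom E E F.toIntermediateField F'.toIntermediateField)
        (galUnitsMap E E F.toIntermediateField F'.toIntermediateField) n _).symm
    rw [h1, Cpx.Hom.mapH_cl, Cpx.cl_eq_zero_iff.mpr hB, map_zero]
  cases n with
  | zero =>
    rw [Cpx.mem_B_zero] at hy
    have hz0 : z = 0 := inflV_injective E F.toIntermediateField 0 (by rw [hy, map_zero])
    refine ⟨F, le_rfl, ?_⟩
    rw [hz0, map_zero]
    exact Submodule.zero_mem _
  | succ n =>
    rw [Cpx.mem_B_succ] at hy
    obtain ⟨x, hx⟩ := hy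
    obtain ⟨F', hF', w, hw⟩ := exists_inflV_eq E F x
    refine ⟨F', hF', ?_⟩
    rw [Cpx.mem_B_succ]
    refine ⟨w, ?_⟩
    apply inflV_injective E F'.toIntermediateField (n + 1)
    rw [(inflV E F'.toIntermediateField).comm, hw, hx, inflV_galInfC]

end Coh

section OpenSub

variable {K₀ Ω : Type} [Field K₀] [Field Ω] [Algebra K₀ Ω] [IsGalois K₀ Ω]

/-- an element of `Ω` fixed by `Gal(Ω/E)` lies in `E` -/
theorem mem_of_fixed (E : IntermediateField K₀ Ω) {x : Ω}
    (hx : ∀ v ∈ E.fixingSubgroup, v x = x) : x ∈ E := by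
  rw [← InfiniteGalois.fixedField_fixingSubgroup E, IntermediateField.mem_fixedField_iff]
  exact hx

/-- **Open subgroups are the groups `Gal(Ω/E)`, `E/K₀` finite** (for any basis `𝒰` of the Krull
topology). -/
theorem exists_eq_fixingSubgroup_of_isOpen (𝒰 : OpenBasis (Ω ≃ₐ[K₀] Ω)) [IsGalBasis K₀ Ω 𝒰]
    {V : Subgroup (Ω ≃ₐ[K₀] Ω)} (hV : 𝒰.IsOpen V) :
    ∃ E : IntermediateField K₀ Ω, FiniteDimensional K₀ E ∧ V = E.fixingSubgroup := by
  obtain ⟨U, hU, hUV⟩ := hV
  obtain ⟨N, hN⟩ := IsGalBasis.exists_fixing_le (𝒰 := 𝒰) U hU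
  have hNV : N.toIntermediateField.fixingSubgroup ≤ V := hN.trans hUV
  have hle : IntermediateField.fixedField V ≤ N.toIntermediateField := by
    have h1 := IntermediateField.fixedField_le hNV
    rwa [InfiniteGalois.fixedField_fixingSubgroup] at h1
  have hfd : FiniteDimensional K₀ (IntermediateField.fixedField V) :=
    FiniteDimensional.of_injective (IntermediateField.inclusion hle).toLinearMap
      (IntermediateField.inclusion_injective hle)
  have hopen : IsOpen (V : Set (Ω ≃ₐ[K₀] Ω)) :=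
    Subgroup.isOpen_mono hNV (IntermediateField.fixingSubgroup_isOpen N.toIntermediateField)
  have hclosed : IsClosed (V : Set (Ω ≃ₐ[K₀] Ω)) := Subgroup.isClosed_of_isOpen V hopen
  refine ⟨IntermediateField.fixedField V, hfd, ?_⟩
  exact (InfiniteGalois.fixingSubgroup_fixedField ⟨V, hclosed⟩).symm

/-- conversely, `Gal(Ω/E)` is open for `E/K₀` finite -/
theorem isOpen_fixingSubgroup (𝒰 : OpenBasis (Ω ≃ₐ[K₀] Ω)) [IsGalBasis K₀ Ω 𝒰]
    (E : IntermediateField K₀ Ω) [FiniteDimensional K₀ E] : 𝒰.IsOpen E.fixingSubgroup := by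
  obtain ⟨U, hU, hle⟩ := IsGalBasis.exists_le_fixing (𝒰 := 𝒰) (galClosure E)
  exact ⟨U, hU, hle.trans (IntermediateField.fixingSubgroup_le (le_galClosure E))⟩

end OpenSub

end Fermat.Agent.S55lib.LocalUnr


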