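/-
S55 library, block (K2) local reciprocity mod `p` (helper3).  **Nondegeneracy of the symbol at
finite level.**

* `exists_cupδ_ne_zero_of_quotient` (abstract): `χ : G → ZMod p` nonzero with kernel `Q`,
  `H¹(Q, A) = 0`, `H²(G ⧸ Q, A^Q) ≠ 0` ⟹ `a ∪ δχ ≠ 0` for some invariant `a`
  (helper9's `exists_eq_cupδ`/`map_cupδ` + helper5's `inflMap_two_injective`);
* `exists_cupδ_baseUnit_ne_zero` **(K2-fin-L)**: `L/K` finite Galois extension of local fields,
  `χ : Gal(L/K) → ZMod p` nonzero ⟹ `∃ c ∈ Kˣ, c ∪ δχ ≠ 0` (helper6's `layer_cohomology`,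
  `subsingleton_H1`);
* `galInf_kumSymbol`, `kumSymbol_liftUnit_ne_zero`: the Kummer symbol is compatible with inflation
  (helper6's `galInf`), and stays nonzero;
* `exists_kumSymbol_ne_zero`, `exists_forall_kumSymbol_ne_zero` **(K2-fin-R)**: `ζ_p ∈ K`,
  `c ∈ Kˣ ∖ Kˣᵖ` ⟹ `∃ b ∈ Kˣ` with `(c, β) ≠ 0` whenever `β ^ p = b` (skew-symmetry).
-/
import Mathlib
import Fermat.Agent.S55lib.LocalUnr.KummerSymbol
import Fermat.Agent.S55lib.Dev.InfRes2
import Fermat.Agent.S55lib.LocalH.Bound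
import Fermat.Agent.S55lib.LocalH.GalInfRes

set_option autoImplicit false
set_option linter.unusedSectionVars false

namespace Fermat.Agent.S55lib.LocalUnr

open groupCohomology Fermat.Agent.S55lib.Recip Fermat.Agent.S55lib.Dev Fermat.Agent.S55lib.LocalH

section Abstract

universe u

variable {k G : Type u} [CommRing k] [Group G] (A : Rep.{u, u, u} k G) (Q : Subgroup G) [Q.Normal]
  {p : ℕ} [Fact p.Prime]

/-- A nonzero additive character with values in `ZMod p` takes the value `1`. -/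
theorem exists_char_eq_one {χ : G → ZMod p} (hχ : ∀ g h, χ (g * h) = χ g + χ h)
    (hne : ∃ g, χ g ≠ 0) : ∃ σ, χ σ = 1 := by
  obtain ⟨g, hg⟩ := hne
  have hpow : ∀ m : ℕ, χ (g ^ m) = m • χ g := by
    intro m
    induction m with
    | zero =>
      have h1 : χ 1 = 0 := by
        have := hχ 1 1
        rw [mul_one] at this
        exact left_eq_add.mp this
      rw [pow_zero, zero_smul, h1]
    | succ m ih => rw [pow_succ, hχ, ih, succ_nsmul]
  refine ⟨g ^ ((χ g)⁻¹).val, ?_⟩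
  rw [hpow, nsmul_eq_mul, ZMod.natCast_zmod_val, inv_mul_cancel₀ hg]

variable {A Q}

/-- **Nondegeneracy on the left, abstract form.**  Let `χ : G → ZMod p` be a nonzero additive
character with kernel `Q`, and suppose `H¹(Q, A) = 0` and `H²(G ⧸ Q, A^Q) ≠ 0`.  Then
`a ∪ δχ ≠ 0` for some invariant `a`. -/
theorem exists_cupδ_ne_zero_of_quotient
    [Subsingleton (groupCohomology (Rep.res Q.subtype A) 1)]
    {χ : G → ZMod p} (hχ : ∀ g h, χ (g * h) = χ g + χ h)
    (hker : ∀ g, χ g = 0 ↔ g ∈ Q) (hne : ∃ g, χ g ≠ 0)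
    (hH2 : ∃ x : groupCohomology (A.quotientToInvariants Q) 2, x ≠ 0) :
    ∃ (a : A) (ha : ∀ g : G, A.ρ g a = a), cupδ χ hχ a ha ≠ 0 := by
  classical
  have hχ1 : χ 1 = 0 := by
    have := hχ 1 1
    rw [mul_one] at this
    exact left_eq_add.mp this
  have hχinv : ∀ g, χ g⁻¹ = -χ g := by
    intro g
    have := hχ g g⁻¹
    rw [mul_inv_cancel, hχ1] at this
    exact (neg_eq_of_add_eq_zero_right this.symm).symm
  -- the induced character on the quotient
  let χbar : G ⧸ Q → ZMod p := Quotient.lift χ (by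
    intro a b hab
    have h1 : a⁻¹ * b ∈ Q := QuotientGroup.leftRel_apply.mp hab
    have h2 := (hker _).mpr h1
    rw [hχ, hχinv] at h2
    exact (neg_add_eq_zero.mp h2))
  have hχbar_mk : ∀ g : G, χbar (QuotientGroup.mk g) = χ g := fun g => rfl
  have hχbar : ∀ x y, χbar (x * y) = χbar x + χbar y := by
    intro x y
    obtain ⟨g, rfl⟩ := QuotientGroup.mk_surjective x
    obtain ⟨h, rfl⟩ := QuotientGroup.mk_surjective y
    rw [← QuotientGroup.mk_mul, hχbar_mk, hχbar_mk, hχbar_mk, hχ]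
  have hinj : Function.Injective χbar := by
    intro x y hxy
    obtain ⟨g, rfl⟩ := QuotientGroup.mk_surjective x
    obtain ⟨h, rfl⟩ := QuotientGroup.mk_surjective y
    rw [hχbar_mk, hχbar_mk] at hxy
    rw [QuotientGroup.eq]
    rw [← hker, hχ, hχinv, hxy, neg_add_cancel]
  obtain ⟨σ, hσ⟩ := exists_char_eq_one hχ hne
  have hσbar : χbar (QuotientGroup.mk σ) = 1 := hσ
  have : Finite (G ⧸ Q) := Finite.of_injective χbar hinj
  let _ : Fintype (G ⧸ Q) := Fintype.ofFinite _
  obtain ⟨x, hx⟩ := hH2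
  obtain ⟨abar, habar, hxa⟩ := exists_eq_cupδ hχbar hinj hσbar x
  have hinfl := map_cupδ (A := A.quotientToInvariants Q) hχbar (QuotientGroup.mk' Q)
    (Rep.ofHom <| A.ρ.quotientToInvariants_lift Q) abar habar
  have hne' : inflMap A Q 2 x ≠ 0 := by
    intro h0
    apply hx
    apply inflMap_two_injective A Q
    rw [h0, map_zero]
  rw [hxa] at hne'
  have key : ∃ (a : A) (ha : ∀ g : G, A.ρ g a = a),
      inflMap A Q 2 (cupδ χbar hχbar abar habar) = cupδ χ hχ a ha :=
    ⟨_, _, hinfl.trans (cupδ_congr_char (funext fun g => rfl) _ hχ _ _)⟩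
  obtain ⟨a, ha, hinf⟩ := key
  exact ⟨a, ha, fun h0 => hne' (hinf.trans h0)⟩

end Abstract

section Local

variable {K L : Type} [NontriviallyNormedField K] [IsUltrametricDist K] [ProperSpace K]
  [NontriviallyNormedField L] [IsUltrametricDist L] [ProperSpace L] [NormedAlgebra K L]
  [FiniteDimensional K L] [IsGalois K L] {p : ℕ} [Fact p.Prime]

/-- an additive character as a monoid hom into `Multiplicative (ZMod p)` -/
def charHom {G : Type} [Group G] {n : ℕ} (χ : G → ZMod n) (hχ : ∀ g h, χ (g * h) = χ g + χ h) :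
    G →* Multiplicative (ZMod n) where
  toFun g := Multiplicative.ofAdd (χ g)
  map_one' := by
    have h1 : χ 1 = 0 := by
      have := hχ 1 1
      rw [mul_one] at this
      exact left_eq_add.mp this
    rw [h1]; rfl
  map_mul' g h := by rw [hχ]; rfl

theorem mem_ker_charHom {G : Type} [Group G] {n : ℕ} (χ : G → ZMod n)
    (hχ : ∀ g h, χ (g * h) = χ g + χ h) (g : G) : g ∈ (charHom χ hχ).ker ↔ χ g = 0 := by
  rw [MonoidHom.mem_ker]
  exact ofAdd_eq_one

/-- **(K2-fin-L) Nondegeneracy on the left.**  For a finite Galois extension `L/K` of local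
fields and a nonzero additive character `χ : Gal(L/K) → ZMod p` there is `c ∈ Kˣ` with
`c ∪ δχ ≠ 0` in `H²(Gal(L/K), Lˣ)`. -/
theorem exists_cupδ_baseUnit_ne_zero (χ : (L ≃ₐ[K] L) → ZMod p)
    (hχ : ∀ g h, χ (g * h) = χ g + χ h) (hne : ∃ g, χ g ≠ 0) :
    ∃ c : Kˣ, cupδ χ hχ (uRep K (baseUnit L c)) (uRep_baseUnit_invariant c) ≠ 0 := by
  have hp : p.Prime := Fact.out
  set Q : Subgroup (L ≃ₐ[K] L) := (charHom χ hχ).ker with hQ
  have hker : ∀ g, χ g = 0 ↔ g ∈ Q := fun g => (mem_ker_charHom χ hχ g).symm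
  obtain ⟨σ, hσ⟩ := exists_char_eq_one hχ hne
  have hsurj : Function.Surjective (charHom χ hχ) := by
    intro z
    refine ⟨σ ^ (Multiplicative.toAdd z).val, ?_⟩
    rw [map_pow]
    change Multiplicative.ofAdd (χ σ) ^ _ = z
    rw [hσ, ← ofAdd_nsmul, nsmul_eq_mul, mul_one, ZMod.natCast_zmod_val]
    rfl
  have hidx : Q.index = p := by
    rw [hQ, Subgroup.index_ker, MonoidHom.range_eq_top.mpr hsurj]
    rw [Nat.card_congr (Subgroup.topEquiv (G := Multiplicative (ZMod p))).toEquiv]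
    change Nat.card (ZMod p) = p
    rw [Nat.card_eq_fintype_card, ZMod.card]
  have hlayer := layer_cohomology K L (MonoidHom.id _) Q (fun _ _ h => h) hp hidx
  have hcard : Nat.card (groupCohomology
      ((Rep.ofAlgebraAutOnUnits K L).quotientToInvariants Q) 2) = p := hlayer.2
  have hH2 : ∃ x : groupCohomology ((Rep.ofAlgebraAutOnUnits K L).quotientToInvariants Q) 2,
      x ≠ 0 := by
    have hfin : Finite (groupCohomology
        ((Rep.ofAlgebraAutOnUnits K L).quotientToInvariants Q) 2) :=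
      Nat.finite_of_card_ne_zero (by rw [hcard]; exact hp.ne_zero)
    have : Nontrivial (groupCohomology
        ((Rep.ofAlgebraAutOnUnits K L).quotientToInvariants Q) 2) :=
      Finite.one_lt_card_iff_nontrivial.mp (by rw [hcard]; exact hp.one_lt)
    exact exists_ne 0
  have hH1 : Subsingleton (groupCohomology
      (Rep.res Q.subtype (Rep.ofAlgebraAutOnUnits K L)) 1) :=
    subsingleton_H1 K L Q.subtype Subtype.val_injective
  obtain ⟨a, ha, hne0⟩ := exists_cupδ_ne_zero_of_quotient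
    (A := Rep.ofAlgebraAutOnUnits K L) (Q := Q) hχ hker hne hH2
  -- `a` comes from `K`
  have hfix : ∀ g : L ≃ₐ[K] L, g ((uVal a : Lˣ) : L) = ((uVal a : Lˣ) : L) := fun g => by
    have := congrArg (fun b => ((uVal b : Lˣ) : L)) (ha g)
    exact this
  obtain ⟨x, hx⟩ := (IsGalois.mem_range_algebraMap_iff_fixed (F := K) (E := L) _).mpr hfix
  have hx0 : x ≠ 0 := by
    rintro rfl
    rw [map_zero] at hx
    exact (Units.ne_zero (uVal a)) hx.symm
  refine ⟨Units.mk0 x hx0, ?_⟩
  have e : uRep K (baseUnit L (Units.mk0 x hx0)) = a := by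
    rw [← uRep_uVal a]
    congr 1
    apply Units.ext
    rw [coe_baseUnit, Units.val_mk0, hx]
  intro h0
  apply hne0
  rw [← h0]
  exact cupδ_congr₂ rfl e.symm _ _ _ _

end Local

section Tower

variable {K L L' : Type} [Field K] [Field L] [Field L'] [Algebra K L] [Algebra K L'] [Algebra L L']
  [IsScalarTower K L L'] [FiniteDimensional K L'] [IsGalois K L'] [IsGalois K L]
  {p : ℕ} [NeZero p] {ζ : Kˣ} (hζ : IsPrimitiveRoot ζ p)

/-- a unit of `L` in `L'` -/
def liftUnit (L' : Type) [Field L'] [Algebra L L'] (y : Lˣ) : L'ˣ :=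
  Units.map (algebraMap L L' : L →* L') y

@[simp] theorem coe_liftUnit (y : Lˣ) : ((liftUnit L' y : L'ˣ) : L') = algebraMap L L' (y : L) := rfl

theorem liftUnit_baseUnit (c : Kˣ) : liftUnit L' (baseUnit L c) = baseUnit L' c := by
  apply Units.ext
  rw [coe_liftUnit, coe_baseUnit, coe_baseUnit, ← IsScalarTower.algebraMap_apply]

theorem liftUnit_pow (y : Lˣ) (m : ℕ) : liftUnit L' (y ^ m) = liftUnit L' y ^ m := map_pow _ _ _

theorem liftUnit_mul (y z : Lˣ) : liftUnit L' (y * z) = liftUnit L' y * liftUnit L' z :=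
  map_mul _ _ _

theorem smul_liftUnit (g : L' ≃ₐ[K] L') (y : Lˣ) :
    g • liftUnit L' y = liftUnit L' (resHom K K L L' g • y) := by
  apply Units.ext
  rw [coe_smul_unit, coe_liftUnit, coe_liftUnit, coe_smul_unit]
  exact (algebraMap_resHom' K K L L' g (y : L)).symm

theorem galUnitsMap_uRep (y : Lˣ) :
    (galUnitsMap K K L L').hom (uRep K y) = uRep K (liftUnit L' y) := rfl

theorem exists_liftUnit_pow {y : Lˣ} (hy : ∃ b : Kˣ, y ^ p = baseUnit L b) :
    ∃ b : Kˣ, liftUnit L' y ^ p = baseUnit L' b := by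
  obtain ⟨b, hb⟩ := hy
  exact ⟨b, by rw [← liftUnit_pow, hb, liftUnit_baseUnit]⟩

include hζ in
/-- The Kummer character of `y ∈ L` computed in a larger field `L'`. -/
theorem kumChar_liftUnit {y : Lˣ} (hy : ∃ b : Kˣ, y ^ p = baseUnit L b) (g : L' ≃ₐ[K] L') :
    kumChar (p := p) ζ (liftUnit L' y) g = kumChar (p := p) ζ y (resHom K K L L' g) := by
  have h1 := kumChar_spec hζ hy (resHom K K L L' g)
  have key : baseUnit L' ζ ^ (kumChar (p := p) ζ y (resHom K K L L' g)).val * liftUnit L' y =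
      g • liftUnit L' y := by
    rw [smul_liftUnit, ← h1, liftUnit_mul, liftUnit_pow, liftUnit_baseUnit]
  rw [kumChar_eq_of_pow_mul_eq hζ g _ key (exists_liftUnit_pow hy), ZMod.natCast_zmod_val]

include hζ in
/-- **The Kummer symbol is compatible with inflation.** -/
theorem galInf_kumSymbol {y : Lˣ} (hy : ∃ b : Kˣ, y ^ p = baseUnit L b) (c : Kˣ) :
    galInf K L L' 2 (kumSymbol hζ y hy c) =
      kumSymbol hζ (liftUnit L' y) (exists_liftUnit_pow hy) c := by
  unfold kumSymbol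
  have h := map_cupδ (kumChar_mul hζ hy) (resHom K K L L') (galUnitsMap K K L L')
    (uRep K (baseUnit L c)) (uRep_baseUnit_invariant c)
  refine h.trans ?_
  exact cupδ_congr₂ (funext fun g => (kumChar_liftUnit hζ hy g).symm)
    (by rw [galUnitsMap_uRep, liftUnit_baseUnit]) _ _ _ _

include hζ in
/-- A nonzero Kummer symbol stays nonzero in a larger field. -/
theorem kumSymbol_liftUnit_ne_zero {y : Lˣ} (hy : ∃ b : Kˣ, y ^ p = baseUnit L b) {c : Kˣ}
    (h : kumSymbol hζ y hy c ≠ 0) :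
    kumSymbol hζ (liftUnit L' y) (exists_liftUnit_pow hy) c ≠ 0 := by
  rw [← galInf_kumSymbol hζ hy c]
  intro h0
  apply h
  apply galInf_two_injective K L L'
  rw [h0, map_zero]

end Tower

section Right

variable {K L : Type} [Field K] [Field L] [Algebra K L] {p : ℕ} [NeZero p] {ζ : Kˣ}
  (hζ : IsPrimitiveRoot ζ p)

include hζ in
/-- If `c` is not a `p`-th power in `K`, the Kummer character of a `p`-th root of `c` is nonzero. -/
theorem exists_kumChar_ne_zero [FiniteDimensional K L] [IsGalois K L] {γ : Lˣ} {c : Kˣ}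
    (hc : γ ^ p = baseUnit L c) (hnp : ∀ t : Kˣ, t ^ p ≠ c) :
    ∃ g : L ≃ₐ[K] L, kumChar (p := p) ζ γ g ≠ 0 := by
  by_contra hcon
  push Not at hcon
  have hfix : ∀ g : L ≃ₐ[K] L, g (γ : L) = (γ : L) := by
    intro g
    have h1 := kumChar_spec hζ ⟨c, hc⟩ g
    rw [hcon g, ZMod.val_zero, pow_zero, one_mul] at h1
    have := congrArg (fun u : Lˣ => (u : L)) h1
    exact this.symm
  obtain ⟨x, hx⟩ := (IsGalois.mem_range_algebraMap_iff_fixed (F := K) (E := L) _).mpr hfix
  have hx0 : x ≠ 0 := by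
    rintro rfl
    rw [map_zero] at hx
    exact (Units.ne_zero γ) hx.symm
  apply hnp (Units.mk0 x hx0)
  apply baseUnit_injective (L := L)
  rw [baseUnit_pow, ← hc]
  congr 1
  apply Units.ext
  rw [coe_baseUnit, Units.val_mk0, hx]

/-- Skew-symmetry, in the form used for nondegeneracy. -/
theorem kumSymbol_ne_zero_symm {β γ : Lˣ} {b c : Kˣ} (hb : β ^ p = baseUnit L b)
    (hc : γ ^ p = baseUnit L c) (h : kumSymbol hζ γ ⟨c, hc⟩ b ≠ 0) :
    kumSymbol hζ β ⟨b, hb⟩ c ≠ 0 := by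
  intro h0
  apply h
  have := kumSymbol_skew hζ hb hc
  rw [h0, zero_add] at this
  exact this

end Right

section LocalRight

variable {K L : Type} [NontriviallyNormedField K] [IsUltrametricDist K] [ProperSpace K]
  [NontriviallyNormedField L] [IsUltrametricDist L] [ProperSpace L] [NormedAlgebra K L]
  [FiniteDimensional K L] [IsGalois K L] {p : ℕ} [Fact p.Prime] {ζ : Kˣ}
  (hζ : IsPrimitiveRoot ζ p)

include hζ in
/-- **(K2-fin-R), first half.**  If `c ∈ Kˣ` is not a `p`-th power and `γ ∈ L` is a `p`-th root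
of `c`, there is `b ∈ Kˣ` with `(b, γ) ≠ 0`. -/
theorem exists_kumSymbol_ne_zero {γ : Lˣ} {c : Kˣ} (hc : γ ^ p = baseUnit L c)
    (hnp : ∀ t : Kˣ, t ^ p ≠ c) : ∃ b : Kˣ, kumSymbol hζ γ ⟨c, hc⟩ b ≠ 0 :=
  exists_cupδ_baseUnit_ne_zero _ (kumChar_mul hζ ⟨c, hc⟩) (exists_kumChar_ne_zero hζ hc hnp)

include hζ in
/-- **(K2-fin-R) Nondegeneracy on the right.**  If `c ∈ Kˣ` is not a `p`-th power and `L/K` is a
finite Galois extension of local fields containing a `p`-th root `γ` of `c`, there is `b ∈ Kˣ`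
such that in every finite Galois extension `L'/K` containing `L` and a `p`-th root `β` of `b`
the symbol `(c, β) = c ∪ δχ_β ∈ H²(Gal(L'/K), L'ˣ)` is nonzero. -/
theorem exists_forall_kumSymbol_ne_zero {γ : Lˣ} {c : Kˣ} (hc : γ ^ p = baseUnit L c)
    (hnp : ∀ t : Kˣ, t ^ p ≠ c) :
    ∃ b : Kˣ, ∀ (L' : Type) [Field L'] [Algebra K L'] [Algebra L L'] [IsScalarTower K L L']
      [FiniteDimensional K L'] [IsGalois K L'] (β : L'ˣ) (hb : β ^ p = baseUnit L' b),
      kumSymbol hζ β ⟨b, hb⟩ c ≠ 0 := by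
  obtain ⟨b, hb0⟩ := exists_kumSymbol_ne_zero hζ hc hnp
  refine ⟨b, fun L' _ _ _ _ _ _ β hb => ?_⟩
  have h1 := kumSymbol_liftUnit_ne_zero (L' := L') hζ ⟨c, hc⟩ hb0
  have hc' : liftUnit L' γ ^ p = baseUnit L' c := by
    rw [← liftUnit_pow, hc, liftUnit_baseUnit]
  exact kumSymbol_ne_zero_symm hζ hb hc' h1

end LocalRight

end Fermat.Agent.S55lib.LocalUnr
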