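/-
S55 library, block (K2) local reciprocity mod `p` (helper3).  **The symbol in the limit.**

General part (any `G`, `𝒰 : OpenBasis G`, `A : Rep k G`): smooth additive characters
`IsSmChar 𝒰 χ`, the smooth class `smCup hχ ha = a ∪ δχ ∈ Hsm 𝒰 A 2` represented by
`(g, h) ↦ carry (χ g) (χ h) • a`, and its bi-additivity (`smCup_add_left`, `smCup_add_right`).

Field part (`E ⊂ Ω` as in `Formation.lean`): `inflH_two_inj`, `inflH_cupδ` (the comparison map
sends the finite-level symbol to the smooth one), `exists_factor_of_isSmChar`, and for local fields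
**(S-L)** `exists_smCup_ne_zero_left`, **(S-R)** `exists_smCup_ne_zero_right`.
-/
import Mathlib
import Fermat.Agent.S55lib.LocalUnr.Formation
import Fermat.Agent.S55lib.LocalUnr.SymbolNondeg
import Fermat.Agent.S55lib.LocalUnr.CupChar
import Fermat.Agent.S55lib.LocalUnr.Padic

set_option autoImplicit false
set_option linter.unusedSectionVars false
set_option linter.style.haveILetI false

noncomputable section

namespace Fermat.Agent.S55lib.LocalUnr

open groupCohomology Fermat.Agent.S55lib Fermat.Agent.S55lib.LocalH Fermat.Agent.S55lib.Recip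

universe u

section General

variable {k G : Type u} [CommRing k] [Group G] (𝒰 : OpenBasis G) (A : Rep.{u} k G) {n : ℕ} [NeZero n]

/-- smooth additive characters `G → ZMod n` -/
def IsSmChar (χ : G → ZMod n) : Prop :=
  (∀ g h, χ (g * h) = χ g + χ h) ∧ ∃ U ∈ 𝒰.sets, ∀ s ∈ U, χ s = 0

variable {𝒰 A}

theorem IsSmChar.add {χ χ' : G → ZMod n} (hχ : IsSmChar 𝒰 χ) (hχ' : IsSmChar 𝒰 χ') :
    IsSmChar 𝒰 (χ + χ') := by
  obtain ⟨h1, U, hU, hU0⟩ := hχ
  obtain ⟨h1', U', hU', hU0'⟩ := hχ'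
  obtain ⟨W, hW, hle⟩ := 𝒰.directed U hU U' hU'
  refine ⟨fun g h => ?_, W, hW, fun s hs => ?_⟩
  · simp only [Pi.add_apply, h1, h1']; abel
  · simp only [Pi.add_apply]
    rw [hU0 s ((hle.trans inf_le_left) hs), hU0' s ((hle.trans inf_le_right) hs), add_zero]

theorem IsSmChar.zero : IsSmChar 𝒰 (0 : G → ZMod n) := by
  obtain ⟨U, hU⟩ := 𝒰.nonempty
  exact ⟨fun _ _ => by simp, U, hU, fun _ _ => rfl⟩

theorem IsSmChar.neg {χ : G → ZMod n} (hχ : IsSmChar 𝒰 χ) : IsSmChar 𝒰 (-χ) := by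
  obtain ⟨h1, U, hU, hU0⟩ := hχ
  refine ⟨fun g h => ?_, U, hU, fun s hs => ?_⟩
  · simp only [Pi.neg_apply, h1]; abel
  · simp only [Pi.neg_apply, hU0 s hs, neg_zero]

theorem isSm₂_cupδFun {χ : G → ZMod n} (hχ : IsSmChar 𝒰 χ) {a : A} (ha : ∀ g, A.ρ g a = a) :
    Csm.IsSm₂ 𝒰 A (cupδFun A χ a) := by
  obtain ⟨hadd, U, hU, hU0⟩ := hχ
  refine ⟨U, hU, fun g h s hs t ht => ?_, fun g h s hs => ?_⟩
  · simp only [cupδFun]
    rw [hadd, hadd, hU0 s hs, hU0 t ht, add_zero, add_zero]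
  · simp only [cupδFun]
    rw [map_nsmul, ha]

/-- the smooth cochain `(g, h) ↦ carry (χ g) (χ h) • a` -/
def smCupCochain {χ : G → ZMod n} (hχ : IsSmChar 𝒰 χ) {a : A} (ha : ∀ g, A.ρ g a = a) :
    (Csm 𝒰 A).X 2 := Csm.mk₂ (cupδFun A χ a) (isSm₂_cupδFun hχ ha)

theorem fn₂_smCupCochain {χ : G → ZMod n} (hχ : IsSmChar 𝒰 χ) {a : A} (ha : ∀ g, A.ρ g a = a) :
    Csm.fn₂ (smCupCochain hχ ha) = cupδFun A χ a := Csm.fn₂_mk₂ _ _

theorem d_smCupCochain {χ : G → ZMod n} (hχ : IsSmChar 𝒰 χ) {a : A} (ha : ∀ g, A.ρ g a = a) :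
    (Csm 𝒰 A).d 2 (smCupCochain hχ ha) = 0 := by
  rw [Csm.d_two_eq_zero_iff]
  intro g h j
  rw [fn₂_smCupCochain]
  exact ((mem_cocycles₂_iff _).mp (cupδFun_mem_cocycles₂ hχ.1 ha) g h j).symm

/-- the smooth class `a ∪ δχ ∈ H²_sm(G, A)` -/
def smCup {χ : G → ZMod n} (hχ : IsSmChar 𝒰 χ) {a : A} (ha : ∀ g, A.ρ g a = a) : Hsm 𝒰 A 2 :=
  (Csm 𝒰 A).cl (smCupCochain hχ ha) (d_smCupCochain hχ ha)

theorem smCup_congr {χ χ' : G → ZMod n} (h : χ = χ') (hχ : IsSmChar 𝒰 χ) (hχ' : IsSmChar 𝒰 χ')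
    {a a' : A} (h' : a = a') (ha : ∀ g, A.ρ g a = a) (ha' : ∀ g, A.ρ g a' = a') :
    smCup hχ ha = smCup hχ' ha' := by
  subst h; subst h'; rfl

/-- additivity in the invariant element -/
theorem smCup_add_right {χ : G → ZMod n} (hχ : IsSmChar 𝒰 χ) {a b : A} (ha : ∀ g, A.ρ g a = a)
    (hb : ∀ g, A.ρ g b = b) :
    smCup hχ (a := a + b) (fun g => by rw [map_add, ha, hb]) = smCup hχ ha + smCup hχ hb := by
  unfold smCup
  rw [← Cpx.cl_add]
  refine Cpx.cl_congr _ (Csm.ext₂ ?_) _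
  rw [Csm.fn₂_add, fn₂_smCupCochain, fn₂_smCupCochain, fn₂_smCupCochain]
  funext ⟨g, h⟩
  simp only [cupδFun, Pi.add_apply, smul_add]

theorem smCup_zero_right {χ : G → ZMod n} (hχ : IsSmChar 𝒰 χ) :
    smCup hχ (a := (0 : A)) (fun _ => map_zero _) = 0 := by
  unfold smCup
  rw [Cpx.cl_eq_zero_iff]
  have : smCupCochain hχ (a := (0 : A)) (fun _ => map_zero _) = 0 := by
    refine Csm.ext₂ ?_
    rw [fn₂_smCupCochain, Csm.fn₂_zero]
    funext ⟨g, h⟩
    simp only [cupδFun, smul_zero, Pi.zero_apply]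
  rw [this]
  exact Submodule.zero_mem _

/-- additivity in the character -/
theorem smCup_add_left {χ χ' : G → ZMod n} (hχ : IsSmChar 𝒰 χ) (hχ' : IsSmChar 𝒰 χ') {a : A}
    (ha : ∀ g, A.ρ g a = a) :
    smCup (hχ.add hχ') ha = smCup hχ ha + smCup hχ' ha := by
  unfold smCup
  rw [← Cpx.cl_add, Cpx.cl_eq_cl_iff, Cpx.mem_B_succ]
  have h1 := hχ.1
  have h1' := hχ'.1
  obtain ⟨U, hU, hU0⟩ := hχ.2
  obtain ⟨U', hU', hU0'⟩ := hχ'.2
  obtain ⟨W, hW, hle⟩ := 𝒰.directed U hU U' hU'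
  have hsm : Csm.IsSm₁ 𝒰 A (fun g => -(carry (χ g) (χ' g) • a)) := by
    refine ⟨W, hW, fun g s hs => ?_, fun g s hs => ?_⟩
    · simp only
      rw [h1, h1', hU0 s ((hle.trans inf_le_left) hs), hU0' s ((hle.trans inf_le_right) hs),
        add_zero, add_zero]
    · simp only
      rw [map_neg, map_nsmul, ha]
  refine ⟨Csm.mk₁ _ hsm, Csm.ext₂ ?_⟩
  funext ⟨g, h⟩
  rw [Csm.fn₂_d, Csm.fn₁_mk₁, Csm.fn₂_sub, Csm.fn₂_add, fn₂_smCupCochain, fn₂_smCupCochain,
    fn₂_smCupCochain]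
  simp only [cupδFun, Pi.sub_apply, Pi.add_apply, map_neg, map_nsmul, ha, h1, h1']
  have key := carry_interchange (χ g) (χ h) (χ' g) (χ' h)
  have e1 : (carry (χ g) (χ h) + carry (χ' g) (χ' h) + carry (χ g + χ h) (χ' g + χ' h)) • a =
      (carry (χ g) (χ' g) + carry (χ h) (χ' h) + carry (χ g + χ' g) (χ h + χ' h)) • a := by
    rw [key]
  simp only [add_smul] at e1
  have e2 : carry (χ g + χ' g) (χ h + χ' h) • a =
      carry (χ g) (χ h) • a + carry (χ' g) (χ' h) • a + carry (χ g + χ h) (χ' g + χ' h) • a -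
        carry (χ g) (χ' g) • a - carry (χ h) (χ' h) • a := by
    rw [e1]; abel
  rw [e2]
  abel

end General

section Field

variable {K₀ Ω : Type} [Field K₀] [Field Ω] [Algebra K₀ Ω] [IsGalois K₀ Ω]
  (E : IntermediateField K₀ Ω) [FiniteDimensional K₀ E]
  (F : IntermediateField E Ω) [FiniteDimensional E F] [IsGalois E F] {p : ℕ} [NeZero p]

/-- a unit of `E` as an invariant element of the `Gal(Ω/E)`-module `Ωˣ` -/
def baseRep (c : (↥E)ˣ) : subRep E := uRep K₀ (baseUnit Ω c)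

theorem baseRep_invariant (c : (↥E)ˣ) (σ : ↥E.fixingSubgroup) :
    (subRep E).ρ σ (baseRep E c) = baseRep E c := by
  refine congrArg (uRep K₀) (Units.ext ?_)
  exact σ.2 ⟨_, c.1.2⟩

theorem unitsIncl_baseUnit (c : (↥E)ˣ) :
    (unitsIncl E F).hom (uRep E (baseUnit F c)) = baseRep E c := by
  refine congrArg (uRep K₀) (Units.ext ?_)
  rfl

variable [GalBasis K₀ Ω]

/-- **Injectivity of the comparison maps in degree 2.** -/
theorem inflH_two_inj (F : FiniteGaloisIntermediateField E Ω) :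
    Function.Injective (inflH E F.toIntermediateField 2) := by
  rw [injective_iff_map_eq_zero]
  intro y hy
  obtain ⟨F', h, h0⟩ := exists_galInf_eq_zero E F y hy
  letI := towerAlgebra E F.toIntermediateField F'.toIntermediateField h
  haveI := tower_isScalarTower E F.toIntermediateField F'.toIntermediateField h
  have h1 := galInf_two_injective E F.toIntermediateField F'.toIntermediateField
  exact h1 (h0.trans (map_zero _).symm)

/-- the inflation of a finite-level character is smooth -/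
theorem isSmChar_comp_resV {χ : (F ≃ₐ[E] F) → ZMod p} (hχ : ∀ g h, χ (g * h) = χ g + χ h) :
    IsSmChar (subBasis E) (χ ∘ resV E F) := by
  obtain ⟨U, hU, hker⟩ := exists_le_ker_resV E F
  refine ⟨fun g h => ?_, U, hU, fun s hs => ?_⟩
  · simp only [Function.comp_apply, map_mul, hχ]
  · have h1 : resV E F s = 1 := MonoidHom.mem_ker.mp (hker hs)
    have h0 : χ 1 = 0 := by
      have := hχ 1 1
      rw [mul_one] at this
      exact left_eq_add.mp this
    simp only [Function.comp_apply, h1, h0]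

/-- **The comparison map sends the finite-level symbol to the smooth symbol.** -/
theorem inflH_cupδ {χ : (F ≃ₐ[E] F) → ZMod p} (hχ : ∀ g h, χ (g * h) = χ g + χ h) (c : (↥E)ˣ) :
    inflH E F 2 (cupδ χ hχ (uRep E (baseUnit F c)) (uRep_baseUnit_invariant c)) =
      smCup (isSmChar_comp_resV E F hχ) (baseRep_invariant E c) := by
  have h0 := Call.toGC_two (Rep.ofAlgebraAutOnUnits E F)
    (cupδCocycle χ hχ (uRep E (baseUnit F c)) (uRep_baseUnit_invariant c))
  refine Eq.trans (congrArg (inflH E F 2) h0.symm) ?_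
  refine Eq.trans (inflH_toGC_cl E F _ _) ?_
  unfold smCup
  refine Cpx.cl_congr _ (Csm.ext₂ ?_) _
  rw [fn₂_smCupCochain]
  funext ⟨g, h⟩
  rw [Csm.fn₂_apply]
  refine Eq.trans (inflV_val E F 2 _ _) ?_
  have h1 : ((cochainsIso₂ (Rep.ofAlgebraAutOnUnits E F)).inv
      (cupδCocycle χ hχ (uRep E (baseUnit F c)) (uRep_baseUnit_invariant c)).1)
      (resV E F ∘ ![g, h]) =
      carry (χ (resV E F g)) (χ (resV E F h)) • uRep E (baseUnit F c) := rfl
  refine Eq.trans (congrArg (unitsIncl E F).hom h1) ?_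
  rw [map_nsmul, unitsIncl_baseUnit]
  rfl

variable {E}

omit [FiniteDimensional K₀ E] in
theorem IsSmChar.map_one {χ : ↥E.fixingSubgroup → ZMod p} (hχ : IsSmChar (subBasis E) χ) :
    χ 1 = 0 := by
  have := hχ.1 1 1
  rw [mul_one] at this
  exact left_eq_add.mp this

variable (E)

/-- **Factorisation of smooth characters.**  Every smooth additive character of `Gal(Ω/E)` factors
through `Gal(F/E)` for a finite Galois `F/E` (which may be chosen above a given one). -/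
theorem exists_factor_of_isSmChar {χ : ↥E.fixingSubgroup → ZMod p}
    (hχ : IsSmChar (subBasis E) χ) (F₀ : FiniteGaloisIntermediateField E Ω) :
    ∃ (F : FiniteGaloisIntermediateField E Ω) (_ : F₀ ≤ F)
      (χF : (F.toIntermediateField ≃ₐ[E] F.toIntermediateField) → ZMod p),
      (∀ g h, χF (g * h) = χF g + χF h) ∧ χ = χF ∘ resV E F.toIntermediateField := by
  obtain ⟨U, hU, hU0⟩ := hχ.2
  obtain ⟨F, hF₀, hker⟩ := exists_ker_resV_le E F₀ hU
  have hsurj := resV_surjective E F.toIntermediateField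
  let s := Function.surjInv hsurj
  have hs : ∀ γ, resV E F.toIntermediateField (s γ) = γ := Function.surjInv_eq hsurj
  have key : ∀ σ τ : ↥E.fixingSubgroup,
      resV E F.toIntermediateField σ = resV E F.toIntermediateField τ → χ σ = χ τ := by
    intro σ τ h
    have h1 : τ⁻¹ * σ ∈ (resV E F.toIntermediateField).ker := by
      rw [MonoidHom.mem_ker, map_mul, map_inv, h, inv_mul_cancel]
    have h2 : χ (τ * (τ⁻¹ * σ)) = χ τ + χ (τ⁻¹ * σ) := hχ.1 _ _
    rw [mul_inv_cancel_left, hU0 _ (hker h1), add_zero] at h2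
    exact h2
  refine ⟨F, hF₀, fun γ => χ (s γ), fun g h => ?_, ?_⟩
  · rw [← hχ.1]
    apply key
    rw [hs, map_mul, hs, hs]
  · funext σ
    apply key
    rw [hs]

end Field

section Normed

variable {K₀ Ω : Type} [NontriviallyNormedField K₀] [ProperSpace K₀] [NormedField Ω]
  [NormedAlgebra K₀ Ω] [IsUltrametricDist Ω] [IsGalois K₀ Ω]
  [GalBasis K₀ Ω]
  (E : IntermediateField K₀ Ω) [FiniteDimensional K₀ E] {p : ℕ} [Fact p.Prime]

/-- **(S-L) Left nondegeneracy of the smooth symbol.**  For a nonzero smooth character `χ` of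
`Gal(Ω/E)` there is `c ∈ Eˣ` with `c ∪ δχ ≠ 0` in `H²_sm(Gal(Ω/E), Ωˣ)`. -/
theorem exists_smCup_ne_zero_left {χ : ↥E.fixingSubgroup → ZMod p}
    (hχ : IsSmChar (subBasis E) χ) (hne : ∃ g, χ g ≠ 0) :
    ∃ c : (↥E)ˣ, smCup hχ (baseRep_invariant E c) ≠ 0 := by
  obtain ⟨F, _, χF, hχF, rfl⟩ := exists_factor_of_isSmChar E hχ ⊥
  haveI : ProperSpace ↥E := properSpace_of_finiteDimensional E
  haveI : ProperSpace ↥F.toIntermediateField :=
    properSpace_of_finiteDimensional F.toIntermediateField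
  have hne' : ∃ g, χF g ≠ 0 := by
    obtain ⟨g, hg⟩ := hne
    exact ⟨_, hg⟩
  obtain ⟨c, hc⟩ := exists_cupδ_baseUnit_ne_zero (K := ↥E) (L := ↥F.toIntermediateField) χF hχF hne'
  refine ⟨c, fun h0 => hc ?_⟩
  apply inflH_two_inj E F
  rw [map_zero, ← h0]
  exact inflH_cupδ E F.toIntermediateField hχF c

/-- **(S-R) Right nondegeneracy of the smooth symbol.**  If `μ_p ⊂ E`, `Ω` contains `p`-th roots,
and `c ∈ Eˣ` is not a `p`-th power, there is a smooth character `χ` of `Gal(Ω/E)` with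
`c ∪ δχ ≠ 0` in `H²_sm(Gal(Ω/E), Ωˣ)`. -/
theorem exists_smCup_ne_zero_right (hroot : ∀ x : Ω, ∃ y : Ω, y ^ p = x) {ζ : (↥E)ˣ}
    (hζ : IsPrimitiveRoot ζ p) {c : (↥E)ˣ} (hnp : ∀ t : (↥E)ˣ, t ^ p ≠ c) :
    ∃ (χ : ↥E.fixingSubgroup → ZMod p) (hχ : IsSmChar (subBasis E) χ),
      smCup hχ (baseRep_invariant E c) ≠ 0 := by
  have hp : p.Prime := Fact.out
  haveI : ProperSpace ↥E := properSpace_of_finiteDimensional E
  -- a `p`-th root of `c`
  obtain ⟨γ₀, hγ₀⟩ := hroot ((c : ↥E) : Ω)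
  have hγ₀ne : γ₀ ≠ 0 := by
    rintro rfl
    rw [zero_pow hp.ne_zero] at hγ₀
    exact (Units.ne_zero c) (Subtype.ext hγ₀.symm)
  let L₀ : FiniteGaloisIntermediateField E Ω := FiniteGaloisIntermediateField.adjoin E {γ₀}
  have hmem : γ₀ ∈ L₀.toIntermediateField :=
    FiniteGaloisIntermediateField.subset_adjoin E {γ₀} (Set.mem_singleton _)
  haveI : ProperSpace ↥L₀.toIntermediateField :=
    properSpace_of_finiteDimensional L₀.toIntermediateField
  let γ : (↥L₀.toIntermediateField)ˣ :=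
    unitOfMemF E L₀.toIntermediateField (Units.mk0 γ₀ hγ₀ne) hmem
  have hc : γ ^ p = baseUnit (↥L₀.toIntermediateField) c := by
    apply Units.ext
    apply Subtype.ext
    exact hγ₀
  obtain ⟨b, hb⟩ := exists_forall_kumSymbol_ne_zero (K := ↥E) (L := ↥L₀.toIntermediateField)
    hζ hc hnp
  -- a `p`-th root of `b`
  obtain ⟨β₀, hβ₀⟩ := hroot ((b : ↥E) : Ω)
  have hβ₀ne : β₀ ≠ 0 := by
    rintro rfl
    rw [zero_pow hp.ne_zero] at hβ₀
    exact (Units.ne_zero b) (Subtype.ext hβ₀.symm)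
  let L' : FiniteGaloisIntermediateField E Ω := L₀ ⊔ FiniteGaloisIntermediateField.adjoin E {β₀}
  have hle : L₀ ≤ L' := le_sup_left
  have hmem' : β₀ ∈ L'.toIntermediateField := by
    have h1 : β₀ ∈ (FiniteGaloisIntermediateField.adjoin E {β₀}).toIntermediateField :=
      FiniteGaloisIntermediateField.subset_adjoin E {β₀} (Set.mem_singleton _)
    have h2 : FiniteGaloisIntermediateField.adjoin E {β₀} ≤ L' := le_sup_right
    exact h2 h1
  letI := towerAlgebra E L₀.toIntermediateField L'.toIntermediateField hle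
  haveI := tower_isScalarTower E L₀.toIntermediateField L'.toIntermediateField hle
  let β : (↥L'.toIntermediateField)ˣ :=
    unitOfMemF E L'.toIntermediateField (Units.mk0 β₀ hβ₀ne) hmem'
  have hβ : β ^ p = baseUnit (↥L'.toIntermediateField) b := by
    apply Units.ext
    apply Subtype.ext
    exact hβ₀
  have hne := hb (↥L'.toIntermediateField) β hβ
  refine ⟨kumChar (p := p) ζ β ∘ resV E L'.toIntermediateField,
    isSmChar_comp_resV E L'.toIntermediateField (kumChar_mul hζ ⟨b, hβ⟩), fun h0 => hne ?_⟩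
  apply inflH_two_inj E L'
  rw [map_zero, ← h0]
  exact inflH_cupδ E L'.toIntermediateField (kumChar_mul hζ ⟨b, hβ⟩) c

end Normed

end Fermat.Agent.S55lib.LocalUnr
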