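/-
S55 library, block (K2) local reciprocity mod `p` (helper3).  **`c_*(Bock χ)` is the smooth symbol.**

On helper8's `CFDual/Hyp.lean` (`trivZ`, `trivFp`, `bock`, `constHom`): for any group `H` with basis
`𝒱`,
* `charClass hχ : Hsm 𝒱 (trivFp p H) 1` for a smooth character `χ` (`IsSmChar 𝒱 χ`), the dictionary
  `exists_charClass_eq` (every class is one) and `charClass_eq_zero_iff`;
* `bock_charClass` : `Bock [χ]` is the class of the carry cocycle `(g, h) ↦ carry (χ g) (χ h)`;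
* `map_bock_charClass` : `φ_*(Bock [χ]) = smCup hχ _` (`= φ(1) ∪ δχ`) for `φ : trivZ H ⟶ A`.
-/
import Mathlib
import Fermat.Agent.S55lib.CFDual.Hyp
import Fermat.Agent.S55lib.LocalUnr.SymbolLimit

set_option autoImplicit false
set_option linter.unusedSectionVars false
set_option linter.style.haveILetI false

noncomputable section

namespace Fermat.Agent.S55lib.LocalUnr

open groupCohomology Fermat.Agent.S55lib Fermat.Agent.S55lib.Recip Fermat.Agent.S55lib.CFDual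

section Bock

variable {H : Type} [Group H] (𝒱 : OpenBasis H) {p : ℕ} [Fact p.Prime]

variable {𝒱}

/-- a smooth character as a smooth function with values in the trivial module `𝔽_p` -/
theorem isSm₁_of_isSmChar {χ : H → ZMod p} (hχ : IsSmChar 𝒱 χ) :
    Csm.IsSm₁ 𝒱 (trivFp p H) χ := by
  obtain ⟨U, hU, hU0⟩ := hχ.2
  refine ⟨U, hU, fun g s hs => ?_, fun g s hs => rfl⟩
  rw [hχ.1, hU0 s hs, add_zero]

/-- the 1-cochain of a smooth character -/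
def charCochain {χ : H → ZMod p} (hχ : IsSmChar 𝒱 χ) : (Csm 𝒱 (trivFp p H)).X 1 :=
  Csm.mk₁ χ (isSm₁_of_isSmChar hχ)

theorem d_charCochain {χ : H → ZMod p} (hχ : IsSmChar 𝒱 χ) :
    (Csm 𝒱 (trivFp p H)).d 1 (charCochain hχ) = 0 := by
  rw [Csm.d_one_eq_zero_iff]
  intro g h
  unfold charCochain
  rw [Csm.fn₁_mk₁, hχ.1, add_comm]
  rfl

/-- the class in `H¹_sm(H, 𝔽_p)` of a smooth character -/
def charClass {χ : H → ZMod p} (hχ : IsSmChar 𝒱 χ) : Hsm 𝒱 (trivFp p H) 1 :=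
  (Csm 𝒱 (trivFp p H)).cl (charCochain hχ) (d_charCochain hχ)

/-- **Dictionary.**  Every class in `H¹_sm(H, 𝔽_p)` is the class of a smooth character. -/
theorem exists_charClass_eq (x : Hsm 𝒱 (trivFp p H) 1) :
    ∃ (χ : H → ZMod p) (hχ : IsSmChar 𝒱 χ), charClass hχ = x := by
  obtain ⟨z, hz, rfl⟩ := (Csm 𝒱 (trivFp p H)).exists_rep x
  have hadd : ∀ g h, Csm.fn₁ z (g * h) = Csm.fn₁ z g + Csm.fn₁ z h := by
    intro g h
    rw [(Csm.d_one_eq_zero_iff z).mp hz g h, add_comm]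
    rfl
  obtain ⟨U, hU, h1, -⟩ := Csm.isSm₁_fn₁ z
  have hχ : IsSmChar 𝒱 (Csm.fn₁ z : H → ZMod p) := by
    refine ⟨hadd, U, hU, fun s hs => ?_⟩
    have h2 := h1 1 s hs
    rw [one_mul] at h2
    have h3 : Csm.fn₁ z (1 : H) = 0 := by
      have := hadd 1 1
      rw [mul_one] at this
      exact left_eq_add.mp this
    rw [h2, h3]
  refine ⟨Csm.fn₁ z, hχ, ?_⟩
  unfold charClass
  have e : charCochain hχ = z := Csm.ext₁ rfl
  exact Cpx.cl_congr _ e _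

theorem charClass_eq_zero_iff {χ : H → ZMod p} (hχ : IsSmChar 𝒱 χ) :
    charClass hχ = 0 ↔ χ = 0 := by
  unfold charClass
  rw [Cpx.cl_succ_eq_zero_iff]
  constructor
  · rintro ⟨y, hy⟩
    funext g
    have h1 := Csm.fn₁_d y g
    rw [hy] at h1
    unfold charCochain at h1
    rw [Csm.fn₁_mk₁] at h1
    rw [h1]
    exact sub_self _
  · intro h
    refine ⟨0, ?_⟩
    rw [map_zero]
    refine (Csm.ext₁ ?_)
    unfold charCochain
    rw [Csm.fn₁_mk₁, h]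
    rfl

/-- the integral lift `g ↦ (χ g).val` of a smooth character -/
theorem isSm₁_valLift {χ : H → ZMod p} (hχ : IsSmChar 𝒱 χ) :
    Csm.IsSm₁ 𝒱 (trivZ H) (fun g => ((χ g).val : ℤ)) := by
  obtain ⟨U, hU, hU0⟩ := hχ.2
  refine ⟨U, hU, fun g s hs => ?_, fun g s hs => rfl⟩
  simp only
  rw [hχ.1, hU0 s hs, add_zero]

/-- the carry cocycle `(g, h) ↦ carry (χ g) (χ h)` with values in `ℤ` -/
theorem isSm₂_carry {χ : H → ZMod p} (hχ : IsSmChar 𝒱 χ) :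
    Csm.IsSm₂ 𝒱 (trivZ H) (fun gh => ((carry (χ gh.1) (χ gh.2) : ℕ) : ℤ)) := by
  obtain ⟨U, hU, hU0⟩ := hχ.2
  refine ⟨U, hU, fun g h s hs t ht => ?_, fun g h s hs => rfl⟩
  simp only
  rw [hχ.1, hχ.1, hU0 s hs, hU0 t ht, add_zero, add_zero]

/-- **The Bockstein of a character is the carry cocycle.** -/
theorem bock_charClass {χ : H → ZMod p} (hχ : IsSmChar 𝒱 χ) :
    ∃ hd : (Csm 𝒱 (trivZ H)).d 2 (Csm.mk₂ _ (isSm₂_carry hχ)) = 0,
      bock p 𝒱 (charClass hχ) = (Csm 𝒱 (trivZ H)).cl (Csm.mk₂ _ (isSm₂_carry hχ)) hd := by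
  have hy : (Csm.map 𝒱 (redP p H)).f 1 (Csm.mk₁ _ (isSm₁_valLift hχ)) = charCochain hχ := by
    refine Csm.ext₁ ?_
    funext g
    unfold charCochain
    rw [Csm.fn₁_mk₁]
    show (redP p H).hom ((χ g).val : ℤ) = χ g
    rw [redP_apply, Int.cast_natCast, ZMod.natCast_zmod_val]
  have hx : (Csm.map 𝒱 (mulP p H)).f 2 (Csm.mk₂ _ (isSm₂_carry hχ)) =
      (Csm 𝒱 (trivZ H)).d 1 (Csm.mk₁ _ (isSm₁_valLift hχ)) := by
    refine Csm.ext₂ ?_
    funext ⟨g, h⟩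
    rw [Csm.fn₂_d, Csm.fn₁_mk₁]
    show (mulP p H).hom ((carry (χ g) (χ h) : ℕ) : ℤ) =
      ((χ h).val : ℤ) - ((χ (g * h)).val : ℤ) + ((χ g).val : ℤ)
    rw [mulP_apply, hχ.1]
    have := carry_spec (χ g) (χ h)
    have h2 : ((χ g).val : ℤ) + ((χ h).val : ℤ) =
        (p : ℤ) * (carry (χ g) (χ h) : ℕ) + ((χ g + χ h).val : ℤ) := by exact_mod_cast this
    linarith
  exact ⟨_, (bock_isSES p 𝒱).δ_cl (charCochain hχ) (d_charCochain hχ) _ hy _ hx⟩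


/-- **`c_*(Bock χ)` is the smooth symbol.**  For `φ : ℤ ⟶ A` (trivial module `ℤ`) and a smooth
character `χ`, `φ_*(Bock χ) = φ(1) ∪ δχ`. -/
theorem map_bock_charClass {A : Rep.{0} ℤ H} (φ : trivZ H ⟶ A) {χ : H → ZMod p}
    (hχ : IsSmChar 𝒱 χ) (ha : ∀ g, A.ρ g (φ.hom (1 : ℤ)) = φ.hom (1 : ℤ)) :
    (Csm.map 𝒱 φ).mapH 2 (bock p 𝒱 (charClass hχ)) = smCup hχ ha := by
  obtain ⟨hd, hb⟩ := bock_charClass hχ
  rw [hb, Cpx.Hom.mapH_cl]
  unfold smCup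
  refine Cpx.cl_congr _ (Csm.ext₂ ?_) _
  rw [fn₂_smCupCochain]
  funext ⟨g, h⟩
  rw [Csm.fn₂_apply, Csm.map_val]
  show φ.hom ((carry (χ g) (χ h) : ℕ) : ℤ) = carry (χ g) (χ h) • φ.hom (1 : ℤ)
  rw [← map_nsmul, nsmul_eq_mul, mul_one]


end Bock

end Fermat.Agent.S55lib.LocalUnr
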