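/-
S55 library, block (K2) local reciprocity mod `p` (helper3).  **The counting lemma** behind the
surjectivity half of (CF4): a bi-additive pairing `B : X × W → T` with `p X = 0`, `W / W^p` finite,
`|T[p]| ≤ p`, nondegenerate on the left, represents every additive map `X → T`
(`exists_eq_pairing_of_separating`).  Pure linear algebra over `ZMod p`
(`exists_eq_pairing_of_injective`, `mem_of_separating`, `exists_eq_of_separating_aux`).
-/
import Mathlib

set_option autoImplicit false
set_option linter.style.haveILetI false

namespace Fermat.Agent.S55lib.LocalUnr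

section LinAlg

variable {𝔽 X W T : Type*} [Field 𝔽] [AddCommGroup X] [Module 𝔽 X] [AddCommGroup W] [Module 𝔽 W]
  [AddCommGroup T] [Module 𝔽 T]

/-- A pairing `X × W → T` over a field which is nondegenerate on both sides, with `W`
finite-dimensional and `dim T ≤ 1`, represents every linear functional `X → T`. -/
theorem exists_eq_pairing_of_injective [FiniteDimensional 𝔽 W] [FiniteDimensional 𝔽 T]
    (hT : Module.finrank 𝔽 T ≤ 1) (B : X →ₗ[𝔽] W →ₗ[𝔽] T) (hL : Function.Injective B)
    (hR : Function.Injective B.flip) (φ : X →ₗ[𝔽] T) : ∃ w, ∀ x, φ x = B x w := by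
  rcases Nat.lt_or_ge (Module.finrank 𝔽 T) 1 with h0 | h1
  · -- `T = 0`
    have hsub : Subsingleton T := (Module.finrank_zero_iff (R := 𝔽)).mp (by omega)
    refine ⟨0, fun x => Subsingleton.elim _ _⟩
  · have h1' : Module.finrank 𝔽 T = 1 := le_antisymm hT h1
    have e : T ≃ₗ[𝔽] 𝔽 := LinearEquiv.ofFinrankEq T 𝔽 (by rw [h1', Module.finrank_self])
    let P : X →ₗ[𝔽] W →ₗ[𝔽] 𝔽 := B.compr₂ e.toLinearMap
    have hP : Function.Injective P := by
      intro x x' h
      apply hL
      ext w
      have := congrArg (fun f => f w) h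
      exact e.injective this
    have hP' : Function.Injective P.flip := by
      intro w w' h
      apply hR
      ext x
      have := congrArg (fun f => f x) h
      exact e.injective this
    have hperf : P.IsPerfPair := LinearMap.IsPerfPair.of_injective' hP hP'
    obtain ⟨w, hw⟩ := (LinearMap.IsPerfPair.bijective_right P).2 (e.toLinearMap.comp φ)
    refine ⟨w, fun x => ?_⟩
    have := congrArg (fun f => f x) hw
    exact e.injective this.symm

/-- A finite-dimensional space `I` of linear maps `X → T` (`dim T ≤ 1`) separating the points of `X`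
contains every linear map `X → T`. -/
theorem mem_of_separating [FiniteDimensional 𝔽 T] (hT : Module.finrank 𝔽 T ≤ 1)
    (I : Submodule 𝔽 (X →ₗ[𝔽] T)) [FiniteDimensional 𝔽 I]
    (hsep : ∀ x, (∀ f ∈ I, f x = 0) → x = 0) (φ : X →ₗ[𝔽] T) : φ ∈ I := by
  let B : X →ₗ[𝔽] I →ₗ[𝔽] T := (I.subtype : I →ₗ[𝔽] X →ₗ[𝔽] T).flip
  have hL : Function.Injective B := by
    rw [injective_iff_map_eq_zero]
    intro x hx
    apply hsep
    intro f hf
    have := congrArg (fun g => g ⟨f, hf⟩) hx
    exact this
  have hR : Function.Injective B.flip := by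
    intro f g h
    apply Subtype.ext
    ext x
    have := congrArg (fun u => u x) h
    exact this
  obtain ⟨w, hw⟩ := exists_eq_pairing_of_injective hT B hL hR φ
  have : φ = w.1 := by
    ext x
    exact hw x
  rw [this]
  exact w.2

end LinAlg

section Group

variable {p : ℕ} [Fact p.Prime]

/-- module version of the counting lemma -/
theorem exists_eq_of_separating_aux {X W T' : Type*} [AddCommGroup X] [Module (ZMod p) X]
    [CommGroup W] [AddCommGroup T'] [Module (ZMod p) T'] [Finite T'] (hcard : Nat.card T' ≤ p)
    (β : W → X →+ T') (hβ1 : β 1 = 0) (hβmul : ∀ w w', β (w * w') = β w + β w')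
    (hfin : (powMonoidHom p : W →* W).range.FiniteIndex)
    (hL : ∀ x, (∀ w, β w x = 0) → x = 0) (φ : X →+ T') : ∃ w, β w = φ := by
  classical
  have hp : p.Prime := Fact.out
  haveI : Module.Finite (ZMod p) T' := Module.Finite.of_finite
  have hrank : Module.finrank (ZMod p) T' ≤ 1 := by
    have h1 := Module.natCard_eq_pow_finrank (K := ZMod p) (V := T')
    rw [Nat.card_zmod] at h1
    rw [h1] at hcard
    by_contra hcon
    push Not at hcon
    have : p ^ 2 ≤ p ^ Module.finrank (ZMod p) T' := Nat.pow_le_pow_right hp.pos hcon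
    have h2 : p < p ^ 2 := by
      have := hp.one_lt
      nlinarith
    omega
  have hpT : ∀ t : T', p • t = 0 := fun t => by
    rw [← Nat.cast_smul_eq_nsmul (ZMod p), ZMod.natCast_self, zero_smul]
  have hβpow : ∀ w (n : ℕ), β (w ^ n) = n • β w := by
    intro w n
    induction n with
    | zero => rw [pow_zero, zero_smul, hβ1]
    | succ n ih => rw [pow_succ, hβmul, ih, succ_nsmul]
  let γ : W → X →ₗ[ZMod p] T' := fun w => (β w).toZModLinearMap p
  have hγ : ∀ w x, γ w x = β w x := fun _ _ => rfl
  -- the range of `γ` is finite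
  have hrange : (Set.range γ).Finite := by
    haveI : Finite (W ⧸ (powMonoidHom p : W →* W).range) :=
      Subgroup.finite_quotient_of_finiteIndex
    have hsub : Set.range γ ⊆ Set.range
        (fun q : W ⧸ (powMonoidHom p : W →* W).range => γ q.out) := by
      rintro _ ⟨w, rfl⟩
      refine ⟨(w : W ⧸ (powMonoidHom p : W →* W).range), ?_⟩
      have hmem : w⁻¹ * (w : W ⧸ (powMonoidHom p : W →* W).range).out ∈
          (powMonoidHom p : W →* W).range := by
        rw [← QuotientGroup.eq]
        exact (QuotientGroup.out_eq' _).symm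
      obtain ⟨v, hv⟩ := hmem
      have hout : (w : W ⧸ (powMonoidHom p : W →* W).range).out = w * v ^ p := by
        rw [powMonoidHom_apply] at hv
        rw [hv, mul_inv_cancel_left]
      apply LinearMap.ext
      intro x
      change β _ x = β w x
      rw [hout, hβmul, hβpow, AddMonoidHom.add_apply, AddMonoidHom.coe_smul, Pi.smul_apply, hpT,
        add_zero]
    exact (Set.finite_range _).subset hsub
  -- the span of the range is the range
  let I : Submodule (ZMod p) (X →ₗ[ZMod p] T') := Submodule.span (ZMod p) (Set.range γ)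
  haveI : FiniteDimensional (ZMod p) I := FiniteDimensional.span_of_finite (ZMod p) hrange
  have hI : ∀ f ∈ I, ∃ w, γ w = f := by
    intro f hf
    induction hf using Submodule.span_induction with
    | mem f hf => exact hf
    | zero =>
      refine ⟨1, ?_⟩
      apply LinearMap.ext
      intro x
      change β 1 x = 0
      rw [hβ1]; rfl
    | add f g _ _ hf hg =>
      obtain ⟨w, rfl⟩ := hf
      obtain ⟨w', rfl⟩ := hg
      refine ⟨w * w', ?_⟩
      apply LinearMap.ext
      intro x
      change β (w * w') x = β w x + β w' x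
      rw [hβmul]; rfl
    | smul a f _ hf =>
      obtain ⟨w, rfl⟩ := hf
      refine ⟨w ^ a.val, ?_⟩
      apply LinearMap.ext
      intro x
      change β (w ^ a.val) x = a • β w x
      rw [hβpow, ← ZMod.natCast_zmod_val a, Nat.cast_smul_eq_nsmul, ZMod.natCast_zmod_val]
      rfl
  have hsep : ∀ x, (∀ f ∈ I, f x = 0) → x = 0 := by
    intro x hx
    apply hL
    intro w
    exact hx (γ w) (Submodule.subset_span ⟨w, rfl⟩)
  obtain ⟨w, hw⟩ := hI (φ.toZModLinearMap p) (mem_of_separating hrank I hsep _)
  refine ⟨w, ?_⟩
  ext x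
  have := congrArg (fun f => f x) hw
  exact this

/-- **Counting lemma.**  Let `B : X × W → T` be bi-additive, `X` killed by `p`, `W / W^p` finite,
`T[p]` of order at most `p`, and `B` nondegenerate on the left.  Then every additive map `X → T`
is `B(·, w)` for some `w`. -/
theorem exists_eq_pairing_of_separating {X W T : Type*} [AddCommGroup X] [CommGroup W]
    [AddCommGroup T] (B : X → W → T)
    (hBl : ∀ x x' w, B (x + x') w = B x w + B x' w)
    (hBr : ∀ x w w', B x (w * w') = B x w + B x w')
    (hX : ∀ x : X, p • x = 0)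
    (hfin : (powMonoidHom p : W →* W).range.FiniteIndex)
    (hT : ∀ S : Finset T, (∀ t ∈ S, p • t = 0) → S.card ≤ p)
    (hL : ∀ x, (∀ w, B x w = 0) → x = 0)
    (φ : X →+ T) : ∃ w, ∀ x, φ x = B x w := by
  classical
  -- the `p`-torsion of `T`
  let T' : AddSubgroup T := (nsmulAddMonoidHom p : T →+ T).ker
  have hmemT' : ∀ t : T, t ∈ T' ↔ p • t = 0 := fun t => AddMonoidHom.mem_ker
  have hT' : ∀ t : T', p • t = 0 := fun t => Subtype.ext ((hmemT' t.1).mp t.2)
  -- `T'` is finite of order at most `p`
  have hfinT' : Finite T' := by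
    by_contra hinf
    rw [not_finite_iff_infinite] at hinf
    obtain ⟨S, hS⟩ := Infinite.exists_subset_card_eq T' (p + 1)
    have h1 := hT (S.map ⟨Subtype.val, Subtype.val_injective⟩) (by
      intro t ht
      rw [Finset.mem_map] at ht
      obtain ⟨t', -, rfl⟩ := ht
      exact (hmemT' t'.1).mp t'.2)
    rw [Finset.card_map, hS] at h1
    omega
  have hcardT' : Nat.card T' ≤ p := by
    haveI := Fintype.ofFinite T'
    have h1 := hT ((Finset.univ : Finset T').map ⟨Subtype.val, Subtype.val_injective⟩) (by
      intro t ht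
      rw [Finset.mem_map] at ht
      obtain ⟨t', -, rfl⟩ := ht
      exact (hmemT' t'.1).mp t'.2)
    rw [Finset.card_map, Finset.card_univ] at h1
    rwa [Nat.card_eq_fintype_card]
  -- additivity in `x`
  let Bw : W → X →+ T := fun w => AddMonoidHom.mk' (fun x => B x w) (fun x x' => hBl x x' w)
  have hBp : ∀ x w, p • B x w = 0 := fun x w => by
    have := map_nsmul (Bw w) p x
    rw [hX, map_zero] at this
    exact this.symm
  have hB1 : ∀ x, B x 1 = 0 := by
    intro x
    have := hBr x 1 1
    rw [mul_one] at this
    exact left_eq_add.mp this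
  let β : W → X →+ T' := fun w =>
    (Bw w).codRestrict T' (fun x => (hmemT' _).mpr (hBp x w))
  let φ' : X →+ T' := φ.codRestrict T' (fun x => (hmemT' _).mpr (by
    rw [← map_nsmul, hX, map_zero]))
  obtain ⟨w, hw⟩ := @exists_eq_of_separating_aux p _ X W T' _ (AddCommGroup.zmodModule hX) _ _
    (AddCommGroup.zmodModule hT') hfinT' hcardT' β
    (by ext x; exact hB1 x) (fun w w' => by ext x; exact hBr x w w') hfin
    (fun x hx => hL x fun w => congrArg Subtype.val (hx w)) φ'
  refine ⟨w, fun x => ?_⟩
  have := congrArg (fun f => ((f x : T') : T)) hw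
  exact this.symm

end Group

end Fermat.Agent.S55lib.LocalUnr
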