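/-
S55 library, block (K2) local reciprocity mod `p` (helper3).  **(CF4) for the local class formation
`(Gal(Ω/K₀), Ωˣ)`, in helper8's `CFData` form** (`CFDual/Hyp.lean`), for an arbitrary basis `𝒰` with
`[IsGalBasis K₀ Ω 𝒰]`.

* `exists_baseRep_eq` : `(Ωˣ)^{Gal(Ω/E)} = Eˣ` (the open subgroups are the `Gal(Ω/E)`:
  `exists_eq_fixingSubgroup_of_isOpen` in `Formation.lean`);
* `constHom_bock_charClass` : `c_*(Bock χ) = c ∪ δχ` (`smCup`);
* **`cf4_inj_local`** : (CF4, injectivity), for `V` open with `μ_p ⊂ Ω^V`, no further hypothesis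
  (`K₀` a normed local field, `Ω` with `p`-th roots);
* `exists_level_of_finset`, `card_torsion_Hsm_le` : `|H²_sm(V, Ωˣ)[p]| ≤ p` from the finite levels;
  `nsmul_Hsm_trivFp`;
* **`cf4_surj_local`** : (CF4, surjectivity), from two inputs: `(Eˣ : (Eˣ)^p) < ∞` and
  `|H²(Gal(F/E), Fˣ)[p]| ≤ p` at finite levels.
-/
import Mathlib
import Fermat.Agent.S55lib.LocalUnr.BockSymbol
import Fermat.Agent.S55lib.LocalUnr.Counting

set_option autoImplicit false
set_option linter.unusedSectionVars false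
set_option linter.style.haveILetI false

noncomputable section

namespace Fermat.Agent.S55lib.LocalUnr

open groupCohomology Fermat.Agent.S55lib Fermat.Agent.S55lib.Recip Fermat.Agent.S55lib.CFDual

section OpenSub

variable {K₀ Ω : Type} [Field K₀] [Field Ω] [Algebra K₀ Ω] [IsGalois K₀ Ω]

/-- the `Gal(Ω/E)`-invariants of `Ωˣ` are `Eˣ` -/
theorem exists_baseRep_eq (E : IntermediateField K₀ Ω) (c : unitsRep K₀ Ω)
    (hc : ∀ v ∈ E.fixingSubgroup, (unitsRep K₀ Ω).ρ v c = c) :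
    ∃ c₀ : (↥E)ˣ, baseRep E c₀ = c := by
  have hmem : ((uVal c : Ωˣ) : Ω) ∈ E := by
    apply mem_of_fixed E
    intro v hv
    have := congrArg (fun a => ((uVal (K := K₀) (L := Ω) a : Ωˣ) : Ω)) (hc v hv)
    exact this
  have hne : (⟨((uVal c : Ωˣ) : Ω), hmem⟩ : ↥E) ≠ 0 := by
    intro h0
    exact (Units.ne_zero (uVal c)) (congrArg Subtype.val h0)
  refine ⟨Units.mk0 _ hne, ?_⟩
  refine Eq.trans ?_ (uRep_uVal c)
  refine congrArg (uRep K₀) (Units.ext ?_)
  rfl

end OpenSub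

section Pairing

variable {K₀ Ω : Type} [Field K₀] [Field Ω] [Algebra K₀ Ω] [IsGalois K₀ Ω]
  (E : IntermediateField K₀ Ω) [FiniteDimensional K₀ E] {p : ℕ} [Fact p.Prime]

/-- invariance of `baseRep E c` in helper8's form -/
theorem baseRep_invariant' (c : (↥E)ˣ) :
    ∀ v ∈ E.fixingSubgroup, (unitsRep K₀ Ω).ρ v (baseRep E c) = baseRep E c :=
  fun v hv => baseRep_invariant E c ⟨v, hv⟩

variable [GalBasis K₀ Ω]

/-- **`c_*(Bock χ)` for `c ∈ Eˣ` is the smooth symbol `c ∪ δχ`.** -/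
theorem constHom_bock_charClass (c : unitsRep K₀ Ω)
    (hc : ∀ v ∈ E.fixingSubgroup, (unitsRep K₀ Ω).ρ v c = c)
    {χ : ↥E.fixingSubgroup → ZMod p} (hχ : IsSmChar (subBasis E) χ) :
    (Csm.map (subBasis E) (constHom E.fixingSubgroup (unitsRep K₀ Ω) c hc)).mapH 2
        (bock p (subBasis E) (charClass hχ)) =
      smCup hχ (A := subRep E) (a := c) (fun g => hc g.1 g.2) := by
  have h1 : (constHom E.fixingSubgroup (unitsRep K₀ Ω) c hc).hom (1 : ℤ) = c :=
    constHom_apply_one _ _ _ _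
  have ha : ∀ g, (subRep E).ρ g ((constHom E.fixingSubgroup (unitsRep K₀ Ω) c hc).hom (1 : ℤ)) =
      (constHom E.fixingSubgroup (unitsRep K₀ Ω) c hc).hom (1 : ℤ) := by
    intro g
    rw [h1]
    exact hc g.1 g.2
  rw [map_bock_charClass (constHom E.fixingSubgroup (unitsRep K₀ Ω) c hc) hχ ha]
  exact smCup_congr rfl hχ hχ h1 ha _

end Pairing

section Torsion

variable {K₀ Ω : Type} [Field K₀] [Field Ω] [Algebra K₀ Ω] [IsGalois K₀ Ω] [GalBasis K₀ Ω]
  (E : IntermediateField K₀ Ω) [FiniteDimensional K₀ E] {p : ℕ}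

/-- finitely many smooth classes come from one finite level -/
theorem exists_level_of_finset {n : ℕ} (S : Finset (Hsm (subBasis E) (subRep E) n)) :
    ∃ F : FiniteGaloisIntermediateField E Ω, ∀ t ∈ S,
      ∃ y : groupCohomology (Rep.ofAlgebraAutOnUnits E F.toIntermediateField) n,
        inflH E F.toIntermediateField n y = t := by
  classical
  induction S using Finset.induction_on with
  | empty => exact ⟨⊥, fun t ht => absurd ht (Finset.notMem_empty t)⟩
  | insert a S _ ih =>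
    obtain ⟨F₁, hF₁⟩ := ih
    obtain ⟨F, hle, y, hy⟩ := exists_inflH_eq E F₁ a
    refine ⟨F, fun t ht => ?_⟩
    rcases Finset.mem_insert.mp ht with rfl | ht
    · exact ⟨y, hy⟩
    · obtain ⟨y₁, hy₁⟩ := hF₁ t ht
      letI := towerAlgebra E F₁.toIntermediateField F.toIntermediateField hle
      haveI := tower_isScalarTower E F₁.toIntermediateField F.toIntermediateField hle
      exact ⟨LocalH.galInf E F₁.toIntermediateField F.toIntermediateField n y₁, by
        rw [inflH_galInf E F₁.toIntermediateField F.toIntermediateField hle, hy₁]⟩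

/-- **The `p`-torsion of `H²_sm(Gal(Ω/E), Ωˣ)` is bounded by the `p`-torsion at finite levels.** -/
theorem card_torsion_Hsm_le
    (hlev : ∀ (F : FiniteGaloisIntermediateField E Ω)
      (S : Finset (groupCohomology (Rep.ofAlgebraAutOnUnits E F.toIntermediateField) 2)),
      (∀ y ∈ S, p • y = 0) → S.card ≤ p)
    (S : Finset (Hsm (subBasis E) (subRep E) 2)) (hS : ∀ t ∈ S, p • t = 0) : S.card ≤ p := by
  classical
  obtain ⟨F, hF⟩ := exists_level_of_finset E S
  choose! f hf using hF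
  have hinj : Set.InjOn f (S : Set _) := by
    intro t ht t' ht' h
    rw [← hf t ht, ← hf t' ht', h]
  have h1 := hlev F (S.image f) (by
    intro y hy
    obtain ⟨t, ht, rfl⟩ := Finset.mem_image.mp hy
    apply inflH_two_inj E F
    rw [map_nsmul, hf t ht, hS t ht, map_zero])
  rwa [Finset.card_image_of_injOn hinj] at h1

end Torsion

section TrivFp

variable {H : Type} [Group H] (𝒱 : OpenBasis H) {p : ℕ} [Fact p.Prime]

/-- `H^n_sm(H, 𝔽_p)` is killed by `p` -/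
theorem nsmul_Hsm_trivFp {n : ℕ} (x : Hsm 𝒱 (trivFp p H) n) : p • x = 0 := by
  obtain ⟨z, hz, rfl⟩ := (Csm 𝒱 (trivFp p H)).exists_rep x
  have h0 : p • z = 0 := by
    apply Subtype.ext
    funext g
    show p • (z.1 g : ZMod p) = 0
    rw [nsmul_eq_mul, ZMod.natCast_self, zero_mul]
  unfold Cpx.cl
  rw [← map_nsmul]
  have : p • (⟨z, (Csm 𝒱 (trivFp p H)).mem_Z.2 hz⟩ : (Csm 𝒱 (trivFp p H)).Z n) = 0 :=
    Subtype.ext h0
  rw [this, map_zero]

end TrivFp

section CF4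

variable {K₀ Ω : Type} [NontriviallyNormedField K₀] [ProperSpace K₀] [NormedField Ω]
  [NormedAlgebra K₀ Ω] [IsUltrametricDist Ω] [IsGalois K₀ Ω]
  (𝒰 : OpenBasis (Ω ≃ₐ[K₀] Ω)) [IsGalBasis K₀ Ω 𝒰] {p : ℕ} [Fact p.Prime]

/-- **(CF4, injectivity) for the local formation**, in helper8's `CFData` form: `V` open with
`μ_p ⊂ Ω^V`; if `c_*(Bock χ) = 0` for all `χ ∈ H¹(V, 𝔽_p)` then `c ∈ p C^V`. -/
theorem cf4_inj_local (hroot : ∀ x : Ω, ∃ y : Ω, y ^ p = x) {ζ : Ω} (hζ : IsPrimitiveRoot ζ p)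
    (V : Subgroup (Ω ≃ₐ[K₀] Ω)) (hV : 𝒰.IsOpen V) (hζV : ∀ v ∈ V, v ζ = ζ)
    (c : unitsRep K₀ Ω) (hc : ∀ v ∈ V, (unitsRep K₀ Ω).ρ v c = c)
    (h : ∀ χ : Hsm (𝒰.comap V.subtype) (trivFp p V) 1,
      (Csm.map (𝒰.comap V.subtype) (constHom V (unitsRep K₀ Ω) c hc)).mapH 2
        (bock p (𝒰.comap V.subtype) χ) = 0) :
    ∃ c' : unitsRep K₀ Ω, (∀ v ∈ V, (unitsRep K₀ Ω).ρ v c' = c') ∧ p • c' = c := by
  have hp : p.Prime := Fact.out
  obtain ⟨E, hfd, rfl⟩ := exists_eq_fixingSubgroup_of_isOpen 𝒰 hV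
  letI : GalBasis K₀ Ω := GalBasis.of K₀ Ω 𝒰
  -- `ζ ∈ E`
  have hζE : ζ ∈ E := mem_of_fixed E hζV
  have hζ0 : (⟨ζ, hζE⟩ : ↥E) ≠ 0 := by
    intro h0
    exact (hζ.ne_zero hp.ne_zero) (congrArg Subtype.val h0)
  have hζ' : IsPrimitiveRoot (Units.mk0 (⟨ζ, hζE⟩ : ↥E) hζ0) p := by
    rw [← IsPrimitiveRoot.coe_units_iff]
    exact IsPrimitiveRoot.of_map_of_injective (f := algebraMap (↥E) Ω) hζ
      (algebraMap (↥E) Ω).injective
  obtain ⟨c₀, rfl⟩ := exists_baseRep_eq E c hc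
  -- `c₀` is a `p`-th power
  have hpow : ∃ t : (↥E)ˣ, t ^ p = c₀ := by
    by_contra hcon
    push Not at hcon
    obtain ⟨χ, hχ, hne⟩ := exists_smCup_ne_zero_right E hroot hζ' hcon
    apply hne
    exact (constHom_bock_charClass E _ hc hχ).symm.trans (h (charClass hχ))
  obtain ⟨t, rfl⟩ := hpow
  refine ⟨baseRep E t, baseRep_invariant' E t, ?_⟩
  unfold baseRep
  rw [baseUnit_pow, uRep_pow]

/-- **(CF4, surjectivity) for the local formation**, in helper8's `CFData` form, under the two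
inputs: finiteness of `Eˣ/(Eˣ)^p` and `|H²(Gal(F/E), Fˣ)[p]| ≤ p` at finite levels. -/
theorem cf4_surj_local
    (hfin : ∀ (E : IntermediateField K₀ Ω) [FiniteDimensional K₀ E],
      (powMonoidHom p : (↥E)ˣ →* (↥E)ˣ).range.FiniteIndex)
    (hlev : ∀ (E : IntermediateField K₀ Ω) [FiniteDimensional K₀ E]
      (F : FiniteGaloisIntermediateField E Ω)
      (S : Finset (groupCohomology (Rep.ofAlgebraAutOnUnits E F.toIntermediateField) 2)),
      (∀ y ∈ S, p • y = 0) → S.card ≤ p)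
    (V : Subgroup (Ω ≃ₐ[K₀] Ω)) (hV : 𝒰.IsOpen V)
    (φ : Hsm (𝒰.comap V.subtype) (trivFp p V) 1 →+
      Hsm (𝒰.comap V.subtype) (Rep.res V.subtype (unitsRep K₀ Ω)) 2) :
    ∃ (c : unitsRep K₀ Ω) (hc : ∀ v ∈ V, (unitsRep K₀ Ω).ρ v c = c), ∀ χ,
      (Csm.map (𝒰.comap V.subtype) (constHom V (unitsRep K₀ Ω) c hc)).mapH 2
        (bock p (𝒰.comap V.subtype) χ) = φ χ := by
  obtain ⟨E, hfd, rfl⟩ := exists_eq_fixingSubgroup_of_isOpen 𝒰 hV
  letI : GalBasis K₀ Ω := GalBasis.of K₀ Ω 𝒰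
  let B : Hsm (subBasis E) (trivFp p ↥E.fixingSubgroup) 1 → (↥E)ˣ →
      Hsm (subBasis E) (subRep E) 2 := fun x w =>
    (Csm.map (subBasis E) (constHom E.fixingSubgroup (unitsRep K₀ Ω) (baseRep E w)
      (baseRep_invariant' E w))).mapH 2 (bock p (subBasis E) x)
  have hB : ∀ {χ : ↥E.fixingSubgroup → ZMod p} (hχ : IsSmChar (subBasis E) χ) (w : (↥E)ˣ),
      B (charClass hχ) w = smCup hχ (baseRep_invariant E w) := fun hχ w =>
    constHom_bock_charClass E _ (baseRep_invariant' E w) hχ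
  obtain ⟨w, hw⟩ := exists_eq_pairing_of_separating (p := p) B
    (fun x x' w => by simp only [B, map_add])
    (fun x w w' => by
      obtain ⟨χ, hχ, rfl⟩ := exists_charClass_eq x
      rw [hB, hB, hB, ← smCup_add_right]
      exact smCup_congr rfl _ _ (by unfold baseRep; rw [baseUnit_mul, uRep_mul]) _ _)
    (nsmul_Hsm_trivFp (subBasis E))
    (hfin E)
    (card_torsion_Hsm_le E (hlev E))
    (fun x hx => by
      obtain ⟨χ, hχ, rfl⟩ := exists_charClass_eq x
      rw [charClass_eq_zero_iff]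
      by_contra hne
      have hne' : ∃ g, χ g ≠ 0 := by
        by_contra hcon
        push Not at hcon
        exact hne (funext hcon)
      obtain ⟨c, hc⟩ := exists_smCup_ne_zero_left E hχ hne'
      apply hc
      rw [← hB]
      exact hx c)
    φ
  exact ⟨baseRep E w, baseRep_invariant' E w, fun χ => (hw χ).symm⟩

end CF4

end Fermat.Agent.S55lib.LocalUnr
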