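/-
S55 library, global reciprocity mod `p` (helper3).  **The cup criterion in smooth form**:
for an abstract formation `(G, 𝒰, C)`, subgroups `W ≤ V ≤ G`, a smooth character `χ : V → ZMod p`
with kernel `W`, `σ ∈ V` with `χ σ = 1` and a `V`-invariant `c ∈ C`:

if `H¹_sm(W, C)` has no `p`-torsion (CF1 at `W`) and `c ∪ δχ = 0` in `H²_sm(V, C)`, then
`c = ∑_{i<p} σ^i x` for a `W`-invariant `x` (`c` is a norm from `C^W`).

No finite-level dictionary is needed: a smooth 1-cocycle is inflated from a finite quotient, hence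
its class is killed by the index of a basic open subgroup (`exists_nsmul_eq_coboundary`).
-/
import Mathlib
import Fermat.Agent.S55lib.LocalUnr.BockSymbol

set_option autoImplicit false
set_option linter.unusedSectionVars false
set_option linter.style.haveILetI false

noncomputable section

namespace Fermat.Agent.S55lib.LocalUnr

open groupCohomology Fermat.Agent.S55lib Fermat.Agent.S55lib.Recip Fermat.Agent.S55lib.CFDual

/-! ### The raw computation -/

section Raw

variable {H : Type} [Group H] {A : Rep.{0} ℤ H} {p : ℕ} [Fact p.Prime]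

/-- values of an additive character on powers -/
theorem char_pow {χ : H → ZMod p} (hadd : ∀ g h, χ (g * h) = χ g + χ h) {σ : H} (hσ : χ σ = 1)
    (i : ℕ) : χ (σ ^ i) = (i : ZMod p) := by
  induction i with
  | zero =>
    have := hadd 1 1
    rw [mul_one] at this
    rw [pow_zero, Nat.cast_zero]
    exact left_eq_add.mp this
  | succ i ih => rw [pow_succ, hadd, ih, hσ, Nat.cast_succ]

/-- **Raw norm computation.**  If `d f = carry(χ, χ) • c` and `f` vanishes on `ker χ`, then `f σ` is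
`ker χ`-invariant and `c = ∑_{i<p} σ^i (f σ)`. -/
theorem raw_norm_of_cup {χ : H → ZMod p} (hadd : ∀ g h, χ (g * h) = χ g + χ h) {σ : H}
    (hσ : χ σ = 1) (c : A) (f : H → A)
    (hf : ∀ g h, A.ρ g (f h) - f (g * h) + f g = carry (χ g) (χ h) • c)
    (hker : ∀ w, χ w = 0 → f w = 0) :
    (∀ w, χ w = 0 → A.ρ w (f σ) = f σ) ∧
      c = ∑ i ∈ Finset.range p, A.ρ (σ ^ i) (f σ) := by
  have hp : p.Prime := Fact.out
  have hχ1 : χ 1 = 0 := by
    have := hadd 1 1
    rw [mul_one] at this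
    exact left_eq_add.mp this
  -- right invariance under the kernel
  have hR : ∀ g h, χ h = 0 → f (g * h) = f g := by
    intro g h hh
    have := hf g h
    rw [hh, carry_zero_right, zero_smul, hker h hh, map_zero, zero_sub, neg_add_eq_zero] at this
    exact this
  -- values are invariant under the kernel
  have hI : ∀ w h, χ w = 0 → A.ρ w (f h) = f h := by
    intro w h hw
    have h1 := hf w h
    rw [hw, carry_zero_left, zero_smul, hker w hw, add_zero, sub_eq_zero] at h1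
    have h2 : w * h = h * (h⁻¹ * w * h) := by group
    have h3 : χ (h⁻¹ * w * h) = 0 := by
      have h4 : χ (h⁻¹ * h) = 0 := by rw [inv_mul_cancel, hχ1]
      rw [hadd] at h4
      rw [hadd, hadd, hw, add_zero, h4]
    rw [h1, h2, hR h _ h3]
  refine ⟨fun w hw => hI w σ hw, ?_⟩
  -- the values on powers of `σ`
  have hstep : ∀ i, i + 1 < p → f (σ ^ (i + 1)) = A.ρ σ (f (σ ^ i)) + f σ := by
    intro i hi
    have h1 := hf σ (σ ^ i)
    rw [hσ, char_pow hadd hσ, carry_comm, carry_natCast_one hp.two_le i (by omega),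
      if_neg (by omega), zero_smul, ← pow_succ'] at h1
    have h2 : A.ρ σ (f (σ ^ i)) + f σ - f (σ ^ (i + 1)) = 0 := by rw [← h1]; abel
    exact (sub_eq_zero.1 h2).symm
  have hpow : ∀ i, i < p → f (σ ^ i) = ∑ j ∈ Finset.range i, A.ρ (σ ^ j) (f σ) := by
    intro i
    induction i with
    | zero =>
      intro _
      rw [pow_zero, Finset.sum_range_zero]
      exact hker 1 hχ1
    | succ i ih =>
      intro hi
      rw [hstep i hi, ih (by omega), map_sum, Finset.sum_range_succ']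
      congr 1
      · refine Finset.sum_congr rfl fun j _ => ?_
        rw [pow_succ', map_mul]
        rfl
      · rw [pow_zero, map_one]
        rfl
  -- the last step
  obtain ⟨k, rfl⟩ : ∃ k, p = k + 1 := ⟨p - 1, by have := hp.pos; omega⟩
  have h1 := hf σ (σ ^ k)
  rw [hσ, char_pow hadd hσ, carry_comm, carry_natCast_one hp.two_le k (by omega),
    if_pos (by omega), one_smul, ← pow_succ'] at h1
  have h2 : f (σ ^ (k + 1)) = 0 := by
    apply hker
    rw [char_pow hadd hσ]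
    exact ZMod.natCast_self (k + 1)
  rw [h2, sub_zero, hpow k (by omega), map_sum] at h1
  rw [← h1, Finset.sum_range_succ']
  congr 1
  · refine Finset.sum_congr rfl fun j _ => ?_
    rw [pow_succ', map_mul]
    rfl
  · rw [pow_zero, map_one]
    rfl

end Raw

/-! ### Smooth 1-cocycles are torsion -/

section Torsion

variable {H : Type} [Group H] (𝒱 : OpenBasis H) (A : Rep.{0} ℤ H)

/-- **A smooth 1-cocycle is killed by the index of a basic open subgroup**, up to an explicit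
smooth coboundary. -/
theorem exists_nsmul_eq_coboundary (f : H → A) (hsm : Csm.IsSm₁ 𝒱 A f)
    (hcoc : ∀ g h, f (g * h) = A.ρ g (f h) + f g) :
    ∃ n : ℕ, n ≠ 0 ∧ ∃ b : A, Csm.IsSm₀ 𝒱 A b ∧ ∀ g, n • f g = A.ρ g b - b := by
  classical
  obtain ⟨U, hU, h1, h2⟩ := hsm
  haveI := 𝒱.normal U hU
  haveI := 𝒱.finiteIndex U hU
  letI : Fintype (H ⧸ U) := Subgroup.fintypeQuotientOfFiniteIndex
  -- `f` factors through `H ⧸ U`
  let fbar : H ⧸ U → A := Quotient.lift f (by
    intro g g' hgg'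
    have h3 : g⁻¹ * g' ∈ U := QuotientGroup.leftRel_apply.mp hgg'
    have h4 : g' = g * (g⁻¹ * g') := by group
    rw [h4, h1 g _ h3])
  have hfbar : ∀ g : H, fbar (g : H ⧸ U) = f g := fun g => rfl
  set T : A := ∑ x : H ⧸ U, fbar x with hT
  have hkey : ∀ g : H, T = A.ρ g T + Fintype.card (H ⧸ U) • f g := by
    intro g
    have h3 : ∑ x : H ⧸ U, fbar ((g : H ⧸ U) * x) = T :=
      Equiv.sum_comp (Equiv.mulLeft (g : H ⧸ U)) fbar
    have h4 : ∀ x : H ⧸ U, fbar ((g : H ⧸ U) * x) = A.ρ g (fbar x) + f g := by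
      intro x
      induction x using QuotientGroup.induction_on with
      | H h =>
        rw [← QuotientGroup.mk_mul, hfbar, hfbar, hcoc]
    calc T = ∑ x : H ⧸ U, fbar ((g : H ⧸ U) * x) := h3.symm
      _ = ∑ x : H ⧸ U, (A.ρ g (fbar x) + f g) := Finset.sum_congr rfl (fun x _ => h4 x)
      _ = A.ρ g T + Fintype.card (H ⧸ U) • f g := by
        rw [Finset.sum_add_distrib, ← map_sum, Finset.sum_const, Finset.card_univ]
  refine ⟨Fintype.card (H ⧸ U), Fintype.card_ne_zero, -T, ⟨U, hU, fun s hs => ?_⟩, fun g => ?_⟩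
  · rw [map_neg, hT, map_sum]
    congr 1
    refine Finset.sum_congr rfl fun x _ => ?_
    induction x using QuotientGroup.induction_on with
    | H h => exact h2 h s hs
  · have h5 : Fintype.card (H ⧸ U) • f g = T - A.ρ g T := by
      rw [eq_sub_iff_add_eq']
      exact (hkey g).symm
    rw [map_neg, h5]
    abel

/-- `cl` commutes with `ℕ`-multiples -/
theorem cl_nsmul {k : Type} [CommRing k] (K : Cpx k) {n : ℕ} (m : ℕ) {x : K.X n}
    (hx : K.d n x = 0) :
    K.cl (m • x) (by rw [map_nsmul, hx, smul_zero]) = m • K.cl x hx := by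
  unfold Cpx.cl
  exact (map_nsmul (K.cls n) m ⟨x, K.mem_Z.2 hx⟩).symm

/-- every class of `H¹_sm` is torsion -/
theorem exists_nsmul_Hsm_one_eq_zero (y : Hsm 𝒱 A 1) : ∃ n : ℕ, n ≠ 0 ∧ n • y = 0 := by
  obtain ⟨x, hx, rfl⟩ := (Csm 𝒱 A).exists_rep y
  obtain ⟨n, hn, b, hb, hnb⟩ := exists_nsmul_eq_coboundary 𝒱 A (Csm.fn₁ x) (Csm.isSm₁_fn₁ x)
    ((Csm.d_one_eq_zero_iff x).1 hx)
  refine ⟨n, hn, ?_⟩
  rw [← cl_nsmul, Cpx.cl_eq_zero_iff, Cpx.mem_B_succ]
  refine ⟨Csm.mk₀ b hb, Csm.ext₁ ?_⟩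
  funext g
  rw [Csm.fn₁_d, Csm.fn₀_mk₀, ← hnb g]
  rfl

/-- if `H¹_sm` has no `p`-torsion, every class is killed by an integer prime to `p` -/
theorem exists_nsmul_Hsm_one_eq_zero_of_torsionFree {p : ℕ} [Fact p.Prime]
    (h1 : ∀ x : Hsm 𝒱 A 1, p • x = 0 → x = 0) (y : Hsm 𝒱 A 1) :
    ∃ m : ℕ, ¬ p ∣ m ∧ m • y = 0 := by
  have hp : p.Prime := Fact.out
  obtain ⟨n, hn, hny⟩ := exists_nsmul_Hsm_one_eq_zero 𝒱 A y
  obtain ⟨a, m, hm, rfl⟩ := Nat.exists_eq_pow_mul_and_not_dvd hn p hp.ne_one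
  refine ⟨m, hm, ?_⟩
  clear hn
  induction a with
  | zero => rwa [pow_zero, one_mul] at hny
  | succ a ih =>
    apply ih
    apply h1
    rw [← mul_smul, ← mul_assoc, ← pow_succ']
    exact hny

end Torsion

/-! ### The cup criterion -/

section Criterion

variable {G : Type} [Group G] (𝒰 : OpenBasis G) (C : Rep.{0} ℤ G) {p : ℕ} [Fact p.Prime]

/-- **The cup criterion in smooth form.**  `W = ker χ ≤ V`, `χ σ = 1`, `c ∈ C^V`; if `H¹_sm(W, C)`
has no `p`-torsion and `c ∪ δχ = 0` in `H²_sm(V, C)`, then `c` is a norm from `C^W`. -/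
theorem exists_norm_of_smCup_eq_zero (V W : Subgroup G) (hWV : W ≤ V)
    {χ : V → ZMod p} (hχ : IsSmChar (𝒰.comap V.subtype) χ)
    (hker : ∀ v : V, χ v = 0 ↔ (v : G) ∈ W) (σ : V) (hσ : χ σ = 1) (c : C)
    (hc : ∀ v : V, (Rep.res V.subtype C).ρ v c = c)
    (h1 : ∀ x : Hsm (𝒰.comap W.subtype) (Rep.res W.subtype C) 1, p • x = 0 → x = 0)
    (h0 : smCup (𝒰 := 𝒰.comap V.subtype) (A := Rep.res V.subtype C) hχ hc = 0) :
    ∃ x : C, (∀ w ∈ W, C.ρ w x = x) ∧ c = ∑ i ∈ Finset.range p, C.ρ ((σ : G) ^ i) x := by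
  have hp : p.Prime := Fact.out
  -- a smooth cochain `f` with `d f = carry • c`
  unfold smCup at h0
  rw [Cpx.cl_eq_zero_iff, Cpx.mem_B_succ] at h0
  obtain ⟨f₀, hf₀⟩ := h0
  set f : V → C := Csm.fn₁ f₀ with hfdef
  have hf : ∀ g h : V, C.ρ (g : G) (f h) - f (g * h) + f g = carry (χ g) (χ h) • c := by
    intro g h
    have h2 := Csm.fn₂_d f₀ g h
    rw [hf₀, fn₂_smCupCochain] at h2
    exact h2.symm
  obtain ⟨U₁, hU₁, hf1, hf2⟩ := Csm.isSm₁_fn₁ f₀
  obtain ⟨U, hU, rfl⟩ := hU₁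
  -- the restriction of `f` to `W`
  let fW : W → C := fun w => f ⟨w.1, hWV w.2⟩
  have hfW : Csm.IsSm₁ (𝒰.comap W.subtype) (Rep.res W.subtype C) fW := by
    refine ⟨U.comap W.subtype, ⟨U, hU, rfl⟩, fun g s hs => ?_, fun g s hs => ?_⟩
    · exact hf1 ⟨g.1, hWV g.2⟩ ⟨s.1, hWV s.2⟩ hs
    · exact hf2 ⟨g.1, hWV g.2⟩ ⟨s.1, hWV s.2⟩ hs
  have hχW : ∀ w : W, χ ⟨w.1, hWV w.2⟩ = 0 := fun w => (hker _).2 w.2
  have hcocW : ∀ g h : W, fW (g * h) = (Rep.res W.subtype C).ρ g (fW h) + fW g := by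
    intro g h
    have h2 := hf ⟨g.1, hWV g.2⟩ ⟨h.1, hWV h.2⟩
    rw [hχW g, carry_zero_left, zero_smul] at h2
    have h3 : C.ρ (g : G) (fW h) + fW g - fW (g * h) = 0 := by rw [← h2]; abel
    exact (sub_eq_zero.1 h3).symm
  -- its class is killed by some `m` prime to `p`
  have hdW : (Csm (𝒰.comap W.subtype) (Rep.res W.subtype C)).d 1 (Csm.mk₁ fW hfW) = 0 := by
    rw [Csm.d_one_eq_zero_iff]
    intro g h
    rw [Csm.fn₁_mk₁]
    exact hcocW g h
  obtain ⟨m, hm, hmy⟩ := exists_nsmul_Hsm_one_eq_zero_of_torsionFree (𝒰.comap W.subtype)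
    (Rep.res W.subtype C) h1
    ((Csm (𝒰.comap W.subtype) (Rep.res W.subtype C)).cl (Csm.mk₁ fW hfW) hdW)
  rw [← cl_nsmul, Cpx.cl_eq_zero_iff, Cpx.mem_B_succ] at hmy
  obtain ⟨b₀, hb₀⟩ := hmy
  set b : C := Csm.fn₀ (𝒰 := 𝒰.comap W.subtype) (A := Rep.res W.subtype C) b₀ with hbdef
  have hb : ∀ w : W, m • fW w = C.ρ (w : G) b - b := by
    intro w
    have h2 := congrArg (fun z => Csm.fn₁ z w) hb₀
    simp only [Csm.fn₁_d] at h2
    exact h2.symm
  -- correct `m • f` by the coboundary of `b`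
  let f' : V → C := fun g => m • f g - (C.ρ (g : G) b - b)
  have hf' : ∀ g h : V, (Rep.res V.subtype C).ρ g (f' h) - f' (g * h) + f' g =
      carry (χ g) (χ h) • (m • c) := by
    intro g h
    have h2 := hf g h
    have h3 : C.ρ ((g * h : V) : G) b = C.ρ (g : G) (C.ρ (h : G) b) := by
      rw [Subgroup.coe_mul, map_mul]; rfl
    change C.ρ (g : G) (m • f h - (C.ρ (h : G) b - b)) - (m • f (g * h) - (C.ρ ((g * h : V) : G) b - b))
      + (m • f g - (C.ρ (g : G) b - b)) = _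
    rw [smul_comm, ← h2, h3]
    simp only [map_sub, map_nsmul, smul_add, smul_sub]
    abel
  have hker' : ∀ w : V, χ w = 0 → f' w = 0 := by
    intro w hw
    have hwW : (w : G) ∈ W := (hker w).1 hw
    have := hb ⟨w.1, hwW⟩
    change m • f w - (C.ρ (w : G) b - b) = 0
    rw [sub_eq_zero]
    exact this
  obtain ⟨hinv, hnorm⟩ := raw_norm_of_cup (A := Rep.res V.subtype C) hχ.1 hσ (m • c) f' hf' hker'
  -- Bezout
  have hcop : IsCoprime (m : ℤ) (p : ℤ) := by
    rw [Int.isCoprime_iff_gcd_eq_one, Int.gcd_natCast_natCast]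
    exact (Nat.Coprime.symm ((Nat.Prime.coprime_iff_not_dvd hp).2 hm))
  obtain ⟨u, v, huv⟩ := hcop
  have hpc : p • c = ∑ i ∈ Finset.range p, C.ρ ((σ : G) ^ i) c := by
    have h2 : ∀ i ∈ Finset.range p, C.ρ ((σ : G) ^ i) c = c := fun i _ => hc (σ ^ i)
    rw [Finset.sum_congr rfl h2, Finset.sum_const, Finset.card_range]
  refine ⟨u • f' σ + v • c, fun w hw => ?_, ?_⟩
  · have h2 := hinv ⟨w, hWV hw⟩ ((hker _).2 hw)
    have h3 := hc ⟨w, hWV hw⟩
    change C.ρ w (f' σ) = f' σ at h2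
    change C.ρ w c = c at h3
    rw [map_add, map_zsmul, map_zsmul, h2, h3]
  · have h2 : ∀ i ∈ Finset.range p, C.ρ ((σ : G) ^ i) (u • f' σ + v • c) =
        u • C.ρ ((σ : G) ^ i) (f' σ) + v • C.ρ ((σ : G) ^ i) c := fun i _ => by
      rw [map_add, map_zsmul, map_zsmul]
    rw [Finset.sum_congr rfl h2, Finset.sum_add_distrib, ← Finset.smul_sum, ← Finset.smul_sum,
      ← hpc]
    have h3 : (∑ i ∈ Finset.range p, C.ρ ((σ : G) ^ i) (f' σ)) = m • c := by
      rw [hnorm]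
      refine Finset.sum_congr rfl fun i _ => ?_
      rfl
    rw [h3, ← Nat.cast_smul_eq_nsmul ℤ m, ← Nat.cast_smul_eq_nsmul ℤ p, ← mul_smul, ← mul_smul,
      ← add_smul, huv, one_smul]

end Criterion

end Fermat.Agent.S55lib.LocalUnr
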