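/-
S55 library, global reciprocity mod `p` (helper3).  **(CF4) from norm statements, for an abstract
formation `(G, 𝒰, C)`** — the assembly of helper8's `CFData.cf4_inj`, `CFData.cf4_surj` at an open
subgroup `V` from

* (CF1) `H¹_sm(W, C)` has no `p`-torsion for the open `W ≤ V`;
* (E) existence mod `p`: an invariant `c ∈ C^V` which is a norm from `C^{ker χ}` for every smooth
  character `χ : V → 𝔽_p` is in `p C^V`;
* (N) for every smooth `χ ≠ 0` some `c ∈ C^V` is not a norm from `C^{ker χ}`;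
* (F) `C^V / p` is finite;  (T) `H²_sm(V, C)[p]` has at most `p` elements.

Ingredients: the cup criterion `exists_norm_of_smCup_eq_zero` (`GCupNorm.lean`),
`map_bock_charClass` (`BockSymbol.lean`), the counting lemma (`Counting.lean`).
-/
import Mathlib
import Fermat.Agent.S55lib.LocalUnr.GCupNorm
import Fermat.Agent.S55lib.LocalUnr.CF4Local
import Fermat.Agent.S55lib.LocalUnr.GLayer

set_option autoImplicit false
set_option linter.unusedSectionVars false
set_option linter.style.haveILetI false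

noncomputable section

namespace Fermat.Agent.S55lib.LocalUnr

open groupCohomology Fermat.Agent.S55lib Fermat.Agent.S55lib.Recip Fermat.Agent.S55lib.CFDual

variable {G : Type} [Group G] (𝒰 : OpenBasis G) (C : Rep.{0} ℤ G) {p : ℕ} [Fact p.Prime]

/-- the kernel of an additive character of `V`, as a subgroup of `G` -/
def charKer (V : Subgroup G) (χ : V → ZMod p) (hadd : ∀ g h, χ (g * h) = χ g + χ h) :
    Subgroup G where
  carrier := {g | ∃ h : g ∈ V, χ ⟨g, h⟩ = 0}
  one_mem' := by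
    refine ⟨V.one_mem, ?_⟩
    have := hadd 1 1
    rw [mul_one] at this
    exact left_eq_add.mp this
  mul_mem' := by
    rintro g g' ⟨h, hg⟩ ⟨h', hg'⟩
    refine ⟨V.mul_mem h h', ?_⟩
    have := hadd ⟨g, h⟩ ⟨g', h'⟩
    rw [hg, hg', add_zero] at this
    exact this
  inv_mem' := by
    rintro g ⟨h, hg⟩
    refine ⟨V.inv_mem h, ?_⟩
    have h1 : χ 1 = 0 := by
      have := hadd 1 1
      rw [mul_one] at this
      exact left_eq_add.mp this
    have := hadd ⟨g⁻¹, V.inv_mem h⟩ ⟨g, h⟩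
    have h2 : (⟨g⁻¹, V.inv_mem h⟩ : V) * ⟨g, h⟩ = 1 := Subtype.ext (inv_mul_cancel g)
    rw [h2, h1, hg, add_zero] at this
    exact this.symm

variable {𝒰 C}

theorem mem_charKer_iff {V : Subgroup G} {χ : V → ZMod p} (hadd : ∀ g h, χ (g * h) = χ g + χ h)
    (v : V) : (v : G) ∈ charKer V χ hadd ↔ χ v = 0 :=
  ⟨fun ⟨_, h⟩ => h, fun h => ⟨v.2, h⟩⟩

theorem charKer_le {V : Subgroup G} {χ : V → ZMod p} (hadd : ∀ g h, χ (g * h) = χ g + χ h) :
    charKer V χ hadd ≤ V := fun _ ⟨h, _⟩ => h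

theorem isOpen_charKer {V : Subgroup G} (hV : 𝒰.IsOpen V) {χ : V → ZMod p}
    (hχ : IsSmChar (𝒰.comap V.subtype) χ) : 𝒰.IsOpen (charKer V χ hχ.1) := by
  obtain ⟨U₀, hU₀, hle₀⟩ := hV
  obtain ⟨_, ⟨U₁, hU₁, rfl⟩, h1⟩ := hχ.2
  obtain ⟨U, hU, hle⟩ := 𝒰.directed U₀ hU₀ U₁ hU₁
  refine ⟨U, hU, fun g hg => ⟨hle₀ ((hle hg).1), ?_⟩⟩
  exact h1 ⟨g, hle₀ ((hle hg).1)⟩ (hle hg).2

variable (𝒰 C)

/-- **`c_*(Bock χ)` is the smooth symbol `c ∪ δχ`** (general formation). -/
theorem constHom_bock_charClass_gen (V : Subgroup G) (c : C) (hc : ∀ v ∈ V, C.ρ v c = c)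
    {χ : V → ZMod p} (hχ : IsSmChar (𝒰.comap V.subtype) χ) :
    (Csm.map (𝒰.comap V.subtype) (constHom V C c hc)).mapH 2
        (bock p (𝒰.comap V.subtype) (charClass hχ)) =
      smCup hχ (A := Rep.res V.subtype C) (a := c) (fun g => hc g.1 g.2) := by
  have h1 : (constHom V C c hc).hom (1 : ℤ) = c := constHom_apply_one _ _ _ _
  have ha : ∀ g, (Rep.res V.subtype C).ρ g ((constHom V C c hc).hom (1 : ℤ)) =
      (constHom V C c hc).hom (1 : ℤ) := by
    intro g
    rw [h1]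
    exact hc g.1 g.2
  rw [map_bock_charClass (constHom V C c hc) hχ ha]
  exact smCup_congr rfl hχ hχ h1 ha _

/-- the cup criterion, for `W = ker χ` -/
theorem isNormFrom_of_smCup_eq_zero {V : Subgroup G} (hV : 𝒰.IsOpen V)
    (h1 : ∀ W : Subgroup G, 𝒰.IsOpen W → W ≤ V →
      ∀ x : Hsm (𝒰.comap W.subtype) (Rep.res W.subtype C) 1, p • x = 0 → x = 0)
    {χ : V → ZMod p} (hχ : IsSmChar (𝒰.comap V.subtype) χ) (σ : V) (hσ : χ σ = 1)
    (c : C) (hc : ∀ v ∈ V, C.ρ v c = c)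
    (h0 : smCup hχ (A := Rep.res V.subtype C) (a := c) (fun g => hc g.1 g.2) = 0) :
    IsNormFrom C (charKer V χ hχ.1) (σ : G) p c :=
  exists_norm_of_smCup_eq_zero 𝒰 C V (charKer V χ hχ.1) (charKer_le hχ.1) hχ
    (fun v => (mem_charKer_iff hχ.1 v).symm) σ hσ c (fun g => hc g.1 g.2)
    (h1 _ (isOpen_charKer hV hχ) (charKer_le hχ.1)) h0

/-- **(CF4, injectivity) from the existence theorem mod `p` (E).** -/
theorem cf4_inj_of_norm (V : Subgroup G) (hV : 𝒰.IsOpen V)
    (h1 : ∀ W : Subgroup G, 𝒰.IsOpen W → W ≤ V →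
      ∀ x : Hsm (𝒰.comap W.subtype) (Rep.res W.subtype C) 1, p • x = 0 → x = 0)
    (hE : ∀ c : C, (∀ v ∈ V, C.ρ v c = c) →
      (∀ (χ : V → ZMod p) (hχ : IsSmChar (𝒰.comap V.subtype) χ) (σ : V), χ σ = 1 →
        IsNormFrom C (charKer V χ hχ.1) (σ : G) p c) →
      ∃ c' : C, (∀ v ∈ V, C.ρ v c' = c') ∧ p • c' = c)
    (c : C) (hc : ∀ v ∈ V, C.ρ v c = c)
    (h : ∀ χ : Hsm (𝒰.comap V.subtype) (trivFp p V) 1,
      (Csm.map (𝒰.comap V.subtype) (constHom V C c hc)).mapH 2
        (bock p (𝒰.comap V.subtype) χ) = 0) :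
    ∃ c' : C, (∀ v ∈ V, C.ρ v c' = c') ∧ p • c' = c := by
  refine hE c hc fun χ hχ σ hσ => ?_
  refine isNormFrom_of_smCup_eq_zero 𝒰 C hV h1 hχ σ hσ c hc ?_
  rw [← constHom_bock_charClass_gen 𝒰 C V c hc hχ]
  exact h (charClass hχ)

/-- **(CF4, surjectivity) from (N), (F), (T).** -/
theorem cf4_surj_of_norm (V : Subgroup G) (hV : 𝒰.IsOpen V)
    (h1 : ∀ W : Subgroup G, 𝒰.IsOpen W → W ≤ V →
      ∀ x : Hsm (𝒰.comap W.subtype) (Rep.res W.subtype C) 1, p • x = 0 → x = 0)
    (hN : ∀ (χ : V → ZMod p) (hχ : IsSmChar (𝒰.comap V.subtype) χ) (σ : V), χ σ = 1 →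
      ∃ c : C, (∀ v ∈ V, C.ρ v c = c) ∧ ¬ IsNormFrom C (charKer V χ hχ.1) (σ : G) p c)
    (hF : ∃ T : Finset C, ∀ c : C, (∀ v ∈ V, C.ρ v c = c) →
      ∃ t ∈ T, ∃ c' : C, (∀ v ∈ V, C.ρ v c' = c') ∧ c = t + p • c')
    (hT : ∀ A : Finset (Hsm (𝒰.comap V.subtype) (Rep.res V.subtype C) 2),
      (∀ y ∈ A, p • y = 0) → A.card ≤ p)
    (φ : Hsm (𝒰.comap V.subtype) (trivFp p V) 1 →+
      Hsm (𝒰.comap V.subtype) (Rep.res V.subtype C) 2) :
    ∃ (c : C) (hc : ∀ v ∈ V, C.ρ v c = c), ∀ χ,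
      (Csm.map (𝒰.comap V.subtype) (constHom V C c hc)).mapH 2
        (bock p (𝒰.comap V.subtype) χ) = φ χ := by
  classical
  -- the invariants, as a multiplicative group
  let I : AddSubgroup C :=
    { carrier := {c | ∀ v ∈ V, C.ρ v c = c}
      zero_mem' := fun v _ => map_zero _
      add_mem' := fun {a b} ha hb v hv => by rw [map_add, ha v hv, hb v hv]
      neg_mem' := fun {a} ha v hv => by rw [map_neg, ha v hv] }
  have hI : ∀ c : C, c ∈ I ↔ ∀ v ∈ V, C.ρ v c = c := fun c => Iff.rfl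
  let B : Hsm (𝒰.comap V.subtype) (trivFp p V) 1 → Multiplicative I →
      Hsm (𝒰.comap V.subtype) (Rep.res V.subtype C) 2 := fun x w =>
    (Csm.map (𝒰.comap V.subtype) (constHom V C (w.toAdd : C) w.toAdd.2)).mapH 2
      (bock p (𝒰.comap V.subtype) x)
  have hB : ∀ {χ : V → ZMod p} (hχ : IsSmChar (𝒰.comap V.subtype) χ) (w : Multiplicative I),
      B (charClass hχ) w =
        smCup hχ (A := Rep.res V.subtype C) (a := (w.toAdd : C)) (fun g => w.toAdd.2 g.1 g.2) :=
    fun hχ w => constHom_bock_charClass_gen 𝒰 C V _ w.toAdd.2 hχ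
  -- finiteness of `I / p`
  have hfin : (powMonoidHom p : Multiplicative I →* Multiplicative I).range.FiniteIndex := by
    obtain ⟨T, hT'⟩ := hF
    let T' : Type := {t : C // t ∈ T ∧ t ∈ I}
    haveI : Finite T' := by
      have : Function.Injective (fun t : T' => (⟨t.1, t.2.1⟩ : T)) := fun a b h =>
        Subtype.ext (congrArg (fun z : T => (z : C)) h)
      exact Finite.of_injective _ this
    let f : T' → Multiplicative I ⧸ (powMonoidHom p : Multiplicative I →* Multiplicative I).range :=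
      fun t => QuotientGroup.mk (Multiplicative.ofAdd ⟨t.1, t.2.2⟩)
    have hf : Function.Surjective f := by
      intro y
      induction y using QuotientGroup.induction_on with
      | H w =>
        obtain ⟨t, ht, c', hc', hcw⟩ := hT' (w.toAdd : C) w.toAdd.2
        have htI : t ∈ I := by
          have : t = (w.toAdd : C) - p • c' := by rw [hcw]; abel
          rw [this]
          exact I.sub_mem w.toAdd.2 (I.nsmul_mem hc' p)
        refine ⟨⟨t, ht, htI⟩, ?_⟩
        rw [QuotientGroup.eq]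
        refine ⟨Multiplicative.ofAdd ⟨c', hc'⟩, ?_⟩
        apply Multiplicative.toAdd.injective
        apply Subtype.ext
        change p • c' = -t + (w.toAdd : C)
        rw [hcw]
        abel
    haveI : Finite (Multiplicative I ⧸
        (powMonoidHom p : Multiplicative I →* Multiplicative I).range) := Finite.of_surjective f hf
    exact Subgroup.finiteIndex_of_finite_quotient
  obtain ⟨w, hw⟩ := exists_eq_pairing_of_separating (p := p) B
    (fun x x' w => by simp only [B, map_add])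
    (fun x w w' => by
      obtain ⟨χ, hχ, rfl⟩ := exists_charClass_eq x
      rw [hB, hB, hB, ← smCup_add_right])
    (nsmul_Hsm_trivFp (𝒰.comap V.subtype))
    hfin hT
    (fun x hx => by
      obtain ⟨χ, hχ, rfl⟩ := exists_charClass_eq x
      rw [charClass_eq_zero_iff]
      by_contra hne
      have hne' : ∃ g, χ g ≠ 0 := by
        by_contra hcon
        push Not at hcon
        exact hne (funext hcon)
      obtain ⟨σ, hσ⟩ := exists_char_eq_one hχ.1 hne'
      obtain ⟨c, hc, hcn⟩ := hN χ hχ σ hσ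
      apply hcn
      refine isNormFrom_of_smCup_eq_zero 𝒰 C hV h1 hχ σ hσ c hc ?_
      have := hx (Multiplicative.ofAdd ⟨c, hc⟩)
      rw [hB] at this
      exact this)
    φ
  exact ⟨(w.toAdd : C), w.toAdd.2, fun χ => (hw χ).symm⟩

end Fermat.Agent.S55lib.LocalUnr
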