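/-
S55 library, global reciprocity mod `p` (helper3).  **(CF4) for the global class formation
`(G_ℚ, unrBasis S, CSfull S)`, in helper8's `CFData` form**, from

* (CF1) `H¹_sm(W, CSfull S)` has no `p`-torsion for the open `W ≤ U₀` (`hcf1`, = `CFData.cf1_inj`);
* the field-level inputs `EFieldStatement`, `NFieldStatement`, `FFieldStatement` (`GFieldForm.lean`);
* (T) `H²_sm(V, CSfull S)[p]` has at most `p` elements (`hT`).

`U₀` is any subgroup fixing a primitive `p`-th root of unity `ζ` (e.g. `Gal(ℚ̄/ℚ(ζ_p))`).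
-/
import Mathlib
import Fermat.Agent.S55lib.LocalUnr.GCF4Abs
import Fermat.Agent.S55lib.LocalUnr.GFieldForm
import Fermat.Agent.S55lib.Iface.ClassCompare

set_option autoImplicit false
set_option linter.unusedSectionVars false
set_option linter.style.haveILetI false

noncomputable section

namespace Fermat.Agent.S55lib.LocalUnr

open groupCohomology Fermat.Agent.S55lib Fermat.Agent.S55lib.Recip Fermat.Agent.S55lib.CFDual

variable (S : Finset Nat.Primes) {p : ℕ} [Fact p.Prime]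

/-- a layer `M/K` gives a smooth character of `Gal(ℚ̄/K)` with kernel `Gal(ℚ̄/M)` -/
theorem exists_smChar_of_layer {K M : FieldQ} (hM : M.IsUnramifiedOutside S)
    (h : IsFieldLayer p K M) :
    ∃ (χ : ↥K.fixingSubgroup → ZMod p)
      (hχ : IsSmChar ((unrBasis S).comap K.fixingSubgroup.subtype) χ) (σ : ↥K.fixingSubgroup),
      χ σ = 1 ∧ charKer K.fixingSubgroup χ hχ.1 = M.fixingSubgroup := by
  have hg := h.isGroupLayer
  haveI := hg.normal
  obtain ⟨χ, hadd, hker, σ, hσ⟩ := exists_char_of_normal_of_index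
    (M.fixingSubgroup.subgroupOf K.fixingSubgroup) hg.index
  obtain ⟨U, hU, hle⟩ := isOpen_fixingSubgroup_unr S hM
  have hχ : IsSmChar ((unrBasis S).comap K.fixingSubgroup.subtype) χ := by
    refine ⟨hadd, U.comap K.fixingSubgroup.subtype, ⟨U, hU, rfl⟩, fun s hs => ?_⟩
    rw [hker, Subgroup.mem_subgroupOf]
    exact hle hs
  refine ⟨χ, hχ, σ, hσ, ?_⟩
  ext g
  constructor
  · rintro ⟨hgK, hg0⟩
    have := (hker ⟨g, hgK⟩).1 hg0
    rwa [Subgroup.mem_subgroupOf] at this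
  · intro hgM
    have hgK : g ∈ K.fixingSubgroup := IntermediateField.fixingSubgroup_le hg.le hgM
    exact ⟨hgK, (hker ⟨g, hgK⟩).2 (Subgroup.mem_subgroupOf.2 hgM)⟩

/-- a smooth character `χ` with `χ σ = 1` gives a layer `M/K` with `Gal(ℚ̄/M) = ker χ` -/
theorem exists_layer_of_smChar {K : FieldQ} (hK : K.IsUnramifiedOutside S)
    {χ : ↥K.fixingSubgroup → ZMod p}
    (hχ : IsSmChar ((unrBasis S).comap K.fixingSubgroup.subtype) χ) {σ : ↥K.fixingSubgroup}
    (hσ : χ σ = 1) :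
    ∃ M : FieldQ, M.IsUnramifiedOutside S ∧ IsFieldLayer p K M ∧
      charKer K.fixingSubgroup χ hχ.1 = M.fixingSubgroup := by
  have hopen : (unrBasis S).IsOpen (charKer K.fixingSubgroup χ hχ.1) :=
    isOpen_charKer (isOpen_fixingSubgroup_unr S hK) hχ
  obtain ⟨M, hM, hMeq⟩ := exists_field_of_isOpen S hopen
  have hle : M.fixingSubgroup ≤ K.fixingSubgroup := by
    rw [← hMeq]
    exact charKer_le hχ.1
  have hKM : K ≤ M := le_of_fixingSubgroup_le hle
  have hsub : M.fixingSubgroup.subgroupOf K.fixingSubgroup = (charMulHom χ hχ.1).ker := by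
    ext g
    rw [Subgroup.mem_subgroupOf, mem_ker_charMulHom, ← hMeq, mem_charKer_iff]
  refine ⟨M, hM, IsGroupLayer.isFieldLayer ⟨hKM, ?_, ?_⟩, hMeq⟩
  · rw [hsub]
    exact MonoidHom.normal_ker _
  · rw [Subgroup.relIndex, hsub]
    exact index_ker_charMulHom hχ.1 hσ

variable {S}

/-- **(CF4, injectivity) for `(G_ℚ, unrBasis S, CSfull S)`.** -/
theorem cf4_inj_global (hE : EFieldStatement p S) (U₀ : Subgroup GQ) {ζ : Qbar}
    (hζ : IsPrimitiveRoot ζ p) (hU₀ : ∀ v ∈ U₀, v ζ = ζ)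
    (hcf1 : ∀ W : Subgroup GQ, (unrBasis S).IsOpen W → W ≤ U₀ →
      ∀ x : Hsm ((unrBasis S).comap W.subtype) (Rep.res W.subtype (CSfull S)) 1, p • x = 0 → x = 0)
    (V : Subgroup GQ) (hV : (unrBasis S).IsOpen V) (hVU : V ≤ U₀)
    (c : CSfull S) (hc : ∀ v ∈ V, (CSfull S).ρ v c = c)
    (h : ∀ χ : Hsm ((unrBasis S).comap V.subtype) (trivFp p V) 1,
      (Csm.map ((unrBasis S).comap V.subtype) (constHom V (CSfull S) c hc)).mapH 2
        (bock p ((unrBasis S).comap V.subtype) χ) = 0) :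
    ∃ c' : CSfull S, (∀ v ∈ V, (CSfull S).ρ v c' = c') ∧ p • c' = c := by
  obtain ⟨K, hK, rfl⟩ := exists_field_of_isOpen S hV
  have hζK : ζ ∈ K := mem_of_fixed_Qbar K fun v hv => hU₀ v (hVU hv)
  refine cf4_inj_of_norm (unrBasis S) (CSfull S) K.fixingSubgroup hV
    (fun W hW hWV => hcf1 W hW (hWV.trans hVU)) ?_ c hc h
  intro c hc hnorm
  refine hE K hK ⟨ζ, hζK, hζ⟩ c hc fun M hM hlayer => ?_
  obtain ⟨χ, hχ, σ, hσ, hker⟩ := exists_smChar_of_layer S hM hlayer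
  refine ⟨σ.1, σ.2, ?_, ?_⟩
  · intro hσM
    rw [← hker] at hσM
    have := (mem_charKer_iff hχ.1 σ).1 hσM
    rw [hσ] at this
    exact one_ne_zero this
  · rw [← hker]
    exact hnorm χ hχ σ hσ

/-- **(CF4, surjectivity) for `(G_ℚ, unrBasis S, CSfull S)`.** -/
theorem cf4_surj_global (hN : NFieldStatement p S) (hF : FFieldStatement p S) (U₀ : Subgroup GQ)
    {ζ : Qbar} (hζ : IsPrimitiveRoot ζ p) (hU₀ : ∀ v ∈ U₀, v ζ = ζ)
    (hcf1 : ∀ W : Subgroup GQ, (unrBasis S).IsOpen W → W ≤ U₀ →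
      ∀ x : Hsm ((unrBasis S).comap W.subtype) (Rep.res W.subtype (CSfull S)) 1, p • x = 0 → x = 0)
    (hT : ∀ V : Subgroup GQ, (unrBasis S).IsOpen V → V ≤ U₀ →
      ∀ A : Finset (Hsm ((unrBasis S).comap V.subtype) (Rep.res V.subtype (CSfull S)) 2),
        (∀ y ∈ A, p • y = 0) → A.card ≤ p)
    (V : Subgroup GQ) (hV : (unrBasis S).IsOpen V) (hVU : V ≤ U₀)
    (φ : Hsm ((unrBasis S).comap V.subtype) (trivFp p V) 1 →+
      Hsm ((unrBasis S).comap V.subtype) (Rep.res V.subtype (CSfull S)) 2) :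
    ∃ (c : CSfull S) (hc : ∀ v ∈ V, (CSfull S).ρ v c = c), ∀ χ,
      (Csm.map ((unrBasis S).comap V.subtype) (constHom V (CSfull S) c hc)).mapH 2
        (bock p ((unrBasis S).comap V.subtype) χ) = φ χ := by
  have hTV := hT V hV hVU
  obtain ⟨K, hK, rfl⟩ := exists_field_of_isOpen S hV
  have hζK : ζ ∈ K := mem_of_fixed_Qbar K fun v hv => hU₀ v (hVU hv)
  refine cf4_surj_of_norm (unrBasis S) (CSfull S) K.fixingSubgroup hV
    (fun W hW hWV => hcf1 W hW (hWV.trans hVU)) ?_ (hF K hK ⟨ζ, hζK, hζ⟩) hTV φ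
  intro χ hχ σ hσ
  obtain ⟨M, hM, hlayer, hker⟩ := exists_layer_of_smChar S hK hχ hσ
  obtain ⟨c, hc, hcn⟩ := hN K hK ⟨ζ, hζK, hζ⟩ M hM hlayer
  refine ⟨c, hc, ?_⟩
  rw [hker]
  refine hcn σ.1 σ.2 ?_
  intro hσM
  rw [← hker] at hσM
  have := (mem_charKer_iff hχ.1 σ).1 hσM
  rw [hσ] at this
  exact one_ne_zero this

end Fermat.Agent.S55lib.LocalUnr
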