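/-
S55 sprint, block (II-a): the unit ball of a local field (normed setting) is adically complete.
-/
import Fermat.Agent.S55lib.LocalUnr.Basic

open scoped NormedField Valued NNReal Pointwise

namespace Fermat.Agent.S55lib.LocalUnr

set_option linter.style.haveILetI false

section Adic

variable (K : Type*) [NontriviallyNormedField K] [IsUltrametricDist K] [ProperSpace K]

/-- The unit ball of a local field is adically complete. -/
theorem isAdicComplete_integer : IsAdicComplete 𝓂[K] 𝒪[K] := by
  haveI := compactSpace_integer K
  haveI := isDVR_integer K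
  exact
  { prec' := fun f hf => by
      let S : ℕ → Set 𝒪[K] := fun n => f n +ᵥ ((𝓂[K] ^ n : Ideal 𝒪[K]) : Set 𝒪[K])
      have hS : ∀ n, S (n + 1) ⊆ S n := fun n => by
        apply (Set.vadd_set_subset_vadd_set_iff.mpr (Ideal.pow_le_pow_right n.le_succ)).trans
        simpa [S] using (hf n.le_succ).symm
      have h : ∀ n, IsClosed (S n) := fun n =>
        (IsNoetherianRing.isClosed_ideal (𝓂[K] ^ n)).vadd (f n)
      obtain ⟨L, hL⟩ := (h 0).isCompact.nonempty_iInter_of_sequence_nonempty_isCompact_isClosed S hS
        (by simp [S]) h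
      refine ⟨L, fun n ↦ ?_⟩
      obtain ⟨y, hy, rfl⟩ := Set.mem_iInter.mp hL n
      simpa [SModEq.sub_mem] using hy }

end Adic

end Fermat.Agent.S55lib.LocalUnr
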