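/-
S55 library, local theory (helper3).  **The absolute finite-level ↔ smooth dictionary**: the analogue of
`Formation.lean` for the whole group `Gal(Ω/K₀)` instead of an open subgroup `Gal(Ω/E)`, and the
compatibility of the two under restriction.

* `resG N : Gal(Ω/K₀) →* Gal(N/K₀)` (`coe_resG`, `resG_surjective`, `ker_resG`), `unitsIncl₀ N`,
  `inflV₀ N : Cpx.Hom (Call (Rep.ofAlgebraAutOnUnits K₀ N)) (Csm (basis K₀ Ω) (unitsRep K₀ Ω))`
  (`inflV₀_val`, `inflV₀_injective`), exhaustion `exists_inflV₀_eq`;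
* towers `N ≤ N'` : `towerAlgebra₀`, `tower₀_isScalarTower`, `galInfC₀`, `resHom_resG`,
  `inflV₀_galInfC₀`;
* `inflH₀ N n : Hⁿ(Gal(N/K₀), Nˣ) →+ Hsm (basis K₀ Ω) (unitsRep K₀ Ω) n` with **(a₀)**
  `exists_inflH₀_eq`, **(b₀)** `exists_galInf₀_eq_zero`, **(c₀)** `inflH₀_galInf`;
* **(r)** `mapG_inflH₀` : for `E`, `N : IntermediateField K₀ Ω`, `F : IntermediateField E Ω` with
  `h : N ≤ F.restrictScalars K₀` (algebra `algebraNF E N F h`, `algebraNF_isScalarTower`),
  `res_{Gal(Ω/E)} (inflH₀ N n y) = inflH E F n (map (resHom K₀ E N F) (galUnitsMap K₀ E N F) n y)`,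
  where `res` is `Csm.mapG ((basis K₀ Ω).isCont_comap E.fixingSubgroup.subtype) (𝟙 _)` (helper8's
  `CFDual.resHom`).
-/
import Mathlib
import Fermat.Agent.S55lib.LocalUnr.Formation

set_option autoImplicit false
set_option linter.unusedSectionVars false
set_option linter.style.haveILetI false

noncomputable section

namespace Fermat.Agent.S55lib.LocalUnr

open groupCohomology Fermat.Agent.S55lib Fermat.Agent.S55lib.LocalH

section AbsSub

variable {K₀ Ω : Type} [Field K₀] [Field Ω] [Algebra K₀ Ω] [IsGalois K₀ Ω]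
  (N : IntermediateField K₀ Ω) [Normal K₀ N]

/-- Restriction `Gal(Ω/K₀) → Gal(N/K₀)`. -/
def resG : (Ω ≃ₐ[K₀] Ω) →* (N ≃ₐ[K₀] N) := AlgEquiv.restrictNormalHom N

theorem coe_resG (σ : Ω ≃ₐ[K₀] Ω) (x : N) : ((resG N σ x : N) : Ω) = σ (x : Ω) :=
  AlgEquiv.restrictNormal_commutes σ N x

theorem resG_surjective : Function.Surjective (resG N) :=
  AlgEquiv.restrictNormalHom_surjective Ω

theorem mem_ker_resG_iff (σ : Ω ≃ₐ[K₀] Ω) :
    σ ∈ (resG N).ker ↔ ∀ x : N, σ (x : Ω) = (x : Ω) := by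
  rw [MonoidHom.mem_ker]
  constructor
  · intro h x
    rw [← coe_resG, h]; rfl
  · intro h
    ext x
    rw [coe_resG, h]; rfl

theorem ker_resG : (resG N).ker = N.fixingSubgroup := by
  ext σ
  rw [mem_ker_resG_iff, IntermediateField.mem_fixingSubgroup_iff]
  exact ⟨fun h x hx => h ⟨x, hx⟩, fun h x => h x.1 x.2⟩

/-- The inclusion `Nˣ → Ωˣ` as a morphism of representations along `resG`. -/
def unitsIncl₀ : Rep.res (resG N) (Rep.ofAlgebraAutOnUnits K₀ N) ⟶ unitsRep K₀ Ω :=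
  Rep.ofHom
    { toLinearMap := (MonoidHom.toAdditive (Units.map (algebraMap N Ω : N →* Ω))).toIntLinearMap
      isIntertwining' := fun σ => by
        refine LinearMap.ext fun v => ?_
        refine congrArg (uRep K₀) (Units.ext ?_)
        exact coe_resG N σ _ }

theorem unitsIncl₀_injective : Function.Injective (unitsIncl₀ N).hom := by
  intro a b hab
  have h1 : Units.map (algebraMap N Ω : N →* Ω) (uVal (K := K₀) (L := N) a) =
      Units.map (algebraMap N Ω : N →* Ω) (uVal (K := K₀) (L := N) b) := hab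
  have h2 : uVal (K := K₀) (L := N) a = uVal (K := K₀) (L := N) b :=
    Units.map_injective (f := (algebraMap N Ω : N →* Ω)) (algebraMap N Ω).injective h1
  exact congrArg (uRep K₀) h2

variable [GalBasis K₀ Ω]

/-- The kernel of `Gal(Ω/K₀) → Gal(N/K₀)` is open. -/
theorem exists_le_ker_resG [FiniteDimensional K₀ N] :
    ∃ U ∈ (basis K₀ Ω).sets, U ≤ (resG N).ker := by
  obtain ⟨U, hU, hle⟩ := IsGalBasis.exists_le_fixing (𝒰 := basis K₀ Ω) (galClosure N)
  refine ⟨U, hU, fun σ hσ => ?_⟩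
  rw [ker_resG]
  exact IntermediateField.fixingSubgroup_le (le_galClosure N) (hle hσ)

variable [FiniteDimensional K₀ N]

theorem inflFun₀_mem_smC (n : ℕ) (x : (Fin n → (N ≃ₐ[K₀] N)) → Rep.ofAlgebraAutOnUnits K₀ N) :
    ((cochainsMap (resG N) (unitsIncl₀ N)).f n).hom x ∈
      smC (basis K₀ Ω) (unitsRep K₀ Ω) n := by
  obtain ⟨U, hU, hUker⟩ := exists_le_ker_resG N
  refine ⟨U, hU, fun g s hs => ?_, fun g s hs => ?_⟩
  · show (unitsIncl₀ N).hom (x (resG N ∘ (g * s))) = (unitsIncl₀ N).hom (x (resG N ∘ g))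
    have : resG N ∘ (g * s) = resG N ∘ g := by
      funext i
      have h1 : resG N (s i) = 1 := MonoidHom.mem_ker.mp (hUker (hs i))
      simp [h1]
    rw [this]
  · show (unitsRep K₀ Ω).ρ s ((unitsIncl₀ N).hom (x (resG N ∘ g))) =
      (unitsIncl₀ N).hom (x (resG N ∘ g))
    rw [← Rep.hom_comm_apply]
    have h1 : resG N s = 1 := MonoidHom.mem_ker.mp (hUker hs)
    show (unitsIncl₀ N).hom ((Rep.ofAlgebraAutOnUnits K₀ N).ρ (resG N s) _) = _
    rw [h1, map_one]
    rfl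

/-- Inflation of cochains from the finite level `N/K₀` to the smooth cochains of `Gal(Ω/K₀)`. -/
def inflV₀ : Cpx.Hom (Call (Rep.ofAlgebraAutOnUnits K₀ N)) (Csm (basis K₀ Ω) (unitsRep K₀ Ω)) where
  f := fun n => (((cochainsMap (resG N) (unitsIncl₀ N)).f n).hom).codRestrict
    (smC (basis K₀ Ω) (unitsRep K₀ Ω) n) (inflFun₀_mem_smC N n)
  comm := by
    intro n x
    apply Subtype.ext
    have := (cochainsMap (resG N) (unitsIncl₀ N)).comm n (n + 1)
    simp only [CochainComplex.of_d] at this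
    have h := congrArg (fun ψ => ψ.hom x) this
    exact h.symm

theorem inflV₀_val (n : ℕ) (x : (Call (Rep.ofAlgebraAutOnUnits K₀ N)).X n)
    (g : Fin n → (Ω ≃ₐ[K₀] Ω)) :
    ((inflV₀ N).f n x).1 g = (unitsIncl₀ N).hom (x (resG N ∘ g)) := rfl

theorem inflV₀_injective (n : ℕ) : Function.Injective ((inflV₀ N).f n) := by
  intro x y hxy
  funext γ
  obtain ⟨g, hg⟩ : ∃ g : Fin n → (Ω ≃ₐ[K₀] Ω), resG N ∘ g = γ :=
    ⟨fun i => Function.surjInv (resG_surjective N) (γ i), funext fun i =>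
      Function.surjInv_eq (resG_surjective N) (γ i)⟩
  have h := congrFun (congrArg Subtype.val hxy) g
  rw [inflV₀_val, inflV₀_val, hg] at h
  exact unitsIncl₀_injective N h

end AbsSub

section AbsExhaust

variable {K₀ Ω : Type} [Field K₀] [Field Ω] [Algebra K₀ Ω] [IsGalois K₀ Ω]

/-- a unit of `Ω` lying in an intermediate field, as a unit of that field -/
def unitOfMem₀ (N : IntermediateField K₀ Ω) (u : Ωˣ) (hu : (u : Ω) ∈ N) : (↥N)ˣ where
  val := ⟨u, hu⟩
  inv := ⟨((u⁻¹ : Ωˣ) : Ω), by rw [Units.val_inv_eq_inv_val]; exact N.inv_mem hu⟩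
  val_inv := Subtype.ext (by simp)
  inv_val := Subtype.ext (by simp)

theorem coe_unitOfMem₀ (N : IntermediateField K₀ Ω) (u : Ωˣ) (hu : (u : Ω) ∈ N) :
    ((unitOfMem₀ N u hu : (↥N)ˣ) : Ω) = (u : Ω) := rfl

variable [GalBasis K₀ Ω]

/-- Every basic open subgroup contains the kernel of the restriction to some finite Galois `N/K₀`,
which may be chosen to contain a given one. -/
theorem exists_ker_resG_le (N₀ : FiniteGaloisIntermediateField K₀ Ω)
    {U : Subgroup (Ω ≃ₐ[K₀] Ω)} (hU : U ∈ (basis K₀ Ω).sets) :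
    ∃ N : FiniteGaloisIntermediateField K₀ Ω, N₀ ≤ N ∧
      (resG N.toIntermediateField).ker ≤ U := by
  obtain ⟨N', hN'⟩ := IsGalBasis.exists_fixing_le (𝒰 := basis K₀ Ω) U hU
  refine ⟨N₀ ⊔ N', le_sup_left, fun σ hσ => hN' ?_⟩
  rw [ker_resG] at hσ
  have hle : N'.toIntermediateField ≤ (N₀ ⊔ N').toIntermediateField := by
    have : N' ≤ N₀ ⊔ N' := le_sup_right
    exact this
  exact IntermediateField.fixingSubgroup_le hle hσ

/-- Descent of a smooth cochain to a finite Galois level `N/K₀` whose kernel is contained in the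
level of the cochain. -/
theorem exists_inflV₀_eq_of_ker_le (N : IntermediateField K₀ Ω) [FiniteDimensional K₀ N]
    [IsGalois K₀ N] {n : ℕ} (x : (Csm (basis K₀ Ω) (unitsRep K₀ Ω)).X n)
    {U : Subgroup (Ω ≃ₐ[K₀] Ω)} (hker : (resG N).ker ≤ U) (hinv : IsInvR U x.1)
    (hfix : ∀ g, ∀ s ∈ U, (unitsRep K₀ Ω).ρ s (x.1 g) = x.1 g) :
    ∃ y : (Call (Rep.ofAlgebraAutOnUnits K₀ N)).X n, (inflV₀ N).f n y = x := by
  let s : (N ≃ₐ[K₀] N) → (Ω ≃ₐ[K₀] Ω) := Function.surjInv (resG_surjective N)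
  have hs : ∀ γ, resG N (s γ) = γ := Function.surjInv_eq (resG_surjective N)
  -- the values lie in `N`
  have hval : ∀ g : Fin n → (Ω ≃ₐ[K₀] Ω),
      ((uVal (K := K₀) (L := Ω) (x.1 g) : Ωˣ) : Ω) ∈ N := by
    intro g
    apply mem_of_fixed N
    intro τ hτ
    have hτker : τ ∈ (resG N).ker := by rw [ker_resG]; exact hτ
    have h1 := hfix g τ (hker hτker)
    exact congrArg (fun a => ((uVal (K := K₀) (L := Ω) a : Ωˣ) : Ω)) h1
  refine ⟨fun γ => uRep K₀ (unitOfMem₀ N (uVal (K := K₀) (L := Ω) (x.1 (s ∘ γ))) (hval _)), ?_⟩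
  apply Subtype.ext
  funext g
  refine Eq.trans (inflV₀_val N n _ g) ?_
  have h1 : (unitsIncl₀ N).hom (uRep K₀ (unitOfMem₀ N
      (uVal (K := K₀) (L := Ω) (x.1 (s ∘ (resG N ∘ g)))) (hval _))) =
      x.1 (s ∘ (resG N ∘ g)) := by
    refine Eq.trans ?_ (uRep_uVal (K := K₀) (L := Ω) (x.1 (s ∘ (resG N ∘ g))))
    refine congrArg (uRep K₀) (Units.ext ?_)
    rfl
  refine Eq.trans h1 ?_
  refine (isInvR_iff.1 hinv _ _ fun i => hker ?_).symm
  rw [MonoidHom.mem_ker, map_mul, map_inv, Function.comp_apply, Function.comp_apply, hs,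
    inv_mul_cancel]

/-- **Exhaustion (absolute).**  Every smooth cochain of `Gal(Ω/K₀)` with values in `Ωˣ` is inflated
from a finite Galois level `N/K₀`, which may be chosen to contain a given one. -/
theorem exists_inflV₀_eq (N₀ : FiniteGaloisIntermediateField K₀ Ω) {n : ℕ}
    (x : (Csm (basis K₀ Ω) (unitsRep K₀ Ω)).X n) :
    ∃ (N : FiniteGaloisIntermediateField K₀ Ω) (_ : N₀ ≤ N)
      (y : (Call (Rep.ofAlgebraAutOnUnits K₀ N.toIntermediateField)).X n),
      (inflV₀ N.toIntermediateField).f n y = x := by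
  obtain ⟨U, hU, hinv, hfix⟩ := x.2
  obtain ⟨N, hN₀, hker⟩ := exists_ker_resG_le N₀ hU
  exact ⟨N, hN₀, exists_inflV₀_eq_of_ker_le N.toIntermediateField x hker hinv hfix⟩

end AbsExhaust

section AbsTower

variable {K₀ Ω : Type} [Field K₀] [Field Ω] [Algebra K₀ Ω] [IsGalois K₀ Ω]
  (N N' : IntermediateField K₀ Ω) (h : N ≤ N')

/-- the algebra structure of a tower of intermediate fields of `Ω/K₀` -/
@[reducible] def towerAlgebra₀ : Algebra N N' := (IntermediateField.inclusion h).toAlgebra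

theorem tower₀_isScalarTower : letI := towerAlgebra₀ N N' h; IsScalarTower K₀ N N' :=
  letI := towerAlgebra₀ N N' h
  IsScalarTower.of_algebraMap_eq (fun _ => rfl)

variable [FiniteDimensional K₀ N] [IsGalois K₀ N] [FiniteDimensional K₀ N'] [IsGalois K₀ N']

/-- Inflation of cochains between two finite levels `N ≤ N'`. -/
def galInfC₀ : Cpx.Hom (Call (Rep.ofAlgebraAutOnUnits K₀ N)) (Call (Rep.ofAlgebraAutOnUnits K₀ N')) :=
  letI := towerAlgebra₀ N N' h
  haveI := tower₀_isScalarTower N N' h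
  Call.map (resHom K₀ K₀ N N') (galUnitsMap K₀ K₀ N N')

theorem resHom_resG (σ : Ω ≃ₐ[K₀] Ω) :
    letI := towerAlgebra₀ N N' h
    haveI := tower₀_isScalarTower N N' h
    resHom K₀ K₀ N N' (resG N' σ) = resG N σ := by
  letI := towerAlgebra₀ N N' h
  haveI := tower₀_isScalarTower N N' h
  ext x
  have h1 := algebraMap_resHom' K₀ K₀ N N' (resG N' σ) x
  have h2 : ((resHom K₀ K₀ N N' (resG N' σ) x : N) : Ω) =
      ((algebraMap N N' (resHom K₀ K₀ N N' (resG N' σ) x) : N') : Ω) := rfl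
  rw [h2, h1, coe_resG, coe_resG]
  rfl

variable [GalBasis K₀ Ω]

/-- Inflation to the limit is compatible with inflation between finite levels. -/
theorem inflV₀_galInfC₀ (n : ℕ) (y : (Call (Rep.ofAlgebraAutOnUnits K₀ N)).X n) :
    (inflV₀ N').f n ((galInfC₀ N N' h).f n y) = (inflV₀ N).f n y := by
  letI := towerAlgebra₀ N N' h
  haveI := tower₀_isScalarTower N N' h
  apply Subtype.ext
  funext g
  refine Eq.trans (inflV₀_val N' n _ g) ?_
  refine Eq.trans ?_ (inflV₀_val N n _ g).symm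
  have h1 : (galInfC₀ N N' h).f n y (resG N' ∘ g) =
      (galUnitsMap K₀ K₀ N N').hom (y (resHom K₀ K₀ N N' ∘ (resG N' ∘ g))) := rfl
  rw [h1]
  have h2 : resHom K₀ K₀ N N' ∘ (resG N' ∘ g) = resG N ∘ g := by
    funext i
    exact resHom_resG N N' h (g i)
  rw [h2]
  refine congrArg (uRep K₀) (Units.ext ?_)
  rfl

end AbsTower

section AbsCoh

variable {K₀ Ω : Type} [Field K₀] [Field Ω] [Algebra K₀ Ω] [IsGalois K₀ Ω] [GalBasis K₀ Ω]

/-- The comparison map `Hⁿ(Gal(N/K₀), Nˣ) → Hⁿ_sm(Gal(Ω/K₀), Ωˣ)`. -/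
def inflH₀ (N : IntermediateField K₀ Ω) [FiniteDimensional K₀ N] [IsGalois K₀ N] (n : ℕ) :
    groupCohomology (Rep.ofAlgebraAutOnUnits K₀ N) n →+ Hsm (basis K₀ Ω) (unitsRep K₀ Ω) n :=
  ((inflV₀ N).mapH n).toAddMonoidHom.comp
    (Call.toGC (Rep.ofAlgebraAutOnUnits K₀ N) n).symm.toAddEquiv.toAddMonoidHom

theorem inflH₀_toGC_cl (N : IntermediateField K₀ Ω) [FiniteDimensional K₀ N] [IsGalois K₀ N]
    {n : ℕ} (z : (Call (Rep.ofAlgebraAutOnUnits K₀ N)).X n)
    (hz : (Call (Rep.ofAlgebraAutOnUnits K₀ N)).d n z = 0) :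
    inflH₀ N n (Call.toGC _ n ((Call (Rep.ofAlgebraAutOnUnits K₀ N)).cl z hz)) =
      (Csm (basis K₀ Ω) (unitsRep K₀ Ω)).cl ((inflV₀ N).f n z) ((inflV₀ N).map_Z n hz) := by
  unfold inflH₀
  have h1 : (Call.toGC (Rep.ofAlgebraAutOnUnits K₀ N) n).symm
      (Call.toGC _ n ((Call (Rep.ofAlgebraAutOnUnits K₀ N)).cl z hz)) =
      (Call (Rep.ofAlgebraAutOnUnits K₀ N)).cl z hz := LinearEquiv.symm_apply_apply _ _
  change (inflV₀ N).mapH n ((Call.toGC (Rep.ofAlgebraAutOnUnits K₀ N) n).symm _) = _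
  rw [h1]
  rfl

/-- **(a₀)** Every smooth cohomology class of `Gal(Ω/K₀)` in `Ωˣ` comes from a finite Galois
level. -/
theorem exists_inflH₀_eq (N₀ : FiniteGaloisIntermediateField K₀ Ω) {n : ℕ}
    (x : Hsm (basis K₀ Ω) (unitsRep K₀ Ω) n) :
    ∃ (N : FiniteGaloisIntermediateField K₀ Ω) (_ : N₀ ≤ N)
      (y : groupCohomology (Rep.ofAlgebraAutOnUnits K₀ N.toIntermediateField) n),
      inflH₀ N.toIntermediateField n y = x := by
  obtain ⟨a, ha, rfl⟩ := (Csm (basis K₀ Ω) (unitsRep K₀ Ω)).exists_rep x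
  obtain ⟨N, hN, z, hz⟩ := exists_inflV₀_eq N₀ a
  have hdz : (Call (Rep.ofAlgebraAutOnUnits K₀ N.toIntermediateField)).d n z = 0 := by
    apply inflV₀_injective N.toIntermediateField (n + 1)
    rw [(inflV₀ N.toIntermediateField).comm, hz, ha, map_zero]
  refine ⟨N, hN, Call.toGC _ n (Cpx.cl _ z hdz), ?_⟩
  rw [inflH₀_toGC_cl]
  exact Cpx.cl_congr _ hz _

variable (N N' : IntermediateField K₀ Ω) (h : N ≤ N')
  [FiniteDimensional K₀ N] [IsGalois K₀ N] [FiniteDimensional K₀ N'] [IsGalois K₀ N']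

/-- **(c₀)** compatibility of the comparison maps with inflation between finite levels. -/
theorem inflH₀_galInf {n : ℕ} (y : groupCohomology (Rep.ofAlgebraAutOnUnits K₀ N) n) :
    letI := towerAlgebra₀ N N' h
    haveI := tower₀_isScalarTower N N' h
    inflH₀ N' n (galInf K₀ N N' n y) = inflH₀ N n y := by
  letI := towerAlgebra₀ N N' h
  haveI := tower₀_isScalarTower N N' h
  obtain ⟨w, rfl⟩ := (Call.toGC (Rep.ofAlgebraAutOnUnits K₀ N) n).surjective y
  obtain ⟨z, hz, rfl⟩ := (Call (Rep.ofAlgebraAutOnUnits K₀ N)).exists_rep w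
  have h1 : galInf K₀ N N' n (Call.toGC _ n ((Call (Rep.ofAlgebraAutOnUnits K₀ N)).cl z hz)) =
      Call.toGC _ n ((galInfC₀ N N' h).mapH n ((Call (Rep.ofAlgebraAutOnUnits K₀ N)).cl z hz)) :=
    (Call.toGC_map (resHom K₀ K₀ N N') (galUnitsMap K₀ K₀ N N') n _).symm
  rw [h1, Cpx.Hom.mapH_cl, inflH₀_toGC_cl, inflH₀_toGC_cl]
  exact Cpx.cl_congr _ (inflV₀_galInfC₀ N N' h n z) _

omit [FiniteDimensional K₀ N] [IsGalois K₀ N] [FiniteDimensional K₀ N'] [IsGalois K₀ N'] in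
/-- **(b₀)** A finite-level class dying in the smooth cohomology of `Gal(Ω/K₀)` already dies after
inflation to some larger finite level. -/
theorem exists_galInf₀_eq_zero (N : FiniteGaloisIntermediateField K₀ Ω) {n : ℕ}
    (y : groupCohomology (Rep.ofAlgebraAutOnUnits K₀ N.toIntermediateField) n)
    (hy : inflH₀ N.toIntermediateField n y = 0) :
    ∃ (N' : FiniteGaloisIntermediateField K₀ Ω) (h : N ≤ N'),
      letI := towerAlgebra₀ N.toIntermediateField N'.toIntermediateField h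
      haveI := tower₀_isScalarTower N.toIntermediateField N'.toIntermediateField h
      galInf K₀ N.toIntermediateField N'.toIntermediateField n y = 0 := by
  obtain ⟨w, rfl⟩ := (Call.toGC (Rep.ofAlgebraAutOnUnits K₀ N.toIntermediateField) n).surjective y
  obtain ⟨z, hz, rfl⟩ := (Call (Rep.ofAlgebraAutOnUnits K₀ N.toIntermediateField)).exists_rep w
  rw [inflH₀_toGC_cl, Cpx.cl_eq_zero_iff] at hy
  suffices hsuff : ∃ (N' : FiniteGaloisIntermediateField K₀ Ω) (h : N ≤ N'),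
      (galInfC₀ N.toIntermediateField N'.toIntermediateField h).f n z ∈
        (Call (Rep.ofAlgebraAutOnUnits K₀ N'.toIntermediateField)).B n by
    obtain ⟨N', h, hB⟩ := hsuff
    refine ⟨N', h, ?_⟩
    letI := towerAlgebra₀ N.toIntermediateField N'.toIntermediateField h
    haveI := tower₀_isScalarTower N.toIntermediateField N'.toIntermediateField h
    have h1 : galInf K₀ N.toIntermediateField N'.toIntermediateField n (Call.toGC _ n
        ((Call (Rep.ofAlgebraAutOnUnits K₀ N.toIntermediateField)).cl z hz)) =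
        Call.toGC _ n ((galInfC₀ N.toIntermediateField N'.toIntermediateField h).mapH n
          ((Call (Rep.ofAlgebraAutOnUnits K₀ N.toIntermediateField)).cl z hz)) :=
      (Call.toGC_map (resHom K₀ K₀ N.toIntermediateField N'.toIntermediateField)
        (galUnitsMap K₀ K₀ N.toIntermediateField N'.toIntermediateField) n _).symm
    rw [h1, Cpx.Hom.mapH_cl, Cpx.cl_eq_zero_iff.mpr hB, map_zero]
  cases n with
  | zero =>
    rw [Cpx.mem_B_zero] at hy
    have hz0 : z = 0 := inflV₀_injective N.toIntermediateField 0 (by rw [hy, map_zero])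
    refine ⟨N, le_rfl, ?_⟩
    rw [hz0, map_zero]
    exact Submodule.zero_mem _
  | succ n =>
    rw [Cpx.mem_B_succ] at hy
    obtain ⟨x, hx⟩ := hy
    obtain ⟨N', hN', w, hw⟩ := exists_inflV₀_eq N x
    refine ⟨N', hN', ?_⟩
    rw [Cpx.mem_B_succ]
    refine ⟨w, ?_⟩
    apply inflV₀_injective N'.toIntermediateField (n + 1)
    rw [(inflV₀ N'.toIntermediateField).comm, hw, hx, inflV₀_galInfC₀]

end AbsCoh

section AbsRes

variable {K₀ Ω : Type} [Field K₀] [Field Ω] [Algebra K₀ Ω] [IsGalois K₀ Ω]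
  (E : IntermediateField K₀ Ω) (N : IntermediateField K₀ Ω) (F : IntermediateField E Ω)
  (h : N ≤ F.restrictScalars K₀)

/-- the inclusion `N → F` of a `K₀`-level into an `E`-level containing it -/
def inclNF : ↥N →+* ↥F where
  toFun x := ⟨x.1, h x.2⟩
  map_one' := rfl
  map_mul' _ _ := rfl
  map_zero' := rfl
  map_add' _ _ := rfl

/-- the algebra structure `N → F` -/
@[reducible] def algebraNF : Algebra ↥N ↥F := (inclNF E N F h).toAlgebra

theorem algebraNF_isScalarTower : letI := algebraNF E N F h; IsScalarTower K₀ ↥N ↥F :=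
  letI := algebraNF E N F h
  IsScalarTower.of_algebraMap_eq (fun _ => rfl)

variable [FiniteDimensional K₀ E] [FiniteDimensional K₀ N] [IsGalois K₀ N]
  [FiniteDimensional E F] [IsGalois E F]

theorem resHom_resV_abs (σ : ↥E.fixingSubgroup) :
    letI := algebraNF E N F h
    haveI := algebraNF_isScalarTower E N F h
    resHom K₀ ↥E ↥N ↥F (resV E F σ) = resG N (σ : Ω ≃ₐ[K₀] Ω) := by
  letI := algebraNF E N F h
  haveI := algebraNF_isScalarTower E N F h
  ext x
  have h1 := algebraMap_resHom' K₀ ↥E ↥N ↥F (resV E F σ) x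
  have h2 : ((resHom K₀ ↥E ↥N ↥F (resV E F σ) x : N) : Ω) =
      ((algebraMap ↥N ↥F (resHom K₀ ↥E ↥N ↥F (resV E F σ) x) : F) : Ω) := rfl
  rw [h2, h1, coe_resV, coe_resG]
  rfl

variable [GalBasis K₀ Ω]

/-- **(r)** Restriction of smooth classes from `Gal(Ω/K₀)` to the open subgroup `Gal(Ω/E)` is
compatible with the finite-level map `Hⁿ(Gal(N/K₀), Nˣ) → Hⁿ(Gal(F/E), Fˣ)` (`N ⊂ F`). -/
theorem mapG_inflH₀ {n : ℕ} (y : groupCohomology (Rep.ofAlgebraAutOnUnits K₀ N) n) :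
    letI := algebraNF E N F h
    haveI := algebraNF_isScalarTower E N F h
    (Csm.mapG ((basis K₀ Ω).isCont_comap E.fixingSubgroup.subtype)
        (CategoryTheory.CategoryStruct.id (subRep E))).mapH n (inflH₀ N n y) =
      inflH E F n (groupCohomology.map (resHom K₀ ↥E ↥N ↥F) (galUnitsMap K₀ ↥E ↥N ↥F) n y) := by
  letI := algebraNF E N F h
  haveI := algebraNF_isScalarTower E N F h
  obtain ⟨w, rfl⟩ := (Call.toGC (Rep.ofAlgebraAutOnUnits K₀ N) n).surjective y
  obtain ⟨z, hz, rfl⟩ := (Call (Rep.ofAlgebraAutOnUnits K₀ N)).exists_rep w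
  have h1 : groupCohomology.map (resHom K₀ ↥E ↥N ↥F) (galUnitsMap K₀ ↥E ↥N ↥F) n
      (Call.toGC _ n ((Call (Rep.ofAlgebraAutOnUnits K₀ N)).cl z hz)) =
      Call.toGC _ n ((Call.map (resHom K₀ ↥E ↥N ↥F) (galUnitsMap K₀ ↥E ↥N ↥F)).mapH n
        ((Call (Rep.ofAlgebraAutOnUnits K₀ N)).cl z hz)) :=
    (Call.toGC_map (resHom K₀ ↥E ↥N ↥F) (galUnitsMap K₀ ↥E ↥N ↥F) n _).symm
  rw [h1, Cpx.Hom.mapH_cl, inflH_toGC_cl, inflH₀_toGC_cl, Cpx.Hom.mapH_cl]
  refine Cpx.cl_congr _ ?_ _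
  apply Subtype.ext
  funext g
  refine Eq.trans (Csm.mapG_val _ _ n _ g) ?_
  refine Eq.trans ?_ (inflV_val E F n _ g).symm
  have h2 : (Call.map (resHom K₀ ↥E ↥N ↥F) (galUnitsMap K₀ ↥E ↥N ↥F)).f n z (resV E F ∘ g) =
      (galUnitsMap K₀ ↥E ↥N ↥F).hom (z (resHom K₀ ↥E ↥N ↥F ∘ (resV E F ∘ g))) := rfl
  rw [h2]
  have h3 : resHom K₀ ↥E ↥N ↥F ∘ (resV E F ∘ g) = resG N ∘ (E.fixingSubgroup.subtype ∘ g) := by
    funext i
    exact resHom_resV_abs E N F h (g i)
  rw [h3]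
  refine Eq.trans (congrArg _ (inflV₀_val N n z (E.fixingSubgroup.subtype ∘ g))) ?_
  refine congrArg (uRep K₀) (Units.ext ?_)
  rfl

end AbsRes

end Fermat.Agent.S55lib.LocalUnr
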