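/-
S55 library, local theory (helper3).  **The level basis of the local Galois group is a basis of the
Krull topology**: `levelBasis q = OpenBasis.ofLevel (localGaloisToGlobal q) LevelClass.all`
(helper7's `Cpx/Level.lean`) satisfies `IsGalBasis ℚ_[q] (PadicAlgCl q)` — by Krasner
(`KrasnerDense.lean`: every finite `E/ℚ_q` lies in `ℚ_q · τ_q(F)` for a number field `F`).
`Nat.Primes` form for helper7's `basisLoc q = OpenBasis.ofLevel (rloc q) LevelClass.all` on
`Gloc q`: instance `isGalBasis_ofLevel_rloc`, `galBasisLevel q : GalBasis ℚ_[q] (PadicAlgCl q)`.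
So every statement of `Formation`, `FormationAbs`, `SymbolLimit`, `CF4Local` (and helper6's local
CF1–CF3 once generic in `[GalBasis K₀ Ω]`) holds verbatim for `basisLoc q`.
-/
import Mathlib
import Fermat.Agent.S55lib.LocalUnr.Formation
import Fermat.Agent.S55lib.LocalUnr.KrasnerDense
import Fermat.Agent.S55lib.Cpx.Level
import Fermat.Agent.S55lib.Iface.Top
import Fermat.Agent.S55lib.Iface.Modules

set_option autoImplicit false
set_option linter.unusedSectionVars false
set_option linter.style.haveILetI false

noncomputable section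

namespace Fermat.Agent.S55lib.LocalUnr

open Fermat.Agent.S55lib ExtCitation

section Nat

variable (q : ℕ) [Fact q.Prime]

/-- the level basis of the local Galois group: the subgroups `r⁻¹ Gal(ℚ̄/F)`, `F/ℚ` finite normal,
`r = localGaloisToGlobal q` -/
abbrev levelBasis : OpenBasis (PadicAlgCl q ≃ₐ[ℚ_[q]] PadicAlgCl q) :=
  OpenBasis.ofLevel (localGaloisToGlobal q) LevelClass.all

/-- **The level basis is a basis of the Krull topology of `Gal(ℚ̄_q/ℚ_q)`** (Krasner). -/
instance isGalBasis_levelBasis : IsGalBasis ℚ_[q] (PadicAlgCl q) (levelBasis q) where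
  exists_fixing_le := by
    rintro _ ⟨F, hF, hN, rfl⟩
    haveI : FiniteDimensional ℚ F := hF
    haveI := finiteDimensional_adjoin_image q F
    refine ⟨galClosure (IntermediateField.adjoin ℚ_[q]
      (padicEmbedding q '' (F : Set (AlgebraicClosure ℚ)))), fun d hd => ?_⟩
    rw [Subgroup.mem_comap, localGaloisToGlobal_mem_fixingSubgroup_iff]
    exact IntermediateField.fixingSubgroup_le (le_galClosure _) hd
  exists_le_fixing := by
    intro N
    obtain ⟨F, hF, hle⟩ := exists_global_level q N.toIntermediateField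
    obtain ⟨U, hU, hUle⟩ := OpenBasis.exists_ofLevel_le (r := localGaloisToGlobal q)
      (𝓛 := LevelClass.all) (F := F) hF
    exact ⟨U, hU, fun d hd => hle d (hUle hd)⟩

end Nat

section Primes

/-- **helper7's local basis `basisLoc q = OpenBasis.ofLevel (rloc q) LevelClass.all` is a basis of the
Krull topology** of `Gloc q = Gal(ℚ̄_q/ℚ_q)`. -/
instance isGalBasis_ofLevel_rloc (q : Nat.Primes) :
    IsGalBasis ℚ_[(q : ℕ)] (PadicAlgCl (q : ℕ)) (OpenBasis.ofLevel (rloc q) LevelClass.all) :=
  isGalBasis_levelBasis (q : ℕ)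

/-- the ambient-basis structure of the level basis -/
@[reducible] def galBasisLevel (q : Nat.Primes) : GalBasis ℚ_[(q : ℕ)] (PadicAlgCl (q : ℕ)) :=
  GalBasis.of ℚ_[(q : ℕ)] (PadicAlgCl (q : ℕ)) (OpenBasis.ofLevel (rloc q) LevelClass.all)

theorem basis_galBasisLevel (q : Nat.Primes) :
    basis ℚ_[(q : ℕ)] (PadicAlgCl (q : ℕ)) (B := galBasisLevel q) =
      OpenBasis.ofLevel (rloc q) LevelClass.all := rfl

end Primes

end Fermat.Agent.S55lib.LocalUnr
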